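import Fermat.Agent.S41.PD.Basic

/-!
# S41, Poincare duality block, (P1c2): calculus of `ccS`, part 2 (no finiteness needed)
-/

set_option autoImplicit false
open scoped MatrixGroups
open Matrix

namespace Fermat.Agent.S41Lib

theorem PC_adj_mul_injective {g : M2} (hg : g.det ≠ 0) :
    Function.Injective fun D : M2 => g.adjugate * D := by
  intro D D' h
  have h1 : g * (g.adjugate * D) = g * (g.adjugate * D') := congrArg (fun X => g * X) h
  rw [← Matrix.mul_assoc, ← Matrix.mul_assoc, Matrix.mul_adjugate, Matrix.smul_mul,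
    Matrix.smul_mul, Matrix.one_mul, Matrix.one_mul] at h1
  exact smul_right_injective M2 hg h1

theorem PC_mul_injective {g : M2} (hg : g.det ≠ 0) :
    Function.Injective fun D : M2 => D * g := by
  intro D D' h
  have h1 : (D * g) * g.adjugate = (D' * g) * g.adjugate := congrArg (fun X => X * g.adjugate) h
  rw [Matrix.mul_assoc, Matrix.mul_assoc, Matrix.mul_adjugate, Matrix.mul_smul,
    Matrix.mul_smul, Matrix.mul_one, Matrix.mul_one] at h1
  exact smul_right_injective M2 hg h1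

theorem PC_finsum_mem_neg {α : Type*} (s : Set α) (f : α → ℤ) :
    ∑ᶠ i ∈ s, -f i = -∑ᶠ i ∈ s, f i := by
  rw [finsum_mem_def, finsum_mem_def, ← finsum_neg_distrib]
  refine finsum_congr fun i => ?_
  by_cases hi : i ∈ s
  · rw [Set.indicator_of_mem hi, Set.indicator_of_mem hi]
  · rw [Set.indicator_of_notMem hi, Set.indicator_of_notMem hi, neg_zero]

theorem ccS_act (𝒟 : Set M2) (u v : V2) (P P' : QF) {g : M2} (hg : 0 < g.det) :
    ccS 𝒟 u v (P.act g) (P'.act g) = ccS ((fun D => g.adjugate * D) '' 𝒟) u v P P' := by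
  unfold ccS
  rw [finsum_mem_image ((PC_adj_mul_injective hg.ne').injOn)]
  refine finsum_mem_congr rfl fun D _ => ?_
  unfold dsd
  rw [sd_act P hg, sd_act P' hg, Matrix.mulVec_mulVec, Matrix.mulVec_mulVec]

theorem ccS_mulVec (𝒟 : Set M2) (u v : V2) (P P' : QF) {g : M2} (hg : g.det ≠ 0) :
    ccS 𝒟 (g *ᵥ u) (g *ᵥ v) P P' = ccS ((fun D => D * g) '' 𝒟) u v P P' := by
  unfold ccS
  rw [finsum_mem_image ((PC_mul_injective hg).injOn)]
  refine finsum_mem_congr rfl fun D _ => ?_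
  rw [Matrix.mulVec_mulVec, Matrix.mulVec_mulVec]

theorem ccS_swap (𝒟 : Set M2) (u v : V2) (P P' : QF) : ccS 𝒟 v u P P' = -ccS 𝒟 u v P P' := by
  unfold ccS
  rw [← PC_finsum_mem_neg]
  refine finsum_mem_congr rfl fun D _ => ?_
  unfold dsd
  rw [sd_swap P', sd_swap P]
  ring

theorem ccS_smul_left (𝒟 : Set M2) {n : ℤ} (hn : n ≠ 0) (u v : V2) (P P' : QF) :
    ccS 𝒟 (n • u) v P P' = ccS 𝒟 u v P P' := by
  unfold ccS
  refine finsum_mem_congr rfl fun D _ => ?_
  unfold dsd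
  rw [Matrix.mulVec_smul, sd_smul_left P' hn, sd_smul_left P hn]

theorem ccS_smul_right (𝒟 : Set M2) {n : ℤ} (hn : n ≠ 0) (u v : V2) (P P' : QF) :
    ccS 𝒟 u (n • v) P P' = ccS 𝒟 u v P P' := by
  unfold ccS
  refine finsum_mem_congr rfl fun D _ => ?_
  unfold dsd
  rw [Matrix.mulVec_smul, sd_smul_right P' hn, sd_smul_right P hn]

theorem ccS_of_dt_eq_zero (𝒟 : Set M2) {u v : V2} (h : dt u v = 0) (P P' : QF) :
    ccS 𝒟 u v P P' = 0 := by
  unfold ccS
  refine finsum_mem_eq_zero_of_forall_eq_zero fun D _ => ?_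
  have h1 : dt (D *ᵥ u) (D *ᵥ v) = 0 := by rw [dt_mulVec, h, mul_zero]
  unfold dsd
  rw [sd_of_dt_eq_zero P' h1, sd_of_dt_eq_zero P h1, sub_zero]

end Fermat.Agent.S41Lib
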