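import Fermat.Agent.S41.PD.Defs2

/-!
# S41, Poincare duality block, (S2): from symbols to parabolic homomorphisms
-/

set_option autoImplicit false
open scoped MatrixGroups
open Matrix ModularGroup CongruenceSubgroup

namespace Fermat.Agent.S41Lib

theorem PI_mulVec_ne_zero (g : SL(2, ℤ)) {u : V2} (hu : u ≠ 0) : (g : M2) *ᵥ u ≠ 0 := by
  intro h
  apply hu
  have h1 : ((g⁻¹ : SL(2, ℤ)) : M2) *ᵥ ((g : M2) *ᵥ u) = u := by
    rw [Matrix.mulVec_mulVec, ← Matrix.SpecialLinearGroup.coe_mul, inv_mul_cancel,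
      Matrix.SpecialLinearGroup.coe_one, Matrix.one_mulVec]
  rw [← h1, h, Matrix.mulVec_zero]

theorem PI_e1_ne_zero : e1 ≠ 0 := by
  intro h
  have := congrFun h 0
  simp [e1] at this

theorem PI_e2_ne_zero : e2 ≠ 0 := by
  intro h
  have := congrFun h 1
  simp [e2] at this

theorem IsSym.self {Γ : Subgroup SL(2, ℤ)} {φ : V2 → V2 → ℤ} (h : IsSym Γ φ) {u : V2} (hu : u ≠ 0) :
    φ u u = 0 := by
  have := h.add u u u hu hu hu
  linarith

theorem IsSym.swap {Γ : Subgroup SL(2, ℤ)} {φ : V2 → V2 → ℤ} (h : IsSym Γ φ) {u v : V2} (hu : u ≠ 0)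
    (hv : v ≠ 0) : φ v u = -φ u v := by
  have := h.add u v u hu hv hu
  rw [h.self hu] at this
  linarith

theorem IsSym.base {Γ : Subgroup SL(2, ℤ)} {φ : V2 → V2 → ℤ} (h : IsSym Γ φ) {γ : SL(2, ℤ)}
    (hγ : γ ∈ Γ) {u v : V2} (hu : u ≠ 0) (hv : v ≠ 0) :
    φ u ((γ : M2) *ᵥ u) = φ v ((γ : M2) *ᵥ v) := by
  have hu' := PI_mulVec_ne_zero γ hu
  have hv' := PI_mulVec_ne_zero γ hv
  have h1 := h.add u v ((γ : M2) *ᵥ u) hu hv hu'
  have h2 := h.add v ((γ : M2) *ᵥ v) ((γ : M2) *ᵥ u) hv hv' hu'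
  have h3 := h.inv γ hγ v u
  have h4 := h.swap hu hv
  linarith

theorem IsSym.pi_mul {Γ : Subgroup SL(2, ℤ)} {φ : V2 → V2 → ℤ} (h : IsSym Γ φ) {γ γ' : SL(2, ℤ)}
    (hγ : γ ∈ Γ) (hγ' : γ' ∈ Γ) :
    φ e1 (((γ * γ' : SL(2, ℤ)) : M2) *ᵥ e1) = φ e1 ((γ : M2) *ᵥ e1) + φ e1 ((γ' : M2) *ᵥ e1) := by
  rw [Matrix.SpecialLinearGroup.coe_mul, ← Matrix.mulVec_mulVec]
  have h1 := h.add e1 ((γ : M2) *ᵥ e1) ((γ : M2) *ᵥ ((γ' : M2) *ᵥ e1)) PI_e1_ne_zero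
    (PI_mulVec_ne_zero γ PI_e1_ne_zero) (PI_mulVec_ne_zero γ (PI_mulVec_ne_zero γ' PI_e1_ne_zero))
  have h2 := h.inv γ hγ e1 ((γ' : M2) *ᵥ e1)
  linarith

theorem PI_fixed {Γ : Subgroup SL(2, ℤ)} {φ : V2 → V2 → ℤ} (h : IsSym Γ φ) {γ : SL(2, ℤ)}
    (hγ : γ ∈ Γ) {v : V2} (hv : v ≠ 0) {ε : ℤ} (hε : ε ≠ 0) (hfix : (γ : M2) *ᵥ v = ε • v) :
    φ e1 ((γ : M2) *ᵥ e1) = 0 := by
  rw [h.base hγ PI_e1_ne_zero hv, hfix, h.smul_right ε hε, h.self hv]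

theorem PI_par {Γ : Subgroup SL(2, ℤ)} {φ : V2 → V2 → ℤ} (h : IsSym Γ φ) {γ : SL(2, ℤ)}
    (hγ : γ ∈ Γ) {ε : ℤ} (hε : ε * ε = 1) (ht : (γ : M2).trace = 2 * ε) :
    φ e1 ((γ : M2) *ᵥ e1) = 0 := by
  have hε0 : ε ≠ 0 := by
    rintro rfl
    simp at hε
  have hdet : (γ : M2) 0 0 * (γ : M2) 1 1 - (γ : M2) 0 1 * (γ : M2) 1 0 = 1 := by
    rw [← Matrix.det_fin_two]
    exact γ.det_coe
  rw [Matrix.trace_fin_two] at ht
  set a := (γ : M2) 0 0 with ha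
  set b := (γ : M2) 0 1 with hb
  set c := (γ : M2) 1 0 with hc
  set d := (γ : M2) 1 1 with hd
  by_cases h1 : (![b, ε - a] : V2) = 0
  · by_cases h2 : (![ε - d, c] : V2) = 0
    · have hb0 : b = 0 := by simpa using congrFun h1 0
      have ha0 : ε - a = 0 := by simpa using congrFun h1 1
      have hc0 : c = 0 := by simpa using congrFun h2 1
      refine PI_fixed h hγ PI_e1_ne_zero hε0 ?_
      ext i
      fin_cases i
      · simp [e1, Matrix.mulVec, dotProduct, Fin.sum_univ_two, ← ha]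
        linarith
      · simp [e1, Matrix.mulVec, dotProduct, Fin.sum_univ_two, ← hc, hc0]
    · refine PI_fixed h hγ h2 hε0 ?_
      ext i
      fin_cases i
      · simp [Matrix.mulVec, dotProduct, Fin.sum_univ_two, ← ha, ← hb]
        linear_combination (-1 : ℤ) * hdet + ε * ht + hε
      · simp [Matrix.mulVec, dotProduct, Fin.sum_univ_two, ← hc, ← hd]
        ring
  · refine PI_fixed h hγ h1 hε0 ?_
    ext i
    fin_cases i
    · simp [Matrix.mulVec, dotProduct, Fin.sum_univ_two, ← ha, ← hb]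
      ring
    · simp [Matrix.mulVec, dotProduct, Fin.sum_univ_two, ← hc, ← hd]
      linear_combination (-1 : ℤ) * hdet + ε * ht + hε

/-- trace `±2`: a fixed vector up to sign; trace `0, ±1`: finite order -/
theorem IsSym.pi_ellpar {Γ : Subgroup SL(2, ℤ)} {φ : V2 → V2 → ℤ} (h : IsSym Γ φ) {γ : SL(2, ℤ)}
    (hγ : γ ∈ Γ) (ht : (γ : M2).trace ^ 2 ≤ 4) : φ e1 ((γ : M2) *ᵥ e1) = 0 := by
  have hdet : (γ : M2) 0 0 * (γ : M2) 1 1 - (γ : M2) 0 1 * (γ : M2) 1 0 = 1 := by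
    rw [← Matrix.det_fin_two]
    exact γ.det_coe
  have htr := Matrix.trace_fin_two (γ : M2)
  have hlo : -2 ≤ (γ : M2).trace := by nlinarith
  have hhi : (γ : M2).trace ≤ 2 := by nlinarith
  have h2 := h.pi_mul hγ hγ
  have h3 := h.pi_mul (mul_mem hγ hγ) hγ
  rw [Matrix.SpecialLinearGroup.coe_mul, ← Matrix.mulVec_mulVec] at h2
  rw [Matrix.SpecialLinearGroup.coe_mul, Matrix.SpecialLinearGroup.coe_mul, ← Matrix.mulVec_mulVec,
    ← Matrix.mulVec_mulVec, ← Matrix.mulVec_mulVec] at h3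
  have hm1 : φ e1 ((-1 : ℤ) • e1) = 0 := by
    rw [h.smul_right (-1) (by norm_num), h.self PI_e1_ne_zero]
  have hsq : (γ : M2) *ᵥ ((γ : M2) *ᵥ e1) =
      ![(γ : M2) 0 0 * (γ : M2).trace - 1, (γ : M2) 1 0 * (γ : M2).trace] := by
    ext i
    fin_cases i
    · simp [e1, Matrix.mulVec, dotProduct, Fin.sum_univ_two, htr]
      linear_combination (-1 : ℤ) * hdet
    · simp [e1, Matrix.mulVec, dotProduct, Fin.sum_univ_two, htr]
      ring
  have hcu : (γ : M2) *ᵥ ((γ : M2) *ᵥ ((γ : M2) *ᵥ e1)) =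
      ![(γ : M2).trace * ((γ : M2) 0 0 * (γ : M2).trace - 1) - (γ : M2) 0 0,
        (γ : M2) 1 0 * ((γ : M2).trace ^ 2 - 1)] := by
    rw [hsq]
    ext i
    fin_cases i
    · simp [Matrix.mulVec, dotProduct, Fin.sum_univ_two, htr]
      linear_combination (-((γ : M2) 0 0 + (γ : M2) 1 1)) * hdet
    · simp [Matrix.mulVec, dotProduct, Fin.sum_univ_two, htr]
      ring
  have hcases : (γ : M2).trace = -2 ∨ (γ : M2).trace = -1 ∨ (γ : M2).trace = 0 ∨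
      (γ : M2).trace = 1 ∨ (γ : M2).trace = 2 := by omega
  rcases hcases with ht | ht | ht | ht | ht
  · exact PI_par h hγ (ε := -1) (by norm_num) (by rw [ht]; norm_num)
  · have h5 : (γ : M2) *ᵥ ((γ : M2) *ᵥ ((γ : M2) *ᵥ e1)) = e1 := by
      rw [hcu, ht]
      ext i
      fin_cases i <;> simp [e1]
    rw [h5, h.self PI_e1_ne_zero] at h3
    linarith
  · have h5 : (γ : M2) *ᵥ ((γ : M2) *ᵥ e1) = (-1 : ℤ) • e1 := by
      rw [hsq, ht]
      ext i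
      fin_cases i <;> simp [e1]
    rw [h5, hm1] at h2
    linarith
  · have h5 : (γ : M2) *ᵥ ((γ : M2) *ᵥ ((γ : M2) *ᵥ e1)) = (-1 : ℤ) • e1 := by
      rw [hcu, ht]
      ext i
      fin_cases i <;> simp [e1]
    rw [h5, hm1] at h3
    linarith
  · exact PI_par h hγ (ε := 1) (by norm_num) (by rw [ht]; norm_num)

end Fermat.Agent.S41Lib
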