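import Fermat.Agent.S41.PD.Defs2
import Fermat.Agent.S41.PD.CcS2
import Fermat.Agent.S41.PD.Pi

/-!
# S41, Poincare duality block, (M1): the function of a symbol on `Γ \ SL(2,ℤ)`
-/

set_option autoImplicit false
open scoped MatrixGroups
open Matrix ModularGroup CongruenceSubgroup

namespace Fermat.Agent.S41Lib

theorem MN_S_e1 : (S : M2) *ᵥ e1 = e2 := by
  ext i
  fin_cases i <;> simp [e1, e2, ModularGroup.coe_S, Matrix.mulVec, dotProduct, Fin.sum_univ_two]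

theorem MN_S_e2 : (S : M2) *ᵥ e2 = (-1 : ℤ) • e1 := by
  ext i
  fin_cases i <;> simp [e1, e2, ModularGroup.coe_S, Matrix.mulVec, dotProduct, Fin.sum_univ_two]

theorem MN_T_e1 : (T : M2) *ᵥ e1 = e1 := by
  ext i
  fin_cases i <;> simp [e1, ModularGroup.coe_T, Matrix.mulVec, dotProduct, Fin.sum_univ_two]

theorem MN_T_e2 : (T : M2) *ᵥ e2 = e1 + e2 := by
  ext i
  fin_cases i <;> simp [e1, e2, ModularGroup.coe_T, Matrix.mulVec, dotProduct, Fin.sum_univ_two]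

theorem FF_mk {Γ : Subgroup SL(2, ℤ)} {φ : V2 → V2 → ℤ} (h : IsSym Γ φ) (k : SL(2, ℤ)) :
    FF Γ φ ((k⁻¹ : SL(2, ℤ)) : SL(2, ℤ) ⧸ Γ) = φ ((k : M2) *ᵥ e2) ((k : M2) *ᵥ e1) := by
  obtain ⟨γ, hγ⟩ := QuotientGroup.mk_out_eq_mul Γ (k⁻¹ : SL(2, ℤ))
  unfold FF
  rw [hγ, _root_.mul_inv_rev, inv_inv, Matrix.SpecialLinearGroup.coe_mul, ← Matrix.mulVec_mulVec,
    ← Matrix.mulVec_mulVec]
  exact h.inv _ (inv_mem γ.2) _ _

theorem MN_exists_inv {Γ : Subgroup SL(2, ℤ)} (x : SL(2, ℤ) ⧸ Γ) :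
    ∃ k : SL(2, ℤ), ((k⁻¹ : SL(2, ℤ)) : SL(2, ℤ) ⧸ Γ) = x := by
  obtain ⟨g, rfl⟩ := QuotientGroup.mk_surjective x
  exact ⟨g⁻¹, by rw [inv_inv]⟩

theorem MN_smul_mk {Γ : Subgroup SL(2, ℤ)} (g k : SL(2, ℤ)) :
    g⁻¹ • ((k⁻¹ : SL(2, ℤ)) : SL(2, ℤ) ⧸ Γ) = (((k * g)⁻¹ : SL(2, ℤ)) : SL(2, ℤ) ⧸ Γ) := by
  rw [_root_.mul_inv_rev]
  rfl

theorem isManin_FF {Γ : Subgroup SL(2, ℤ)} {φ : V2 → V2 → ℤ} (h : IsSym Γ φ) : IsManin (FF Γ φ) := by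
  refine ⟨fun x => ?_, fun x => ?_⟩
  · obtain ⟨k, rfl⟩ := MN_exists_inv x
    rw [MN_smul_mk, FF_mk h, FF_mk h, Matrix.SpecialLinearGroup.coe_mul, ← Matrix.mulVec_mulVec,
      ← Matrix.mulVec_mulVec, MN_S_e1, MN_S_e2, Matrix.mulVec_smul,
      h.smul_left (-1) (by norm_num)]
    exact h.swap (PI_mulVec_ne_zero k PI_e2_ne_zero) (PI_mulVec_ne_zero k PI_e1_ne_zero)
  · obtain ⟨k, rfl⟩ := MN_exists_inv x
    rw [MN_smul_mk, MN_smul_mk, FF_mk h, FF_mk h, FF_mk h]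
    simp only [Matrix.SpecialLinearGroup.coe_mul, ← Matrix.mulVec_mulVec, MN_T_e1, MN_T_e2, MN_S_e1,
      MN_S_e2, Matrix.mulVec_add, Matrix.mulVec_smul]
    have hw : (-1 : ℤ) • e1 + e2 ≠ 0 := by
      intro h0
      have := congrFun h0 1
      simp [e1, e2] at this
    have h1 := PI_mulVec_ne_zero k PI_e1_ne_zero
    have h2 := PI_mulVec_ne_zero k PI_e2_ne_zero
    have h3 := PI_mulVec_ne_zero k hw
    rw [Matrix.mulVec_add, Matrix.mulVec_smul] at h3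
    set a := (k : M2) *ᵥ e1 with ha
    set b := (k : M2) *ᵥ e2 with hb
    have e3 : b + (-1 : ℤ) • a + (-1 : ℤ) • b = (-1 : ℤ) • a := by abel
    have e4 : b + (-1 : ℤ) • a = (-1 : ℤ) • a + b := add_comm _ _
    rw [e3, e4, h.smul_left (-1) (by norm_num)]
    have h5 := h.add a ((-1 : ℤ) • a + b) b h1 h3 h2
    have h6 := h.swap h1 h2
    linarith

theorem MN_cst_eq (Γ : Subgroup SL(2, ℤ)) (k : SL(2, ℤ)) :
    cst Γ ((k⁻¹ : SL(2, ℤ)) : SL(2, ℤ) ⧸ Γ) = (fun D => D * (k : M2)) '' mset Γ := by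
  ext D
  constructor
  · rintro ⟨k', rfl, hk'⟩
    rw [QuotientGroup.eq, inv_inv] at hk'
    refine ⟨_, ⟨k' * k⁻¹, hk', rfl⟩, ?_⟩
    show ((k' * k⁻¹ : SL(2, ℤ)) : M2) * (k : M2) = (k' : M2)
    rw [← Matrix.SpecialLinearGroup.coe_mul, inv_mul_cancel_right]
  · rintro ⟨_, ⟨γ, hγ, rfl⟩, rfl⟩
    refine ⟨γ * k, Matrix.SpecialLinearGroup.coe_mul _ _, ?_⟩
    rw [QuotientGroup.eq, inv_inv, mul_inv_cancel_right]
    exact hγ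

theorem FF_sym {Γ : Subgroup SL(2, ℤ)} {g : SL(2, ℤ)} (hg : g ∈ Γ) (x : SL(2, ℤ) ⧸ Γ) :
    FF Γ (sym Γ g) x = ccS (cst Γ x) e2 e1 P0 (P0.act (g : M2)) := by
  have hx : cst Γ x = (fun D => D * (((x.out)⁻¹ : SL(2, ℤ)) : M2)) '' mset Γ := by
    rw [← MN_cst_eq, inv_inv, QuotientGroup.out_eq']
  rw [hx, ← ccS_mulVec _ _ _ _ _ (by rw [Matrix.SpecialLinearGroup.det_coe]; exact one_ne_zero)]
  rfl

end Fermat.Agent.S41Lib
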