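import Fermat.Agent.S41.PD.Defs2
import Fermat.Agent.S41.PD.Pi
import Fermat.Agent.S41.PD.Manin

/-!
# S41, Poincare duality block, (M2): Manin's trick
-/

set_option autoImplicit false
open scoped MatrixGroups
open Matrix ModularGroup CongruenceSubgroup

namespace Fermat.Agent.S41Lib

theorem MT_mul_T (k : SL(2, ℤ)) : ((k * T : SL(2, ℤ)) : M2) *ᵥ e1 = (k : M2) *ᵥ e1 := by
  rw [Matrix.SpecialLinearGroup.coe_mul, ← Matrix.mulVec_mulVec, MN_T_e1]

theorem MT_mul_T_inv (k : SL(2, ℤ)) : ((k * T⁻¹ : SL(2, ℤ)) : M2) *ᵥ e1 = (k : M2) *ᵥ e1 := by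
  have := MT_mul_T (k * T⁻¹)
  rw [inv_mul_cancel_right] at this
  exact this.symm

theorem MT_mul_S (k : SL(2, ℤ)) : ((k * S : SL(2, ℤ)) : M2) *ᵥ e1 = (k : M2) *ᵥ e2 := by
  rw [Matrix.SpecialLinearGroup.coe_mul, ← Matrix.mulVec_mulVec, MN_S_e1]

theorem MT_S_inv : (S⁻¹ : SL(2, ℤ)) = -S := by
  ext i j
  fin_cases i <;> fin_cases j <;>
    simp [ModularGroup.coe_S, Matrix.SpecialLinearGroup.coe_inv, Matrix.adjugate_fin_two]

theorem MT_mul_S_inv (k : SL(2, ℤ)) :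
    ((k * S⁻¹ : SL(2, ℤ)) : M2) *ᵥ e1 = (-1 : ℤ) • ((k : M2) *ᵥ e2) := by
  rw [MT_S_inv, Matrix.SpecialLinearGroup.coe_mul, Matrix.SpecialLinearGroup.coe_neg,
    ← Matrix.mulVec_mulVec, Matrix.neg_mulVec, MN_S_e1, Matrix.mulVec_neg, neg_smul, one_smul]

theorem MT_step {Γ : Subgroup SL(2, ℤ)} {φ : V2 → V2 → ℤ} (h : IsSym Γ φ) (k : SL(2, ℤ)) :
    φ e1 ((k : M2) *ᵥ e2) = φ e1 ((k : M2) *ᵥ e1) - φ ((k : M2) *ᵥ e2) ((k : M2) *ᵥ e1) := by
  have h1 := PI_mulVec_ne_zero k PI_e1_ne_zero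
  have h2 := PI_mulVec_ne_zero k PI_e2_ne_zero
  have h3 := h.add e1 ((k : M2) *ᵥ e1) ((k : M2) *ᵥ e2) PI_e1_ne_zero h1 h2
  have h4 := h.swap h1 h2
  linarith

/-- Manin's trick (induction on a word in `S`, `T`: `SpecialLinearGroup.SL2Z_generators`) -/
theorem IsSym.dvd_pi {Γ : Subgroup SL(2, ℤ)} {φ : V2 → V2 → ℤ} (h : IsSym Γ φ) (n : ℤ)
    (hn : ∀ k : SL(2, ℤ), n ∣ φ ((k : M2) *ᵥ e2) ((k : M2) *ᵥ e1)) (k : SL(2, ℤ)) :
    n ∣ φ e1 ((k : M2) *ᵥ e1) := by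
  have hk : k ∈ Subgroup.closure ({S, T} : Set SL(2, ℤ)) := by
    rw [_root_.SpecialLinearGroup.SL2Z_generators]
    exact Subgroup.mem_top k
  induction hk using Subgroup.closure_induction_right with
  | one =>
    rw [Matrix.SpecialLinearGroup.coe_one, Matrix.one_mulVec, h.self PI_e1_ne_zero]
    exact dvd_zero n
  | mul_right x hx y hy ih =>
    rcases hy with rfl | hy
    · rw [MT_mul_S, MT_step h]
      exact dvd_sub ih (hn x)
    · rw [Set.mem_singleton_iff.mp hy, MT_mul_T]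
      exact ih
  | mul_inv_cancel x hx y hy ih =>
    rcases hy with rfl | hy
    · rw [MT_mul_S_inv, h.smul_right (-1) (by norm_num), MT_step h]
      exact dvd_sub ih (hn x)
    · rw [Set.mem_singleton_iff.mp hy, MT_mul_T_inv]
      exact ih

/-- telescoping version -/
theorem IsSym.pi_eq_of_edge {Γ : Subgroup SL(2, ℤ)} {φ : V2 → V2 → ℤ} (h : IsSym Γ φ)
    (G : SL(2, ℤ) → ℤ) (hT : ∀ k, G (k * T) = G k) (hneg : ∀ k, G (-k) = G k)
    (hG : ∀ k : SL(2, ℤ), φ ((k : M2) *ᵥ e2) ((k : M2) *ᵥ e1) = G k - G (k * S)) (k : SL(2, ℤ)) :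
    φ e1 ((k : M2) *ᵥ e1) = G k - G 1 := by
  have hk : k ∈ Subgroup.closure ({S, T} : Set SL(2, ℤ)) := by
    rw [_root_.SpecialLinearGroup.SL2Z_generators]
    exact Subgroup.mem_top k
  induction hk using Subgroup.closure_induction_right with
  | one =>
    rw [Matrix.SpecialLinearGroup.coe_one, Matrix.one_mulVec, h.self PI_e1_ne_zero, sub_self]
  | mul_right x hx y hy ih =>
    rcases hy with rfl | hy
    · rw [MT_mul_S, MT_step h, ih, hG]
      ring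
    · rw [Set.mem_singleton_iff.mp hy, MT_mul_T, hT]
      exact ih
  | mul_inv_cancel x hx y hy ih =>
    rcases hy with rfl | hy
    · rw [MT_mul_S_inv, h.smul_right (-1) (by norm_num), MT_step h, ih, hG, MT_S_inv, mul_neg, hneg]
      ring
    · have h1 := hT (x * T⁻¹)
      rw [inv_mul_cancel_right] at h1
      rw [Set.mem_singleton_iff.mp hy, MT_mul_T_inv, ← h1]
      exact ih

end Fermat.Agent.S41Lib
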