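import Fermat.Agent.S41.PD.Defs

/-!
# S41, Poincare duality block, (P1a): pure algebra
-/

set_option autoImplicit false
open scoped MatrixGroups
open Matrix

namespace Fermat.Agent.S41Lib

theorem PB_mulVec0 (D : M2) (u : V2) : (D *ᵥ u) 0 = D 0 0 * u 0 + D 0 1 * u 1 := by
  simp [Matrix.mulVec, dotProduct, Fin.sum_univ_two]

theorem PB_mulVec1 (D : M2) (u : V2) : (D *ᵥ u) 1 = D 1 0 * u 0 + D 1 1 * u 1 := by
  simp [Matrix.mulVec, dotProduct, Fin.sum_univ_two]

theorem PB_adj0 (g : M2) (u : V2) : (g.adjugate *ᵥ u) 0 = g 1 1 * u 0 - g 0 1 * u 1 := by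
  rw [PB_mulVec0, Matrix.adjugate_fin_two]
  simp
  ring

theorem PB_adj1 (g : M2) (u : V2) : (g.adjugate *ᵥ u) 1 = -g 1 0 * u 0 + g 0 0 * u 1 := by
  rw [PB_mulVec1, Matrix.adjugate_fin_two]
  simp

theorem dt_swap (u v : V2) : dt v u = -dt u v := by
  unfold dt
  ring

theorem dt_mulVec (D : M2) (u v : V2) : dt (D *ᵥ u) (D *ᵥ v) = D.det * dt u v := by
  unfold dt
  rw [PB_mulVec0, PB_mulVec0, PB_mulVec1, PB_mulVec1, Matrix.det_fin_two]
  ring

theorem bl_symm (P : QF) (u v : V2) : P.bl u v = P.bl v u := by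
  unfold QF.bl
  ring

theorem bl_act (P : QF) (g : M2) (u v : V2) :
    (P.act g).bl u v = P.bl (g.adjugate *ᵥ u) (g.adjugate *ᵥ v) := by
  unfold QF.bl
  rw [PB_adj0, PB_adj0, PB_adj1, PB_adj1]
  simp only [QF.act]
  ring

theorem act_one (P : QF) : P.act 1 = P := by
  ext <;> simp [QF.act]

theorem act_mul (P : QF) (g h : M2) : P.act (g * h) = (P.act h).act g := by
  ext <;> simp only [QF.act, Matrix.mul_apply, Fin.sum_univ_two] <;> ring

theorem act_neg (P : QF) (g : M2) : P.act (-g) = P.act g := by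
  ext <;> simp only [QF.act, Matrix.neg_apply] <;> ring

theorem PB_form_pos {P : QF} (hP : P.Pos) {x y : ℤ} (h : x ≠ 0 ∨ y ≠ 0) :
    0 < P.A * x ^ 2 + P.B * (x * y) + P.C * y ^ 2 := by
  obtain ⟨hA, hd⟩ := hP
  have h1 : 4 * P.A * (P.A * x ^ 2 + P.B * (x * y) + P.C * y ^ 2) =
      (2 * P.A * x + P.B * y) ^ 2 + (4 * P.A * P.C - P.B ^ 2) * y ^ 2 := by ring
  have h2 : 0 < (2 * P.A * x + P.B * y) ^ 2 + (4 * P.A * P.C - P.B ^ 2) * y ^ 2 := by
    by_cases hy : y = 0
    · have hx : x ≠ 0 := h.resolve_right (not_not.mpr hy)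
      rw [hy]
      have h5 : 2 * P.A * x ≠ 0 := mul_ne_zero (by omega) hx
      have h6 : 0 < (2 * P.A * x) ^ 2 := by positivity
      simpa using h6
    · have h3 : 0 < (4 * P.A * P.C - P.B ^ 2) * y ^ 2 := mul_pos hd (by positivity)
      have h4 : 0 ≤ (2 * P.A * x + P.B * y) ^ 2 := by positivity
      linarith
  rw [← h1] at h2
  exact (pos_iff_pos_of_mul_pos h2).mp (by linarith)

theorem pos_act {P : QF} (hP : P.Pos) {g : M2} (hg : g.det ≠ 0) : (P.act g).Pos := by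
  rw [Matrix.det_fin_two] at hg
  refine ⟨?_, ?_⟩
  · have h1 : g 1 1 ≠ 0 ∨ -g 1 0 ≠ 0 := by
      by_contra hcon
      push Not at hcon
      apply hg
      have h2 : g 1 0 = 0 := by linarith [hcon.2]
      rw [hcon.1, h2]
      ring
    have h3 := PB_form_pos hP h1
    have h4 : (P.act g).A = P.A * g 1 1 ^ 2 + P.B * (g 1 1 * -g 1 0) + P.C * (-g 1 0) ^ 2 := by
      simp only [QF.act]
      ring
    rw [h4]
    exact h3
  · have h1 : 4 * (P.act g).A * (P.act g).C - (P.act g).B ^ 2 =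
        (g 0 0 * g 1 1 - g 0 1 * g 1 0) ^ 2 * (4 * P.A * P.C - P.B ^ 2) := by
      simp only [QF.act]
      ring
    rw [h1]
    exact mul_pos (by positivity) hP.2

theorem bl_self_pos {P : QF} (hP : P.Pos) {u : V2} (hu : u ≠ 0) : 0 < P.bl u u := by
  have h1 : u 0 ≠ 0 ∨ u 1 ≠ 0 := by
    by_contra hcon
    push Not at hcon
    apply hu
    funext i
    fin_cases i
    · exact hcon.1
    · exact hcon.2
  have h2 := PB_form_pos hP h1
  have h3 : P.bl u u = 2 * (P.A * u 0 ^ 2 + P.B * (u 0 * u 1) + P.C * u 1 ^ 2) := by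
    unfold QF.bl
    ring
  rw [h3]
  linarith

theorem bl_sq (P : QF) (u v : V2) :
    P.bl u u * P.bl v v = P.bl u v ^ 2 + (4 * P.A * P.C - P.B ^ 2) * dt u v ^ 2 := by
  unfold QF.bl dt
  ring

theorem sd_swap (P : QF) (u v : V2) : sd P v u = -sd P u v := by
  unfold sd
  rw [bl_symm P v u, dt_swap u v, mul_neg, Int.sign_neg]

theorem PB_sign_sq_mul {n : ℤ} (hn : n ≠ 0) (x : ℤ) : Int.sign (n * n * x) = Int.sign x := by
  rw [Int.sign_mul, Int.sign_mul]
  rcases lt_or_gt_of_ne hn with h | h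
  · rw [Int.sign_eq_neg_one_of_neg h]
    ring
  · rw [Int.sign_eq_one_of_pos h]
    ring

theorem sd_smul_left (P : QF) {n : ℤ} (hn : n ≠ 0) (u v : V2) : sd P (n • u) v = sd P u v := by
  unfold sd
  have h1 : P.bl (n • u) v * dt (n • u) v = n * n * (P.bl u v * dt u v) := by
    unfold QF.bl dt
    simp only [Pi.smul_apply, smul_eq_mul]
    ring
  rw [h1, PB_sign_sq_mul hn]

theorem sd_smul_right (P : QF) {n : ℤ} (hn : n ≠ 0) (u v : V2) : sd P u (n • v) = sd P u v := by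
  unfold sd
  have h1 : P.bl u (n • v) * dt u (n • v) = n * n * (P.bl u v * dt u v) := by
    unfold QF.bl dt
    simp only [Pi.smul_apply, smul_eq_mul]
    ring
  rw [h1, PB_sign_sq_mul hn]

theorem sd_of_dt_eq_zero (P : QF) {u v : V2} (h : dt u v = 0) : sd P u v = 0 := by
  unfold sd
  rw [h, mul_zero, Int.sign_zero]

theorem sd_act (P : QF) {g : M2} (hg : 0 < g.det) (u v : V2) :
    sd (P.act g) u v = sd P (g.adjugate *ᵥ u) (g.adjugate *ᵥ v) := by
  unfold sd
  rw [bl_act, dt_mulVec, Matrix.det_adjugate]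
  simp only [Fintype.card_fin, Nat.add_one_sub_one, pow_one]
  rw [Int.sign_mul, Int.sign_mul _ (g.det * dt u v), Int.sign_mul g.det,
    Int.sign_eq_one_of_pos hg, one_mul]

theorem sd_act_mulVec (P : QF) {g : M2} (hg : 0 < g.det) (u v : V2) :
    sd (P.act g) (g *ᵥ u) (g *ᵥ v) = sd P u v := by
  rw [sd_act P hg, Matrix.mulVec_mulVec, Matrix.mulVec_mulVec, Matrix.adjugate_mul,
    Matrix.smul_mulVec, Matrix.smul_mulVec, Matrix.one_mulVec, Matrix.one_mulVec,
    sd_smul_left P hg.ne', sd_smul_right P hg.ne']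

/-- proportional vectors -/
theorem exists_smul_eq_of_dt_eq_zero {u v : V2} (hu : u ≠ 0) (hv : v ≠ 0) (h : dt u v = 0) :
    ∃ a b : ℤ, a ≠ 0 ∧ b ≠ 0 ∧ a • u = b • v := by
  unfold dt at h
  have hu' : u 0 ≠ 0 ∨ u 1 ≠ 0 := by
    by_contra hcon
    push Not at hcon
    apply hu
    funext i
    fin_cases i
    · exact hcon.1
    · exact hcon.2
  have hv' : v 0 ≠ 0 ∨ v 1 ≠ 0 := by
    by_contra hcon
    push Not at hcon
    apply hv
    funext i
    fin_cases i
    · exact hcon.1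
    · exact hcon.2
  by_cases hv0 : v 0 = 0
  · have hv1 : v 1 ≠ 0 := hv'.resolve_left (not_not.mpr hv0)
    have hu0 : u 0 = 0 := by
      rw [hv0, mul_zero, sub_zero] at h
      exact (mul_eq_zero.mp h).resolve_right hv1
    have hu1 : u 1 ≠ 0 := hu'.resolve_left (not_not.mpr hu0)
    refine ⟨v 1, u 1, hv1, hu1, ?_⟩
    funext i
    fin_cases i
    · simp [hu0, hv0]
    · simp only [Fin.mk_one, Fin.isValue, Pi.smul_apply, smul_eq_mul]
      ring
  · have hu0 : u 0 ≠ 0 := by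
      intro h0
      rw [h0, zero_mul, zero_sub, neg_eq_zero] at h
      have hu1 : u 1 = 0 := (mul_eq_zero.mp h).resolve_right hv0
      exact hu'.elim (fun h => h h0) (fun h => h hu1)
    refine ⟨v 0, u 0, hv0, hu0, ?_⟩
    funext i
    fin_cases i
    · simp only [Fin.zero_eta, Fin.isValue, Pi.smul_apply, smul_eq_mul]
      ring
    · simp only [Fin.mk_one, Fin.isValue, Pi.smul_apply, smul_eq_mul]
      linarith

theorem P0_pos : P0.Pos := by
  constructor <;> norm_num [P0]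

end Fermat.Agent.S41Lib
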