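import Fermat.Agent.S41.PD.Defs2
import Fermat.Agent.S41.PD.Basic

/-!
# S41 (PD), A1: the adjacent triangle lemma
-/

set_option autoImplicit false
open scoped MatrixGroups
open Matrix ModularGroup CongruenceSubgroup

namespace Fermat.Agent.S41Lib

theorem A1_act_S : P0.act (S : M2) = ⟨1, -1, 1⟩ := by
  ext <;> simp [QF.act, P0, ModularGroup.S]

theorem A1_act_T : P0.act (T : M2) = ⟨1, -1, 1⟩ := by
  ext <;> simp [QF.act, P0, ModularGroup.T]

theorem act_ST : P0.act ((S * T : SL(2, ℤ)) : M2) = P0 := by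
  rw [Matrix.SpecialLinearGroup.coe_mul, act_mul, A1_act_T]
  ext <;> simp [QF.act, P0, ModularGroup.S]

theorem act_mul_T (k : SL(2, ℤ)) : P0.act ((k * T : SL(2, ℤ)) : M2) = P0.act ((k * S : SL(2, ℤ)) : M2) := by
  rw [Matrix.SpecialLinearGroup.coe_mul, Matrix.SpecialLinearGroup.coe_mul, act_mul, act_mul,
    A1_act_T, A1_act_S]

theorem A1_sign (a b c d : ℤ) (h : a * d - b * c = 1) (hne : ¬ (a * b = 0 ∧ c * d = 0)) :
    Int.sign (2 * (a * b + c * d) + (a * d + b * c)) =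
      Int.sign (2 * (a * b + c * d) - (a * d + b * c)) := by
  have h1 : (2 * (a * b + c * d) + (a * d + b * c)) * (2 * (a * b + c * d) - (a * d + b * c)) =
      (2 * (a * b) + c * d) ^ 2 + 3 * (c * d) ^ 2 - (a * d - b * c) ^ 2 := by ring
  have h2 : 0 < (2 * (a * b) + c * d) ^ 2 + 3 * (c * d) ^ 2 := by
    by_contra hcon
    have h3 : (c * d) ^ 2 = 0 := by nlinarith [sq_nonneg (2 * (a * b) + c * d), sq_nonneg (c * d)]
    have h4 : (2 * (a * b) + c * d) ^ 2 = 0 := by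
      nlinarith [sq_nonneg (2 * (a * b) + c * d), sq_nonneg (c * d)]
    have h5 : c * d = 0 := by simpa using h3
    have h6 : 2 * (a * b) + c * d = 0 := by simpa using h4
    exact hne ⟨by omega, h5⟩
  -- the sum is `≡ 0 mod 4`-free: it is `4 (m² + m n + n²)`
  have h3 : (2 * (a * b) + c * d) ^ 2 + 3 * (c * d) ^ 2 =
      4 * ((a * b) ^ 2 + (a * b) * (c * d) + (c * d) ^ 2) := by ring
  have h4 : 0 < (2 * (a * b + c * d) + (a * d + b * c)) * (2 * (a * b + c * d) - (a * d + b * c)) := by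
    rw [h1, h, h3]
    rw [h3] at h2
    omega
  rcases mul_pos_iff.mp h4 with ⟨h5, h6⟩ | ⟨h5, h6⟩
  · rw [Int.sign_eq_one_of_pos h5, Int.sign_eq_one_of_pos h6]
  · rw [Int.sign_eq_neg_one_of_neg h5, Int.sign_eq_neg_one_of_neg h6]

theorem A1_dsd (k : SL(2, ℤ)) :
    dsd P0 (P0.act (S : M2)) ((k : M2) *ᵥ e2) ((k : M2) *ᵥ e1) =
      Int.sign (2 * (k 0 0 * k 0 1 + k 1 0 * k 1 1) + (k 0 0 * k 1 1 + k 0 1 * k 1 0)) -
      Int.sign (2 * (k 0 0 * k 0 1 + k 1 0 * k 1 1) - (k 0 0 * k 1 1 + k 0 1 * k 1 0)) := by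
  have hdet : k 0 0 * k 1 1 - k 0 1 * k 1 0 = 1 := by
    have := k.det_coe
    rwa [Matrix.det_fin_two] at this
  have hdt : dt ((k : M2) *ᵥ e2) ((k : M2) *ᵥ e1) = -1 := by
    unfold dt
    rw [PB_mulVec0, PB_mulVec0, PB_mulVec1, PB_mulVec1]
    simp only [e1, e2, Matrix.cons_val_zero, Matrix.cons_val_one]
    linarith
  unfold dsd sd
  rw [hdt, A1_act_S, mul_neg_one, mul_neg_one, Int.sign_neg, Int.sign_neg]
  unfold QF.bl
  rw [PB_mulVec0, PB_mulVec0, PB_mulVec1, PB_mulVec1]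
  simp only [e1, e2, Matrix.cons_val_zero, Matrix.cons_val_one, P0]
  have e1' : 2 * 1 * ((k 0 0 * 0 + k 0 1 * 1) * (k 0 0 * 1 + k 0 1 * 0)) +
      -1 * ((k 0 0 * 0 + k 0 1 * 1) * (k 1 0 * 1 + k 1 1 * 0) +
        (k 1 0 * 0 + k 1 1 * 1) * (k 0 0 * 1 + k 0 1 * 0)) +
      2 * 1 * ((k 1 0 * 0 + k 1 1 * 1) * (k 1 0 * 1 + k 1 1 * 0)) =
      2 * (k 0 0 * k 0 1 + k 1 0 * k 1 1) - (k 0 0 * k 1 1 + k 0 1 * k 1 0) := by ring
  have e2' : 2 * 1 * ((k 0 0 * 0 + k 0 1 * 1) * (k 0 0 * 1 + k 0 1 * 0)) +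
      1 * ((k 0 0 * 0 + k 0 1 * 1) * (k 1 0 * 1 + k 1 1 * 0) +
        (k 1 0 * 0 + k 1 1 * 1) * (k 0 0 * 1 + k 0 1 * 0)) +
      2 * 1 * ((k 1 0 * 0 + k 1 1 * 1) * (k 1 0 * 1 + k 1 1 * 0)) =
      2 * (k 0 0 * k 0 1 + k 1 0 * k 1 1) + (k 0 0 * k 1 1 + k 0 1 * k 1 0) := by ring
  rw [e1', e2']
  ring

theorem A1_ext {k k' : SL(2, ℤ)} (h00 : k 0 0 = k' 0 0) (h01 : k 0 1 = k' 0 1)
    (h10 : k 1 0 = k' 1 0) (h11 : k 1 1 = k' 1 1) : k = k' := by
  ext i j
  fin_cases i <;> fin_cases j <;> assumption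

/-- a Farey edge separates `ρ` and `Sρ` iff it is `(0,∞)` -/
theorem dsd_adj (k : SL(2, ℤ)) :
    dsd P0 (P0.act (S : M2)) ((k : M2) *ᵥ e2) ((k : M2) *ᵥ e1) =
      if k = 1 ∨ k = -1 then 2 else if k = S ∨ k = -S then -2 else 0 := by
  have hdet : k 0 0 * k 1 1 - k 0 1 * k 1 0 = 1 := by
    have := k.det_coe
    rwa [Matrix.det_fin_two] at this
  rw [A1_dsd]
  by_cases h1 : k = 1 ∨ k = -1
  · rw [if_pos h1]
    rcases h1 with rfl | rfl <;> simp
  rw [if_neg h1]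
  by_cases h2 : k = S ∨ k = -S
  · rw [if_pos h2]
    rcases h2 with rfl | rfl <;>
      simp [Matrix.SpecialLinearGroup.coe_neg, ModularGroup.coe_S]
  rw [if_neg h2]
  rw [A1_sign _ _ _ _ hdet, sub_self]
  rintro ⟨h3, h4⟩
  rcases mul_eq_zero.mp h3 with ha | hb
  · -- `a = 0`
    rw [ha] at hdet
    have hbc : k 0 1 * k 1 0 = -1 := by linarith
    have hc : k 1 0 ≠ 0 := by
      intro h
      rw [h] at hbc
      simp at hbc
    have hd : k 1 1 = 0 := by
      rcases mul_eq_zero.mp h4 with h | h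
      · exact absurd h hc
      · exact h
    have hb : k 0 1 = 1 ∨ k 0 1 = -1 := by
      have : IsUnit (k 0 1) := IsUnit.of_mul_eq_one (-(k 1 0)) (by linarith)
      exact Int.isUnit_iff.mp this
    apply h2
    rcases hb with hb | hb
    · right
      rw [hb] at hbc
      apply A1_ext <;>
        simp [Matrix.SpecialLinearGroup.coe_neg, ModularGroup.coe_S, ha, hb, hd] <;> linarith
    · left
      rw [hb] at hbc
      apply A1_ext <;>
        simp [Matrix.SpecialLinearGroup.coe_neg, ModularGroup.coe_S, ha, hb, hd] <;> linarith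
  · rw [hb] at hdet
    have had : k 0 0 * k 1 1 = 1 := by linarith
    have hd : k 1 1 ≠ 0 := by
      intro h
      rw [h] at had
      simp at had
    have hc : k 1 0 = 0 := by
      rcases mul_eq_zero.mp h4 with h | h
      · exact h
      · exact absurd h hd
    have ha : k 0 0 = 1 ∨ k 0 0 = -1 := by
      have : IsUnit (k 0 0) := IsUnit.of_mul_eq_one (k 1 1) had
      exact Int.isUnit_iff.mp this
    apply h1
    rcases ha with ha | ha
    · left
      rw [ha] at had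
      apply A1_ext <;> simp [ha, hb, hc] <;> linarith
    · right
      rw [ha] at had
      apply A1_ext <;> simp [Matrix.SpecialLinearGroup.coe_neg, ha, hb, hc] <;> linarith

end Fermat.Agent.S41Lib
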