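import Fermat.Agent.S41.PD.Edge

/-!
# S41 (PD), C1: weighted counts of Farey edges
-/

set_option autoImplicit false
open scoped MatrixGroups
open Matrix ModularGroup CongruenceSubgroup

namespace Fermat.Agent.S41Lib

theorem cst_eq (Γ : Subgroup SL(2, ℤ)) (k : SL(2, ℤ)) :
    cst Γ ((k⁻¹ : SL(2, ℤ)) : SL(2, ℤ) ⧸ Γ) = (fun D => D * (k : M2)) '' mset Γ := by
  ext D
  constructor
  · rintro ⟨k', rfl, hk'⟩
    rw [QuotientGroup.eq, inv_inv] at hk'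
    refine ⟨((k' * k⁻¹ : SL(2, ℤ)) : M2), ⟨_, hk', rfl⟩, ?_⟩
    show ((k' * k⁻¹ : SL(2, ℤ)) : M2) * (k : M2) = (k' : M2)
    rw [← Matrix.SpecialLinearGroup.coe_mul, inv_mul_cancel_right]
  · rintro ⟨_, ⟨h, hh, rfl⟩, rfl⟩
    refine ⟨h * k, Matrix.SpecialLinearGroup.coe_mul _ _, ?_⟩
    rw [QuotientGroup.eq, inv_inv, mul_inv_cancel_right]
    exact hh

theorem hasDet_cst (Γ : Subgroup SL(2, ℤ)) (x : SL(2, ℤ) ⧸ Γ) : HasDet (cst Γ x) 1 := by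
  rintro D ⟨k, rfl, -⟩
  exact k.det_coe

theorem C1_mem_cst (Γ : Subgroup SL(2, ℤ)) (x : SL(2, ℤ) ⧸ Γ) (k : SL(2, ℤ)) :
    (k : M2) ∈ cst Γ x ↔ ((k⁻¹ : SL(2, ℤ)) : SL(2, ℤ) ⧸ Γ) = x := by
  constructor
  · rintro ⟨k', hk', hx⟩
    have : k' = k := Subtype.ext hk'
    rw [← this]
    exact hx
  · intro h
    exact ⟨k, rfl, h⟩

open Classical in
theorem C1_ind (Γ : Subgroup SL(2, ℤ)) (x : SL(2, ℤ) ⧸ Γ) (k : SL(2, ℤ)) :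
    ind (cst Γ x) (k : M2) = if ((k⁻¹ : SL(2, ℤ)) : SL(2, ℤ) ⧸ Γ) = x then 1 else 0 := by
  unfold ind
  exact if_congr (C1_mem_cst Γ x k) rfl rfl

theorem C1_neg {Γ : Subgroup SL(2, ℤ)} (hneg : (-1 : SL(2, ℤ)) ∈ Γ) (k : SL(2, ℤ)) :
    (((-k)⁻¹ : SL(2, ℤ)) : SL(2, ℤ) ⧸ Γ) = ((k⁻¹ : SL(2, ℤ)) : SL(2, ℤ) ⧸ Γ) := by
  rw [QuotientGroup.eq, inv_inv]
  have : -k * k⁻¹ = -1 := by
    rw [neg_mul, mul_inv_cancel]
  rw [this]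
  exact hneg

theorem C1_image {Γ : Subgroup SL(2, ℤ)} {γ : SL(2, ℤ)} (hγ : γ ∈ Γ) (x : SL(2, ℤ) ⧸ Γ) :
    (fun D => (γ : M2).adjugate * D) '' cst Γ x = cst Γ x := by
  ext D
  constructor
  · rintro ⟨_, ⟨k, rfl, hk⟩, rfl⟩
    refine ⟨γ⁻¹ * k, ?_, ?_⟩
    · rw [Matrix.SpecialLinearGroup.coe_mul, Matrix.SpecialLinearGroup.coe_inv]
    · rw [← hk, QuotientGroup.eq, inv_inv, mul_assoc, mul_inv_cancel, mul_one]
      exact Γ.inv_mem hγ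
  · rintro ⟨k, rfl, hk⟩
    refine ⟨((γ * k : SL(2, ℤ)) : M2), ⟨γ * k, rfl, ?_⟩, ?_⟩
    · rw [← hk, QuotientGroup.eq, inv_inv, mul_assoc, mul_inv_cancel, mul_one]
      exact hγ
    · show (γ : M2).adjugate * ((γ * k : SL(2, ℤ)) : M2) = (k : M2)
      rw [← Matrix.SpecialLinearGroup.coe_inv, ← Matrix.SpecialLinearGroup.coe_mul,
        inv_mul_cancel_left]

section
variable {A : Type} [AddCommGroup A] {Γ : Subgroup SL(2, ℤ)} [Fintype (SL(2, ℤ) ⧸ Γ)]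

theorem cm_add (m : SL(2, ℤ) ⧸ Γ → A) {P P' P'' : QF} (hP : P.Pos) (hP' : P'.Pos) (hP'' : P''.Pos) :
    cm Γ m P P'' = cm Γ m P P' + cm Γ m P' P'' := by
  unfold cm
  rw [← Finset.sum_add_distrib]
  refine Finset.sum_congr rfl fun x _ => ?_
  rw [ccS_add (hasDet_cst Γ x) e2 e1 hP hP' hP'', add_smul]

theorem cm_inv (m : SL(2, ℤ) ⧸ Γ → A) {γ : SL(2, ℤ)} (hγ : γ ∈ Γ) (P P' : QF) :
    cm Γ m (P.act (γ : M2)) (P'.act (γ : M2)) = cm Γ m P P' := by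
  unfold cm
  refine Finset.sum_congr rfl fun x _ => ?_
  have hdet : 0 < (γ : M2).det := by rw [γ.det_coe]; exact one_pos
  rw [ccS_act _ _ _ _ _ hdet, C1_image hγ]

theorem cm_edge (hneg : (-1 : SL(2, ℤ)) ∈ Γ) (m : SL(2, ℤ) ⧸ Γ → A) (k : SL(2, ℤ)) :
    cm Γ m (P0.act (k : M2)) (P0.act ((k * S : SL(2, ℤ)) : M2)) =
      (4 : ℤ) • (m ((k⁻¹ : SL(2, ℤ)) : SL(2, ℤ) ⧸ Γ) - m (((k * S)⁻¹ : SL(2, ℤ)) : SL(2, ℤ) ⧸ Γ)) := by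
  classical
  unfold cm
  have h1 : ∀ x : SL(2, ℤ) ⧸ Γ,
      ccS (cst Γ x) e2 e1 (P0.act (k : M2)) (P0.act ((k * S : SL(2, ℤ)) : M2)) • m x =
        (if ((k⁻¹ : SL(2, ℤ)) : SL(2, ℤ) ⧸ Γ) = x then (4 : ℤ) • m x else 0) -
        (if (((k * S)⁻¹ : SL(2, ℤ)) : SL(2, ℤ) ⧸ Γ) = x then (4 : ℤ) • m x else 0) := by
    intro x
    rw [ccS_edge (hasDet_cst Γ x), ← Matrix.SpecialLinearGroup.coe_neg,
      ← Matrix.SpecialLinearGroup.coe_neg, C1_ind, C1_ind, C1_ind, C1_ind, C1_neg hneg,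
      C1_neg hneg]
    by_cases ha : ((k⁻¹ : SL(2, ℤ)) : SL(2, ℤ) ⧸ Γ) = x <;>
    by_cases hb : (((k * S)⁻¹ : SL(2, ℤ)) : SL(2, ℤ) ⧸ Γ) = x
    · rw [if_pos ha, if_pos hb, if_pos ha, if_pos hb]
      norm_num
    · rw [if_pos ha, if_neg hb, if_pos ha, if_neg hb]
      norm_num
    · rw [if_neg ha, if_pos hb, if_neg ha, if_pos hb]
      norm_num
    · rw [if_neg ha, if_neg hb, if_neg ha, if_neg hb]
      norm_num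
  rw [Finset.sum_congr rfl (fun x _ => h1 x), Finset.sum_sub_distrib, Finset.sum_ite_eq,
    Finset.sum_ite_eq, if_pos (Finset.mem_univ _), if_pos (Finset.mem_univ _), smul_sub]

end

end Fermat.Agent.S41Lib
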