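import Fermat.Agent.S41.PD.Defs2
import Fermat.Agent.S41.PD.Basic
import Fermat.Agent.S41.PD.Adj
import Fermat.Agent.S41.PD.Cm

/-!
# S41, Poincare duality block, (C2): the decomposition `4 m = (S-invariant) - (U-invariant)`
-/

set_option autoImplicit false
open scoped MatrixGroups
open Matrix ModularGroup CongruenceSubgroup

namespace Fermat.Agent.S41Lib

open Fermat.Agent.ESLib

theorem C2_pos (k : SL(2, ℤ)) : (P0.act (k : M2)).Pos :=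
  pos_act P0_pos (by rw [k.2]; exact one_ne_zero)

section
variable {A : Type} [AddCommGroup A] {Γ : Subgroup SL(2, ℤ)} [Fintype (SL(2, ℤ) ⧸ Γ)]

/-- `w(k⁻¹Γ) = c_m(P₀, k P₀)` -/
noncomputable def C2w (Γ : Subgroup SL(2, ℤ)) [Fintype (SL(2, ℤ) ⧸ Γ)] (m : SL(2, ℤ) ⧸ Γ → A)
    (x : SL(2, ℤ) ⧸ Γ) : A := cm Γ m P0 (P0.act (((x.out)⁻¹ : SL(2, ℤ)) : M2))

theorem C2w_mk (m : SL(2, ℤ) ⧸ Γ → A) (h : ∀ γ ∈ Γ, cm Γ m P0 (P0.act (γ : M2)) = 0)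
    (k : SL(2, ℤ)) :
    C2w Γ m ((k⁻¹ : SL(2, ℤ)) : SL(2, ℤ) ⧸ Γ) = cm Γ m P0 (P0.act (k : M2)) := by
  unfold C2w
  set x : SL(2, ℤ) ⧸ Γ := ((k⁻¹ : SL(2, ℤ)) : SL(2, ℤ) ⧸ Γ) with hx
  have h1 : ((x.out : SL(2, ℤ)) : SL(2, ℤ) ⧸ Γ) = ((k⁻¹ : SL(2, ℤ)) : SL(2, ℤ) ⧸ Γ) :=
    Quotient.out_eq' x
  have h2 : (x.out)⁻¹ * k⁻¹ ∈ Γ := QuotientGroup.eq.1 h1
  set γ : SL(2, ℤ) := (x.out)⁻¹ * k⁻¹ with hγ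
  have h3 : (x.out)⁻¹ = γ * k := by rw [hγ]; group
  rw [h3, Matrix.SpecialLinearGroup.coe_mul, act_mul,
    cm_add m P0_pos (C2_pos γ) (pos_act (C2_pos k) (by rw [γ.2]; exact one_ne_zero)), h γ h2,
    zero_add, cm_inv m h2]

/-- (ND core) -/
theorem exists_decomp (hneg : (-1 : SL(2, ℤ)) ∈ Γ) (m : SL(2, ℤ) ⧸ Γ → A)
    (h : ∀ γ ∈ Γ, cm Γ m P0 (P0.act (γ : M2)) = 0) :
    ∃ w : SL(2, ℤ) ⧸ Γ → A, (∀ x, w ((S * T : SL(2, ℤ))⁻¹ • x) = w x) ∧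
      ∀ x, (4 : ℤ) • m (S⁻¹ • x) + w (S⁻¹ • x) = (4 : ℤ) • m x + w x := by
  have hrep : ∀ x : SL(2, ℤ) ⧸ Γ, ∃ k : SL(2, ℤ), x = ((k⁻¹ : SL(2, ℤ)) : SL(2, ℤ) ⧸ Γ) := by
    intro x
    refine ⟨(x.out)⁻¹, ?_⟩
    rw [inv_inv]
    exact (Quotient.out_eq' x).symm
  refine ⟨C2w Γ m, ?_, ?_⟩
  · intro x
    obtain ⟨k, rfl⟩ := hrep x
    have e : (S * T : SL(2, ℤ))⁻¹ • ((k⁻¹ : SL(2, ℤ)) : SL(2, ℤ) ⧸ Γ)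
        = (((k * (S * T))⁻¹ : SL(2, ℤ)) : SL(2, ℤ) ⧸ Γ) := by
      rw [_root_.mul_inv_rev k (S * T)]
      rfl
    rw [e, C2w_mk m h, C2w_mk m h, Matrix.SpecialLinearGroup.coe_mul, act_mul, act_ST]
  · intro x
    obtain ⟨k, rfl⟩ := hrep x
    have e : (S : SL(2, ℤ))⁻¹ • ((k⁻¹ : SL(2, ℤ)) : SL(2, ℤ) ⧸ Γ)
        = (((k * S)⁻¹ : SL(2, ℤ)) : SL(2, ℤ) ⧸ Γ) := by
      rw [_root_.mul_inv_rev k S]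
      rfl
    rw [e, C2w_mk m h, C2w_mk m h, cm_add m P0_pos (C2_pos k) (C2_pos (k * S)),
      cm_edge hneg m k, smul_sub]
    abel

end

end Fermat.Agent.S41Lib
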