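import Fermat.Agent.S41.PD.Defs2
import Fermat.Agent.S41.PD.Decomp

/-!
# S41, Poincare duality block, (P4c): orthogonality
-/

set_option autoImplicit false
open scoped MatrixGroups
open Matrix ModularGroup CongruenceSubgroup

namespace Fermat.Agent.S41Lib

open Fermat.Agent.ESLib

section
variable {Γ : Subgroup SL(2, ℤ)} [Fintype (SL(2, ℤ) ⧸ Γ)] {p : ℕ} [Fact p.Prime]

/-- reindexing a sum over `SL(2,ℤ) ⧸ Γ` by the action of a group element -/
theorem O1_sum_smul {B : Type} [AddCommMonoid B] (g : SL(2, ℤ)) (f : SL(2, ℤ) ⧸ Γ → B) :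
    ∑ x, f (g • x) = ∑ x, f x :=
  Equiv.sum_comp (MulAction.toPerm g) f

theorem O1_two_ne_zero (hp2 : p ≠ 2) : (2 : ZMod p) ≠ 0 := by
  intro h
  have h1 : ((2 : ℕ) : ZMod p) = 0 := by exact_mod_cast h
  rw [ZMod.natCast_eq_zero_iff] at h1
  exact hp2 ((Nat.prime_dvd_prime_iff_eq (Fact.out : p.Prime) Nat.prime_two).1 h1)

theorem orth_S (hp2 : p ≠ 2) {F : SL(2, ℤ) ⧸ Γ → ℤ} (hF : IsManin F) (s : SL(2, ℤ) ⧸ Γ → ZMod p)
    (hs : ∀ x, s (S⁻¹ • x) = s x) : ∑ x, s x * (F x : ZMod p) = 0 := by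
  have h1 : ∑ x, s x * (F x : ZMod p) = -∑ x, s x * (F x : ZMod p) := by
    conv_lhs => rw [← O1_sum_smul (S⁻¹) (fun x => s x * (F x : ZMod p))]
    rw [← Finset.sum_neg_distrib]
    refine Finset.sum_congr rfl fun x _ => ?_
    rw [hs, hF.two, Int.cast_neg, mul_neg]
  have h2 : (2 : ZMod p) * ∑ x, s x * (F x : ZMod p) = 0 := by
    rw [two_mul]
    nth_rewrite 1 [h1]
    exact neg_add_cancel _
  exact (mul_eq_zero.1 h2).resolve_left (O1_two_ne_zero hp2)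

/-- use the canonical lift `ZMod.val ∘ w` (it is `U`-invariant) and `3 ∑ = 0` in `ℤ`: works for `p = 3` -/
theorem orth_U {F : SL(2, ℤ) ⧸ Γ → ℤ} (hF : IsManin F) (w : SL(2, ℤ) ⧸ Γ → ZMod p)
    (hw : ∀ x, w ((S * T : SL(2, ℤ))⁻¹ • x) = w x) : ∑ x, w x * (F x : ZMod p) = 0 := by
  set U : SL(2, ℤ) := (S * T : SL(2, ℤ))⁻¹ with hU
  set W : SL(2, ℤ) ⧸ Γ → ℤ := fun x => ((w x).val : ℤ) with hW
  have hWU : ∀ x, W (U • x) = W x := fun x => by simp only [hW, hw]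
  have e1 : ∑ x, W x * F (U • x) = ∑ x, W x * F x := by
    rw [← O1_sum_smul U (fun x => W x * F x)]
    exact Finset.sum_congr rfl fun x _ => by rw [hWU]
  have e2 : ∑ x, W x * F (U • (U • x)) = ∑ x, W x * F x := by
    rw [← O1_sum_smul U (fun x => W x * F x), ← O1_sum_smul U (fun x => W (U • x) * F (U • x))]
    exact Finset.sum_congr rfl fun x _ => by rw [hWU, hWU]
  have e3 : ∑ x, W x * (F x + F (U • x) + F (U • (U • x))) = 0 :=
    Finset.sum_eq_zero fun x _ => by rw [hF.three, mul_zero]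
  have e4 : ∑ x, W x * F x = 0 := by
    simp only [mul_add, Finset.sum_add_distrib] at e3
    rw [e1, e2] at e3
    omega
  have e5 : ((∑ x, W x * F x : ℤ) : ZMod p) = 0 := by rw [e4, Int.cast_zero]
  rw [Int.cast_sum] at e5
  rw [← e5]
  refine Finset.sum_congr rfl fun x _ => ?_
  rw [Int.cast_mul]
  have h6 : ((W x : ℤ) : ZMod p) = w x := by
    simp only [hW, Int.cast_natCast]
    exact ZMod.natCast_zmod_val (w x)
  rw [h6]

/-- (ND) -/
theorem nondeg (hp2 : p ≠ 2) (hneg : (-1 : SL(2, ℤ)) ∈ Γ) (m : SL(2, ℤ) ⧸ Γ → ZMod p)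
    (h : ∀ γ ∈ Γ, cm Γ m P0 (P0.act (γ : M2)) = 0) {F : SL(2, ℤ) ⧸ Γ → ℤ} (hF : IsManin F) :
    ∑ x, m x * (F x : ZMod p) = 0 := by
  obtain ⟨w, hw, hs⟩ := exists_decomp hneg m h
  have h1 := orth_U hF w hw
  have h2 := orth_S hp2 hF (fun x => (4 : ℤ) • m x + w x) hs
  simp only [add_mul, Finset.sum_add_distrib, h1, add_zero, zsmul_eq_mul, mul_assoc] at h2
  rw [← Finset.mul_sum] at h2
  refine (mul_eq_zero.1 h2).resolve_left ?_
  have h4 : (((4 : ℤ) : ZMod p)) = 2 * 2 := by push_cast; norm_num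
  rw [h4]
  exact mul_ne_zero (O1_two_ne_zero hp2) (O1_two_ne_zero hp2)
end

end Fermat.Agent.S41Lib
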