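import Fermat.Agent.S41.PD.Defs2

/-!
# S41, Poincare duality block, (R1): every parabolic homomorphism comes from a symbol
-/

set_option autoImplicit false
open scoped MatrixGroups
open Matrix ModularGroup CongruenceSubgroup

namespace Fermat.Agent.S41Lib

open Fermat.Agent.ESLib

/-- an integer `t` with `t² - 4` a square satisfies `t² ≤ 4` -/
theorem R1_sq_le (t s : ℤ) (h : s ^ 2 = t ^ 2 - 4) : t ^ 2 ≤ 4 := by
  by_contra hc
  rw [not_le] at hc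
  have ha : 3 ≤ |t| := by
    by_contra h3
    rw [not_le] at h3
    have h0 : 0 ≤ |t| := abs_nonneg t
    have : |t| ^ 2 ≤ 4 := by nlinarith
    rw [sq_abs] at this
    omega
  have hs : |s| ^ 2 = |t| ^ 2 - 4 := by rw [sq_abs, sq_abs, h]
  have hs0 : 0 ≤ |s| := abs_nonneg s
  rcases le_or_gt |s| (|t| - 1) with h1 | h1
  · nlinarith
  · have h2 : |t| ≤ |s| := by omega
    nlinarith

/-- an integral relation `m² - t m n + n² = 0` with `n ≠ 0` forces `t² ≤ 4` -/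
theorem R1_trace_le (m n t : ℤ) (hn : n ≠ 0) (h : m ^ 2 - t * m * n + n ^ 2 = 0) : t ^ 2 ≤ 4 := by
  have h1 : (2 * m - t * n) ^ 2 = (t ^ 2 - 4) * n ^ 2 := by linear_combination 4 * h
  have h2 : n ^ 2 ∣ (2 * m - t * n) ^ 2 := ⟨t ^ 2 - 4, by rw [h1]; ring⟩
  have h3 : n ∣ 2 * m - t * n := (Int.pow_dvd_pow_iff (by norm_num)).1 h2
  obtain ⟨s, hs⟩ := h3
  apply R1_sq_le t s
  have hn2 : n ^ 2 ≠ 0 := pow_ne_zero 2 hn
  apply mul_right_cancel₀ hn2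
  rw [← h1, hs]
  ring

/-- a matrix of determinant one with a rational eigenvector has trace `±2` -/
theorem R1_trace_of_eigen (δ : SL(2, ℤ)) (r : V2) (hr : r ≠ 0) (m n : ℤ) (hn : n ≠ 0)
    (h : m • ((δ : M2) *ᵥ r) = n • r) : (δ : M2).trace ^ 2 ≤ 4 := by
  have hdet : (δ : M2) 0 0 * (δ : M2) 1 1 - (δ : M2) 0 1 * (δ : M2) 1 0 = 1 := by
    have := δ.2
    rwa [Matrix.det_fin_two] at this
  have h0 : m * ((δ : M2) 0 0 * r 0 + (δ : M2) 0 1 * r 1) = n * r 0 := by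
    have := congrFun h 0
    simpa [Matrix.mulVec, dotProduct, Fin.sum_univ_two] using this
  have h1 : m * ((δ : M2) 1 0 * r 0 + (δ : M2) 1 1 * r 1) = n * r 1 := by
    have := congrFun h 1
    simpa [Matrix.mulVec, dotProduct, Fin.sum_univ_two] using this
  rw [Matrix.trace_fin_two]
  apply R1_trace_le m n _ hn
  set a := (δ : M2) 0 0
  set b := (δ : M2) 0 1
  set c := (δ : M2) 1 0
  set d := (δ : M2) 1 1
  -- `(m a - n) r0 + m b r1 = 0`, `m c r0 + (m d - n) r1 = 0`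
  have key : ∀ x : ℤ, x ≠ 0 → (m ^ 2 - (a + d) * m * n + n ^ 2) * x = 0 →
      m ^ 2 - (a + d) * m * n + n ^ 2 = 0 := by
    intro x hx hx0
    rcases mul_eq_zero.1 hx0 with h | h
    · exact h
    · exact absurd h hx
  by_cases hr0 : r 0 = 0
  · have hr1 : r 1 ≠ 0 := by
      intro hr1
      apply hr
      funext i
      fin_cases i
      · exact hr0
      · exact hr1
    apply key (r 1) hr1
    linear_combination (m * a - n) * h1 - m * c * h0 - m ^ 2 * r 1 * hdet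
  · apply key (r 0) hr0
    linear_combination (m * d - n) * h0 - m * b * h1 - m ^ 2 * r 0 * hdet

theorem R1_inv_mul (h : SL(2, ℤ)) : ((h⁻¹ : SL(2, ℤ)) : M2) * (h : M2) = 1 := by
  rw [← Matrix.SpecialLinearGroup.coe_mul, inv_mul_cancel, Matrix.SpecialLinearGroup.coe_one]

/-- `u` and `v` span lines in the same orbit -/
def R1Rel (M : ℕ) (u v : V2) : Prop :=
  ∃ (γ : Gamma0 M) (a b : ℤ), a ≠ 0 ∧ b ≠ 0 ∧ a • (((γ : SL(2, ℤ)) : M2) *ᵥ u) = b • v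

theorem R1Rel.refl (M : ℕ) (u : V2) : R1Rel M u u :=
  ⟨1, 1, 1, one_ne_zero, one_ne_zero, by simp⟩

theorem R1Rel.trans {M : ℕ} {u v w : V2} (h : R1Rel M u v) (h' : R1Rel M v w) : R1Rel M u w := by
  obtain ⟨γ, a, b, ha, hb, e⟩ := h
  obtain ⟨γ', a', b', ha', hb', e'⟩ := h'
  refine ⟨γ' * γ, a' * a, b * b', mul_ne_zero ha' ha, mul_ne_zero hb hb', ?_⟩
  have : (((γ' * γ : Gamma0 M) : SL(2, ℤ)) : M2) *ᵥ u
      = ((γ' : SL(2, ℤ)) : M2) *ᵥ (((γ : SL(2, ℤ)) : M2) *ᵥ u) := by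
    rw [Matrix.mulVec_mulVec]
    rfl
  rw [this, mul_smul, ← Matrix.mulVec_smul, e, Matrix.mulVec_smul, smul_comm, e', mul_smul]

theorem R1Rel.symm {M : ℕ} {u v : V2} (h : R1Rel M u v) : R1Rel M v u := by
  obtain ⟨γ, a, b, ha, hb, e⟩ := h
  refine ⟨γ⁻¹, b, a, hb, ha, ?_⟩
  rw [← Matrix.mulVec_smul, ← e, Matrix.mulVec_smul, Matrix.mulVec_mulVec]
  have : (((γ⁻¹ : Gamma0 M) : SL(2, ℤ)) : M2) * ((γ : SL(2, ℤ)) : M2) = 1 :=
    R1_inv_mul (γ : SL(2, ℤ))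
  rw [this, Matrix.one_mulVec]

/-- the class of `u` -/
def R1cls (M : ℕ) (u : V2) : Set V2 := {r | R1Rel M r u}

theorem R1cls_eq {M : ℕ} {u v : V2} (h : R1Rel M u v) : R1cls M u = R1cls M v := by
  ext r
  exact ⟨fun hr => R1Rel.trans hr h, fun hr => R1Rel.trans hr h.symm⟩

open Classical in
/-- a choice function on sets of vectors -/
noncomputable def R1pick (s : Set V2) : V2 := if h : s.Nonempty then h.some else 0

theorem R1pick_mem {s : Set V2} (h : s.Nonempty) : R1pick s ∈ s := by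
  unfold R1pick
  rw [dif_pos h]
  exact h.some_mem

/-- the representative of the class of `u` -/
noncomputable def R1rep (M : ℕ) (u : V2) : V2 := R1pick (R1cls M u)

theorem R1rep_rel (M : ℕ) (u : V2) : R1Rel M (R1rep M u) u :=
  R1pick_mem (s := R1cls M u) ⟨u, R1Rel.refl M u⟩

theorem R1rep_eq {M : ℕ} {u v : V2} (h : R1Rel M u v) : R1rep M u = R1rep M v := by
  unfold R1rep
  rw [R1cls_eq h]

/-- the primitive of `χ` -/
noncomputable def R1psi (M : ℕ) (χ : EP M ℤ) (u : V2) : ℤ :=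
  (χ : Additive (Gamma0 M) →+ ℤ) (Additive.ofMul (Classical.choose (R1rep_rel M u)))

theorem R1_unique (M : ℕ) (χ : EP M ℤ) {r u : V2} (hu : u ≠ 0) (γ γ' : Gamma0 M) (a b a' b' : ℤ)
    (ha : a ≠ 0) (hb : b ≠ 0) (ha' : a' ≠ 0) (hb' : b' ≠ 0)
    (e : a • (((γ : SL(2, ℤ)) : M2) *ᵥ r) = b • u)
    (e' : a' • (((γ' : SL(2, ℤ)) : M2) *ᵥ r) = b' • u) :
    (χ : Additive (Gamma0 M) →+ ℤ) (Additive.ofMul γ) =
      (χ : Additive (Gamma0 M) →+ ℤ) (Additive.ofMul γ') := by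
  have hr : r ≠ 0 := by
    rintro rfl
    rw [Matrix.mulVec_zero, smul_zero] at e
    exact hu ((smul_eq_zero.1 e.symm).resolve_left hb)
  have hinv : (((γ'⁻¹ : Gamma0 M) : SL(2, ℤ)) : M2) * ((γ' : SL(2, ℤ)) : M2) = 1 :=
    R1_inv_mul (γ' : SL(2, ℤ))
  have hδ : (a * b') • ((((γ'⁻¹ * γ : Gamma0 M) : SL(2, ℤ)) : M2) *ᵥ r) = (b * a') • r := by
    have h1 : (((γ'⁻¹ * γ : Gamma0 M) : SL(2, ℤ)) : M2) *ᵥ r
        = (((γ'⁻¹ : Gamma0 M) : SL(2, ℤ)) : M2) *ᵥ (((γ : SL(2, ℤ)) : M2) *ᵥ r) := by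
      rw [Matrix.mulVec_mulVec]
      rfl
    rw [h1, mul_comm a b', mul_smul, ← Matrix.mulVec_smul, e, Matrix.mulVec_smul, smul_comm,
      ← Matrix.mulVec_smul, ← e', Matrix.mulVec_smul, Matrix.mulVec_mulVec, hinv,
      Matrix.one_mulVec, mul_smul]
  have ht := R1_trace_of_eigen ((γ'⁻¹ * γ : Gamma0 M) : SL(2, ℤ)) r hr (a * b') (b * a')
    (mul_ne_zero hb ha') hδ
  have h0 := χ.2 (γ'⁻¹ * γ) ht
  rw [ofMul_mul, map_add, ofMul_inv, map_neg] at h0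
  linarith

theorem R1psi_eq (M : ℕ) (χ : EP M ℤ) {u : V2} (hu : u ≠ 0) (γ : Gamma0 M) (a b : ℤ)
    (ha : a ≠ 0) (hb : b ≠ 0) (e : a • (((γ : SL(2, ℤ)) : M2) *ᵥ R1rep M u) = b • u) :
    R1psi M χ u = (χ : Additive (Gamma0 M) →+ ℤ) (Additive.ofMul γ) := by
  obtain ⟨a', b', ha', hb', e'⟩ := Classical.choose_spec (R1rep_rel M u)
  exact R1_unique M χ hu _ γ a' b' a b ha' hb' ha hb e' e

theorem R1psi_act (M : ℕ) (χ : EP M ℤ) {u : V2} (hu : u ≠ 0) (h : Gamma0 M)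
    (hhu : ((h : SL(2, ℤ)) : M2) *ᵥ u ≠ 0) :
    R1psi M χ (((h : SL(2, ℤ)) : M2) *ᵥ u) =
      (χ : Additive (Gamma0 M) →+ ℤ) (Additive.ofMul h) + R1psi M χ u := by
  have hrel : R1Rel M u (((h : SL(2, ℤ)) : M2) *ᵥ u) :=
    ⟨h, 1, 1, one_ne_zero, one_ne_zero, rfl⟩
  obtain ⟨γ, a, b, ha, hb, e⟩ := R1rep_rel M u
  rw [R1psi_eq M χ hu γ a b ha hb e, R1psi_eq M χ hhu (h * γ) a b ha hb, ofMul_mul, map_add]
  rw [← R1rep_eq hrel]
  have : (((h * γ : Gamma0 M) : SL(2, ℤ)) : M2) *ᵥ R1rep M u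
      = ((h : SL(2, ℤ)) : M2) *ᵥ (((γ : SL(2, ℤ)) : M2) *ᵥ R1rep M u) := by
    rw [Matrix.mulVec_mulVec]
    rfl
  rw [this, ← Matrix.mulVec_smul, e, Matrix.mulVec_smul]

theorem R1psi_smul (M : ℕ) (χ : EP M ℤ) {u : V2} (hu : u ≠ 0) (n : ℤ) (hn : n ≠ 0) :
    R1psi M χ (n • u) = R1psi M χ u := by
  have hnu : n • u ≠ 0 := smul_ne_zero hn hu
  have hrel : R1Rel M u (n • u) := ⟨1, n, 1, hn, one_ne_zero, by simp⟩
  obtain ⟨γ, a, b, ha, hb, e⟩ := R1rep_rel M u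
  rw [R1psi_eq M χ hu γ a b ha hb e, R1psi_eq M χ hnu γ (n * a) b (mul_ne_zero hn ha) hb]
  rw [← R1rep_eq hrel, mul_smul, e, smul_comm]

theorem R1_mulVec_ne_zero (h : SL(2, ℤ)) {u : V2} (hu : u ≠ 0) : (h : M2) *ᵥ u ≠ 0 := by
  intro h0
  apply hu
  have h1 : ((h⁻¹ : SL(2, ℤ)) : M2) * (h : M2) = 1 := R1_inv_mul h
  have h2 : ((h⁻¹ : SL(2, ℤ)) : M2) *ᵥ ((h : M2) *ᵥ u) = ((h⁻¹ : SL(2, ℤ)) : M2) *ᵥ 0 := by
    rw [h0]
  rwa [Matrix.mulVec_mulVec, h1, Matrix.one_mulVec, Matrix.mulVec_zero] at h2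

theorem exists_sym_of_EP (M : ℕ) (χ : EP M ℤ) : ∃ φ : V2 → V2 → ℤ, IsSym (Gamma0 M) φ ∧
    ∀ γ : Gamma0 M, φ e1 (((γ : SL(2, ℤ)) : M2) *ᵥ e1) =
      (χ : Additive (Gamma0 M) →+ ℤ) (Additive.ofMul γ) := by
  classical
  have he1 : e1 ≠ 0 := by
    intro h
    have := congrFun h 0
    simp [e1] at this
  refine ⟨fun u v => if u = 0 ∨ v = 0 then 0 else R1psi M χ v - R1psi M χ u, ⟨?_, ?_, ?_, ?_⟩, ?_⟩
  · intro u v w hu hv hw
    simp only [hu, hv, hw, or_self, if_false]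
    ring
  · intro h hh u v
    by_cases hu : u = 0
    · simp [hu]
    by_cases hv : v = 0
    · simp [hv]
    have hu' := R1_mulVec_ne_zero h hu
    have hv' := R1_mulVec_ne_zero h hv
    simp only [hu, hv, hu', hv', or_self, if_false]
    have e1' := R1psi_act M χ hu ⟨h, hh⟩ hu'
    have e2' := R1psi_act M χ hv ⟨h, hh⟩ hv'
    simp only at e1' e2'
    rw [e1', e2']
    ring
  · intro n hn u v
    by_cases hu : u = 0
    · simp [hu]
    by_cases hv : v = 0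
    · simp [hv]
    have hu' : n • u ≠ 0 := smul_ne_zero hn hu
    simp only [hu, hv, hu', or_self, if_false]
    rw [R1psi_smul M χ hu n hn]
  · intro n hn u v
    by_cases hu : u = 0
    · simp [hu]
    by_cases hv : v = 0
    · simp [hv]
    have hv' : n • v ≠ 0 := smul_ne_zero hn hv
    simp only [hu, hv, hv', or_self, if_false]
    rw [R1psi_smul M χ hv n hn]
  · intro γ
    have h' := R1_mulVec_ne_zero (γ : SL(2, ℤ)) he1
    simp only [he1, h', or_self, if_false]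
    rw [R1psi_act M χ he1 γ h']
    ring

end Fermat.Agent.S41Lib
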