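import Fermat.Agent.S41.PD.JJ
import Fermat.Agent.S41.PD.Orth
import Fermat.Agent.S41.PD.ManinTrick
import Fermat.Agent.S41.PD.Prim
import Fermat.Agent.ES.TrunkCore

/-!
# S41, Poincare duality block, (N1) = (PD-2): the intersection pairing is nondegenerate mod `p`
-/

set_option autoImplicit false
open scoped MatrixGroups
open Matrix ModularGroup CongruenceSubgroup

namespace Fermat.Agent.S41Lib

open Fermat.Agent.ESLib

theorem N1_neg_one_mem (M : ℕ) : (-1 : SL(2, ℤ)) ∈ Gamma0 M := by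
  rw [Gamma0_mem]
  simp

/-- the data attached to a vector of the span of the `F_{sym g}` -/
def N1_Good (M : ℕ) {p : ℕ} (u : EP M ℤ →+ ZMod p)
    (v : SL(2, ℤ) ⧸ Gamma0 M → ZMod p) : Prop :=
  ∃ (ψ : V2 → V2 → ℤ) (θ : EP M ℤ), IsSym (Gamma0 M) ψ ∧
    (∀ x, ((FF (Gamma0 M) ψ x : ℤ) : ZMod p) = v x) ∧
    (∀ γ : Gamma0 M, ψ e1 (((γ : SL(2, ℤ)) : M2) *ᵥ e1) =
      (θ : Additive (Gamma0 M) →+ ℤ) (Additive.ofMul γ)) ∧ u θ = 0

theorem N1_good_span (M : ℕ) {p : ℕ} [Fact p.Prime] (u : EP M ℤ →+ ZMod p)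
    (h : ∀ g, u (JE M g) = 0) (v : SL(2, ℤ) ⧸ Gamma0 M → ZMod p)
    (hv : v ∈ Submodule.span (ZMod p) (Set.range fun g : Gamma0 M =>
      fun x : SL(2, ℤ) ⧸ Gamma0 M => ((FF (Gamma0 M) (sym (Gamma0 M) (g : SL(2, ℤ))) x : ℤ) : ZMod p))) :
    N1_Good M u v := by
  induction hv using Submodule.span_induction with
  | mem v hv =>
    obtain ⟨g, rfl⟩ := hv
    refine ⟨sym (Gamma0 M) (g : SL(2, ℤ)), JE M (Additive.ofMul g), isSym_sym g.2, fun x => rfl,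
      fun γ => ?_, h _⟩
    rw [JE_apply]
    rfl
  | zero =>
    refine ⟨fun a b => 0 * sym (Gamma0 M) 1 a b, 0, (isSym_sym (Gamma0 M).one_mem).zsmul 0,
      fun x => ?_, fun γ => ?_, map_zero u⟩
    · simp [FF]
    · simp
  | add v w _ _ hv hw =>
    obtain ⟨ψ₁, θ₁, s₁, f₁, e₁, u₁⟩ := hv
    obtain ⟨ψ₂, θ₂, s₂, f₂, e₂, u₂⟩ := hw
    refine ⟨fun a b => ψ₁ a b + ψ₂ a b, θ₁ + θ₂, s₁.add' s₂, fun x => ?_, fun γ => ?_, ?_⟩
    · have : FF (Gamma0 M) (fun a b => ψ₁ a b + ψ₂ a b) x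
          = FF (Gamma0 M) ψ₁ x + FF (Gamma0 M) ψ₂ x := rfl
      rw [this, Int.cast_add, f₁, f₂]
      rfl
    · show ψ₁ _ _ + ψ₂ _ _ = _
      rw [e₁, e₂]
      rfl
    · rw [map_add, u₁, u₂, add_zero]
  | smul c v _ hv =>
    obtain ⟨ψ₁, θ₁, s₁, f₁, e₁, u₁⟩ := hv
    refine ⟨fun a b => (c.val : ℤ) * ψ₁ a b, (c.val : ℤ) • θ₁, s₁.zsmul _, fun x => ?_,
      fun γ => ?_, ?_⟩
    · have : FF (Gamma0 M) (fun a b => (c.val : ℤ) * ψ₁ a b) x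
          = (c.val : ℤ) * FF (Gamma0 M) ψ₁ x := rfl
      rw [this, Int.cast_mul, f₁]
      simp
    · show (c.val : ℤ) * ψ₁ _ _ = _
      rw [e₁]
      simp
    · rw [map_zsmul, u₁, smul_zero]

theorem JE_nondeg (M : ℕ) [NeZero M] {p : ℕ} [Fact p.Prime] (hp2 : p ≠ 2) (u : EP M ℤ →+ ZMod p)
    (h : ∀ g, u (JE M g) = 0) : u = 0 := by
  classical
  have : Fintype (SL(2, ℤ) ⧸ Gamma0 M) := Fintype.ofFinite _
  refine AddMonoidHom.ext fun χ => ?_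
  obtain ⟨φ, hφ, hφχ⟩ := exists_sym_of_EP M χ
  set Sp : Submodule (ZMod p) (SL(2, ℤ) ⧸ Gamma0 M → ZMod p) :=
    Submodule.span (ZMod p) (Set.range fun g : Gamma0 M =>
      fun x : SL(2, ℤ) ⧸ Gamma0 M =>
        ((FF (Gamma0 M) (sym (Gamma0 M) (g : SL(2, ℤ))) x : ℤ) : ZMod p)) with hSp
  have hmem : (fun x : SL(2, ℤ) ⧸ Gamma0 M => ((FF (Gamma0 M) φ x : ℤ) : ZMod p)) ∈ Sp := by
    by_contra hnot
    obtain ⟨f, hf1, hf2⟩ := Submodule.exists_dual_map_eq_bot_of_notMem hnot inferInstance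
    apply hf1
    set m : SL(2, ℤ) ⧸ Gamma0 M → ZMod p := fun x => f (fun j => if x = j then 1 else 0) with hm
    have hfm : ∀ F : SL(2, ℤ) ⧸ Gamma0 M → ZMod p, f F = ∑ x, m x * F x := by
      intro F
      rw [LinearMap.pi_apply_eq_sum_univ f F]
      refine Finset.sum_congr rfl fun x _ => ?_
      rw [smul_eq_mul, mul_comm]
    have hcm : ∀ γ ∈ Gamma0 M, cm (Gamma0 M) m P0 (P0.act (γ : M2)) = 0 := by
      intro γ hγ
      have h1 : f (fun x : SL(2, ℤ) ⧸ Gamma0 M =>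
          ((FF (Gamma0 M) (sym (Gamma0 M) γ) x : ℤ) : ZMod p)) = 0 := by
        have h2 : f (fun x : SL(2, ℤ) ⧸ Gamma0 M =>
            ((FF (Gamma0 M) (sym (Gamma0 M) γ) x : ℤ) : ZMod p)) ∈ Sp.map f :=
          Submodule.mem_map_of_mem (Submodule.subset_span ⟨⟨γ, hγ⟩, rfl⟩)
        rw [hf2] at h2
        exact (Submodule.mem_bot _).1 h2
      rw [hfm] at h1
      rw [cm, ← h1]
      refine Finset.sum_congr rfl fun x _ => ?_
      rw [FF_sym hγ, zsmul_eq_mul, mul_comm]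
    rw [hfm]
    exact nondeg hp2 (N1_neg_one_mem M) m hcm (isManin_FF hφ)
  obtain ⟨ψ, θ, sψ, fψ, eψ, uθ⟩ := N1_good_span M u h _ hmem
  have hsym : IsSym (Gamma0 M) (fun a b => φ a b + (-1 : ℤ) * ψ a b) := hφ.add' (sψ.zsmul (-1))
  have hdvd : ∀ k : SL(2, ℤ), (p : ℤ) ∣ φ ((k : M2) *ᵥ e2) ((k : M2) *ᵥ e1)
      + (-1 : ℤ) * ψ ((k : M2) *ᵥ e2) ((k : M2) *ᵥ e1) := by
    intro k
    rw [← FF_mk hφ k, ← FF_mk sψ k, ← ZMod.intCast_zmod_eq_zero_iff_dvd]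
    push_cast
    rw [fψ]
    ring
  have hpi := hsym.dvd_pi (p : ℤ) hdvd
  obtain ⟨ψ', hψ'⟩ := P.exists_div (m := p) (χ - θ) (by
    intro γ
    have := hpi ((Additive.toMul γ : Gamma0 M) : SL(2, ℤ))
    beta_reduce at this
    rw [hφχ, eψ] at this
    have e : ((χ - θ : EP M ℤ) : Additive (Gamma0 M) →+ ℤ) γ
        = (χ : Additive (Gamma0 M) →+ ℤ) γ + (-1 : ℤ) * (θ : Additive (Gamma0 M) →+ ℤ) γ := by
      rw [AddSubgroup.coe_sub, AddMonoidHom.sub_apply]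
      ring
    rw [e]
    exact this)
  have hχ : χ = θ + p • ψ' := by rw [← hψ']; abel
  rw [hχ, map_add, uθ, map_nsmul, zero_add, AddMonoidHom.zero_apply]
  simp

end Fermat.Agent.S41Lib
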