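import Fermat.Agent.S41.PD.Fin
import Fermat.Agent.S41.PD.CcS2

/-!
# S41, Poincare duality block, (P1c1): calculus of `ccS`, part 1
-/

set_option autoImplicit false
open scoped MatrixGroups
open Matrix

namespace Fermat.Agent.S41Lib

/-- all matrices of `𝒟` have determinant `n` -/
def HasDet (𝒟 : Set M2) (n : ℤ) : Prop := ∀ D ∈ 𝒟, D.det = n

theorem hasDet_mset (Γ : Subgroup SL(2, ℤ)) : HasDet (mset Γ) 1 := by
  rintro D ⟨h, _, rfl⟩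
  exact h.det_coe

theorem ccS_self (𝒟 : Set M2) (u v : V2) (P : QF) : ccS 𝒟 u v P P = 0 := by
  unfold ccS
  refine finsum_mem_eq_zero_of_forall_eq_zero fun D _ => ?_
  unfold dsd
  rw [sub_self]

theorem PC_finite_support {𝒟 : Set M2} {n : ℤ} (h𝒟 : HasDet 𝒟 n) (u v : V2) {P P' : QF}
    (hP : P.Pos) (hP' : P'.Pos) :
    (𝒟 ∩ Function.support fun D : M2 => dsd P P' (D *ᵥ u) (D *ᵥ v)).Finite :=
  (finite_dsd hP hP' u v n).subset fun D hD => ⟨h𝒟 D hD.1, hD.2⟩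

theorem ccS_add {𝒟 : Set M2} {n : ℤ} (h𝒟 : HasDet 𝒟 n) (u v : V2) {P P' P'' : QF}
    (hP : P.Pos) (hP' : P'.Pos) (hP'' : P''.Pos) :
    ccS 𝒟 u v P P'' = ccS 𝒟 u v P P' + ccS 𝒟 u v P' P'' := by
  unfold ccS
  rw [← finsum_mem_add_distrib' (PC_finite_support h𝒟 u v hP hP')
    (PC_finite_support h𝒟 u v hP' hP'')]
  refine finsum_mem_congr rfl fun D _ => ?_
  unfold dsd
  ring

theorem ccS_rev (𝒟 : Set M2) (u v : V2) (P P' : QF) : ccS 𝒟 u v P' P = -ccS 𝒟 u v P P' := by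
  unfold ccS
  rw [← PC_finsum_mem_neg]
  refine finsum_mem_congr rfl fun D _ => ?_
  unfold dsd
  ring

theorem ccS_iUnion {I : Type} [Fintype I] (𝒟 : I → Set M2) {n : ℤ} (h𝒟 : ∀ i, HasDet (𝒟 i) n)
    (hdisj : Pairwise fun i j => Disjoint (𝒟 i) (𝒟 j)) (u v : V2) {P P' : QF}
    (hP : P.Pos) (hP' : P'.Pos) :
    ccS (⋃ i, 𝒟 i) u v P P' = ∑ i, ccS (𝒟 i) u v P P' := by
  unfold ccS
  set f : M2 → ℤ := fun D => dsd P P' (D *ᵥ u) (D *ᵥ v) with hf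
  have h1 : ∑ᶠ D ∈ ⋃ i, 𝒟 i, f D = ∑ᶠ D ∈ ⋃ i, (𝒟 i ∩ Function.support f), f D := by
    rw [← Set.iUnion_inter, finsum_mem_inter_support]
  have h2 : ∀ i, ∑ᶠ D ∈ 𝒟 i, f D = ∑ᶠ D ∈ 𝒟 i ∩ Function.support f, f D := fun i =>
    (finsum_mem_inter_support f (𝒟 i)).symm
  change ∑ᶠ D ∈ ⋃ i, 𝒟 i, f D = ∑ i, ∑ᶠ D ∈ 𝒟 i, f D
  rw [h1, finsum_mem_iUnion (fun i j hij => (hdisj hij).mono Set.inter_subset_left
    Set.inter_subset_left) (fun i => PC_finite_support (h𝒟 i) u v hP hP'),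
    finsum_eq_sum_of_fintype]
  exact Finset.sum_congr rfl fun i _ => (h2 i).symm

end Fermat.Agent.S41Lib
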