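import Fermat.Agent.S41.PD.Adj
import Fermat.Agent.S41.PD.CcS
import Fermat.Agent.S41.PD.CcS2

/-!
# S41 (PD), A2: Farey edges separating two adjacent triangles
-/

set_option autoImplicit false
open scoped MatrixGroups
open Matrix ModularGroup CongruenceSubgroup

namespace Fermat.Agent.S41Lib

theorem A2_ne1 : (1 : SL(2, ℤ)) ≠ -1 := by
  intro h
  have := congrArg (fun g : SL(2, ℤ) => g 0 0) h
  simp [Matrix.SpecialLinearGroup.coe_neg] at this

theorem A2_ne2 : (1 : SL(2, ℤ)) ≠ S := by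
  intro h
  have := congrArg (fun g : SL(2, ℤ) => g 0 0) h
  simp [ModularGroup.coe_S] at this

theorem A2_ne3 : (1 : SL(2, ℤ)) ≠ -S := by
  intro h
  have := congrArg (fun g : SL(2, ℤ) => g 0 0) h
  simp [Matrix.SpecialLinearGroup.coe_neg, ModularGroup.coe_S] at this

theorem A2_ne4 : (-1 : SL(2, ℤ)) ≠ S := by
  intro h
  have := congrArg (fun g : SL(2, ℤ) => g 0 0) h
  simp [Matrix.SpecialLinearGroup.coe_neg, ModularGroup.coe_S] at this

theorem A2_ne5 : (-1 : SL(2, ℤ)) ≠ -S := by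
  intro h
  have := congrArg (fun g : SL(2, ℤ) => g 0 0) h
  simp [Matrix.SpecialLinearGroup.coe_neg, ModularGroup.coe_S] at this

theorem A2_ne6 : (S : SL(2, ℤ)) ≠ -S := by
  intro h
  have := congrArg (fun g : SL(2, ℤ) => g 1 0) h
  simp [Matrix.SpecialLinearGroup.coe_neg, ModularGroup.coe_S] at this

open Classical in
theorem A2_split (k : SL(2, ℤ)) :
    (if k = 1 ∨ k = -1 then (2 : ℤ) else if k = S ∨ k = -S then -2 else 0) =
      2 * (if k = 1 then 1 else 0) + 2 * (if k = -1 then 1 else 0) - 2 * (if k = S then 1 else 0)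
        - 2 * (if k = -S then 1 else 0) := by
  by_cases h1 : k = 1
  · subst h1
    simp [A2_ne1, A2_ne2, A2_ne3]
  by_cases h2 : k = -1
  · subst h2
    simp [A2_ne1.symm, A2_ne4, A2_ne2]
  by_cases h3 : k = S
  · subst h3
    simp [A2_ne2.symm, A2_ne4.symm, A2_ne6]
  by_cases h4 : k = -S
  · subst h4
    simp [A2_ne3.symm, A2_ne5.symm, A2_ne6.symm]
  simp [h1, h2, h3, h4]

open Classical in
theorem A2_single (𝒟 : Set M2) (x : M2) (c : ℤ) :
    ∑ᶠ D ∈ 𝒟, c * (if D = x then (1 : ℤ) else 0) = c * ind 𝒟 x := by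
  rw [finsum_mem_def, finsum_eq_single _ x]
  · unfold ind
    by_cases hx : x ∈ 𝒟
    · rw [Set.indicator_of_mem hx, if_pos rfl, if_pos hx]
    · rw [Set.indicator_of_notMem hx, if_neg hx, mul_zero]
  · intro D hD
    by_cases hx : D ∈ 𝒟
    · rw [Set.indicator_of_mem hx, if_neg hD, mul_zero]
    · rw [Set.indicator_of_notMem hx]

open Classical in
theorem A2_fin (𝒟 : Set M2) (x : M2) (c : ℤ) :
    (𝒟 ∩ Function.support fun D : M2 => c * (if D = x then (1 : ℤ) else 0)).Finite := by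
  apply (Set.finite_singleton x).subset
  rintro D ⟨-, hD⟩
  by_contra hne
  apply hD
  have : D ≠ x := hne
  simp [this]

open Classical in
theorem A2_term (k : SL(2, ℤ)) (D : M2) (hD : D.det = 1) :
    dsd (P0.act (k : M2)) (P0.act ((k * S : SL(2, ℤ)) : M2)) (D *ᵥ e2) (D *ᵥ e1) =
      2 * (if D = (k : M2) then (1 : ℤ) else 0) + 2 * (if D = -(k : M2) then (1 : ℤ) else 0)
        + (-2) * (if D = ((k * S : SL(2, ℤ)) : M2) then (1 : ℤ) else 0)
        + (-2) * (if D = -((k * S : SL(2, ℤ)) : M2) then (1 : ℤ) else 0) := by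
  have hk : 0 < (k : M2).det := by rw [k.det_coe]; exact one_pos
  let D' : SL(2, ℤ) := ⟨D, hD⟩
  have hcoe : ((k⁻¹ * D' : SL(2, ℤ)) : M2) = (k : M2).adjugate * D := by
    rw [Matrix.SpecialLinearGroup.coe_mul, Matrix.SpecialLinearGroup.coe_inv]
  have h1 : dsd (P0.act (k : M2)) (P0.act ((k * S : SL(2, ℤ)) : M2)) (D *ᵥ e2) (D *ᵥ e1) =
      dsd P0 (P0.act (S : M2)) (((k⁻¹ * D' : SL(2, ℤ)) : M2) *ᵥ e2)
        (((k⁻¹ * D' : SL(2, ℤ)) : M2) *ᵥ e1) := by
    rw [hcoe, Matrix.SpecialLinearGroup.coe_mul, act_mul]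
    unfold dsd
    rw [sd_act _ hk, sd_act _ hk, Matrix.mulVec_mulVec, Matrix.mulVec_mulVec]
  rw [h1, dsd_adj, A2_split]
  have e1' : (k⁻¹ * D' = 1) ↔ D = (k : M2) := by
    rw [inv_mul_eq_one]
    constructor
    · intro h
      have := congrArg (fun g : SL(2, ℤ) => (g : M2)) h
      exact this.symm
    · intro h
      exact Subtype.ext h.symm
  have e2' : (k⁻¹ * D' = -1) ↔ D = -(k : M2) := by
    rw [inv_mul_eq_iff_eq_mul]
    constructor
    · intro h
      have := congrArg (fun g : SL(2, ℤ) => (g : M2)) h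
      simpa [Matrix.SpecialLinearGroup.coe_neg] using this
    · intro h
      apply Subtype.ext
      simpa [Matrix.SpecialLinearGroup.coe_neg] using h
  have e3' : (k⁻¹ * D' = S) ↔ D = ((k * S : SL(2, ℤ)) : M2) := by
    rw [inv_mul_eq_iff_eq_mul]
    constructor
    · intro h
      exact congrArg (fun g : SL(2, ℤ) => (g : M2)) h
    · intro h
      exact Subtype.ext h
  have e4' : (k⁻¹ * D' = -S) ↔ D = -((k * S : SL(2, ℤ)) : M2) := by
    rw [inv_mul_eq_iff_eq_mul]
    constructor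
    · intro h
      have := congrArg (fun g : SL(2, ℤ) => (g : M2)) h
      simpa [Matrix.SpecialLinearGroup.coe_neg] using this
    · intro h
      apply Subtype.ext
      simpa [Matrix.SpecialLinearGroup.coe_neg] using h
  simp only [e1', e2', e3', e4']
  ring

theorem ccS_edge {𝒟 : Set M2} (h𝒟 : HasDet 𝒟 1) (k : SL(2, ℤ)) :
    ccS 𝒟 e2 e1 (P0.act (k : M2)) (P0.act ((k * S : SL(2, ℤ)) : M2)) =
      2 * ind 𝒟 (k : M2) + 2 * ind 𝒟 (-(k : M2)) - 2 * ind 𝒟 ((k * S : SL(2, ℤ)) : M2)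
        - 2 * ind 𝒟 (-((k * S : SL(2, ℤ)) : M2)) := by
  classical
  unfold ccS
  rw [finsum_mem_congr rfl (fun D hD => A2_term k D (h𝒟 D hD))]
  rw [finsum_mem_add_distrib' _ (A2_fin _ _ _), finsum_mem_add_distrib' _ (A2_fin _ _ _),
    finsum_mem_add_distrib' (A2_fin _ _ _) (A2_fin _ _ _),
    A2_single, A2_single, A2_single, A2_single]
  · ring
  · apply ((A2_fin 𝒟 (k : M2) 2).union (A2_fin 𝒟 (-(k : M2)) 2)).subset
    rintro D ⟨hD, hs⟩
    by_contra hcon
    apply hs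
    simp only [Set.mem_union, Set.mem_inter_iff, Function.mem_support, not_or, not_and,
      not_not] at hcon
    show _ + _ = (0 : ℤ)
    rw [hcon.1 hD, hcon.2 hD, add_zero]
  · apply (((A2_fin 𝒟 (k : M2) 2).union (A2_fin 𝒟 (-(k : M2)) 2)).union
      (A2_fin 𝒟 ((k * S : SL(2, ℤ)) : M2) (-2))).subset
    rintro D ⟨hD, hs⟩
    by_contra hcon
    apply hs
    simp only [Set.mem_union, Set.mem_inter_iff, Function.mem_support, not_or, not_and,
      not_not] at hcon
    show _ + _ + _ = (0 : ℤ)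
    rw [hcon.1.1 hD, hcon.1.2 hD, hcon.2 hD, add_zero, add_zero]

end Fermat.Agent.S41Lib
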