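import Fermat.Agent.S41.PD.Sym
import Fermat.Agent.S41.PD.Pi

/-!
# S41, Poincare duality block, (S4): the pairing `JJ` and the map `JE`
-/

set_option autoImplicit false
open scoped MatrixGroups
open Matrix ModularGroup CongruenceSubgroup

namespace Fermat.Agent.S41Lib

open Fermat.Agent.ESLib

theorem JJ_mul_left {Γ : Subgroup SL(2, ℤ)} {g₁ g₂ : SL(2, ℤ)} (h₁ : g₁ ∈ Γ) (h₂ : g₂ ∈ Γ)
    (g' : SL(2, ℤ)) : JJ Γ (g₁ * g₂) g' = JJ Γ g₁ g' + JJ Γ g₂ g' :=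
  sym_mul h₁ h₂ _ _

theorem JJ_mul_right {Γ : Subgroup SL(2, ℤ)} {g g₁ g₂ : SL(2, ℤ)} (h : g ∈ Γ) (h₁ : g₁ ∈ Γ)
    (h₂ : g₂ ∈ Γ) : JJ Γ g (g₁ * g₂) = JJ Γ g g₁ + JJ Γ g g₂ :=
  (isSym_sym h).pi_mul h₁ h₂

theorem JJ_ellpar_right {Γ : Subgroup SL(2, ℤ)} {g g' : SL(2, ℤ)} (h : g ∈ Γ) (h' : g' ∈ Γ)
    (ht : (g' : M2).trace ^ 2 ≤ 4) : JJ Γ g g' = 0 :=
  (isSym_sym h).pi_ellpar h' ht

/-- the homomorphism `g' ↦ JJ g g'` -/
noncomputable def S4_hom (M : ℕ) (g : Gamma0 M) : Additive (Gamma0 M) →+ ℤ where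
  toFun g' := JJ (Gamma0 M) (g : SL(2, ℤ)) ((Additive.toMul g' : Gamma0 M) : SL(2, ℤ))
  map_zero' := by
    have h := JJ_mul_right g.2 (Gamma0 M).one_mem (Gamma0 M).one_mem
    rw [mul_one] at h
    simp only [toMul_zero, Subgroup.coe_one]
    linarith
  map_add' a b := by
    simp only [toMul_add, Subgroup.coe_mul]
    exact JJ_mul_right g.2 (Additive.toMul a).2 (Additive.toMul b).2

theorem S4_hom_mem (M : ℕ) (g : Gamma0 M) : S4_hom M g ∈ EP M ℤ :=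
  fun γ hγ => JJ_ellpar_right g.2 γ.2 hγ

/-- (PD-1) -/
theorem exists_JE (M : ℕ) : ∃ J : Additive (Gamma0 M) →+ EP M ℤ, ∀ g g' : Gamma0 M,
    ((J (Additive.ofMul g) : EP M ℤ) : Additive (Gamma0 M) →+ ℤ) (Additive.ofMul g') =
      JJ (Gamma0 M) (g : SL(2, ℤ)) (g' : SL(2, ℤ)) := by
  refine ⟨AddMonoidHom.mk' (fun g => ⟨S4_hom M (Additive.toMul g), S4_hom_mem M _⟩) ?_,
    fun g g' => rfl⟩
  intro a b
  apply Subtype.ext
  ext g'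
  exact JJ_mul_left (Additive.toMul a).2 (Additive.toMul b).2 _

noncomputable def JE (M : ℕ) : Additive (Gamma0 M) →+ EP M ℤ := Classical.choose (exists_JE M)

theorem JE_apply (M : ℕ) (g g' : Gamma0 M) :
    ((JE M (Additive.ofMul g) : EP M ℤ) : Additive (Gamma0 M) →+ ℤ) (Additive.ofMul g') =
      JJ (Gamma0 M) (g : SL(2, ℤ)) (g' : SL(2, ℤ)) := Classical.choose_spec (exists_JE M) g g'

end Fermat.Agent.S41Lib
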