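import Fermat.Agent.S41.PD.Defs2

/-!
# S41, Poincare duality block, (P4g, Q1): parabolic elements are conjugate to `± T^w`
-/

set_option autoImplicit false
open scoped MatrixGroups
open Matrix ModularGroup CongruenceSubgroup

namespace Fermat.Agent.S41Lib

open Fermat.Agent.ESLib

/-- every integral vector is a multiple of a primitive one -/
theorem Q1_exists_prim (x y : ℤ) : ∃ a c n : ℤ, IsCoprime a c ∧ x = n * a ∧ y = n * c := by
  by_cases h : x = 0 ∧ y = 0
  · exact ⟨1, 0, 0, isCoprime_one_left, by simp [h.1], by simp [h.2]⟩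
  · have hg : Int.gcd x y ≠ 0 := by
      intro h0
      exact h (Int.gcd_eq_zero_iff.1 h0)
    obtain ⟨a, ha⟩ := Int.gcd_dvd_left (a := x) (b := y)
    obtain ⟨c, hc⟩ := Int.gcd_dvd_right (a := x) (b := y)
    refine ⟨a, c, Int.gcd x y, ?_, ha, hc⟩
    obtain ⟨u, v, huv⟩ : ∃ u v : ℤ, (Int.gcd x y : ℤ) = x * u + y * v :=
      ⟨_, _, Int.gcd_eq_gcd_ab x y⟩
    have hg' : (Int.gcd x y : ℤ) ≠ 0 := by exact_mod_cast hg
    refine ⟨u, v, ?_⟩
    apply mul_left_cancel₀ hg'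
    calc (Int.gcd x y : ℤ) * (u * a + v * c)
        = ((Int.gcd x y : ℤ) * a) * u + ((Int.gcd x y : ℤ) * c) * v := by ring
      _ = x * u + y * v := by rw [← ha, ← hc]
      _ = (Int.gcd x y : ℤ) * 1 := by rw [mul_one, ← huv]

/-- an element of trace `2` fixes a primitive vector -/
theorem Q1_exists_fixed {g : SL(2, ℤ)} (ht : (g : M2).trace = 2) :
    ∃ a c : ℤ, IsCoprime a c ∧ g 0 0 * a + g 0 1 * c = a ∧ g 1 0 * a + g 1 1 * c = c := by
  have hdet : g 0 0 * g 1 1 - g 0 1 * g 1 0 = 1 := by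
    have := g.det_coe
    rwa [Matrix.det_fin_two] at this
  have htr : g 0 0 + g 1 1 = 2 := by
    rwa [Matrix.trace_fin_two] at ht
  by_cases h : g 0 1 = 0 ∧ g 0 0 = 1
  · refine ⟨0, 1, isCoprime_zero_left.2 isUnit_one, by simp [h.1], ?_⟩
    have : g 1 1 = 1 := by have := h.2; omega
    simp [this]
  · obtain ⟨a, c, n, hac, hx, hy⟩ := Q1_exists_prim (g 0 1) (1 - g 0 0)
    have hn : n ≠ 0 := by
      rintro rfl
      apply h
      constructor
      · simpa using hx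
      · have : 1 - g 0 0 = 0 := by simpa using hy
        omega
    refine ⟨a, c, hac, ?_, ?_⟩
    · apply mul_left_cancel₀ hn
      calc n * (g 0 0 * a + g 0 1 * c) = g 0 0 * (n * a) + g 0 1 * (n * c) := by ring
        _ = g 0 0 * g 0 1 + g 0 1 * (1 - g 0 0) := by rw [← hx, ← hy]
        _ = g 0 1 := by ring
        _ = n * a := hx
    · apply mul_left_cancel₀ hn
      have h11 : g 1 1 = 2 - g 0 0 := by omega
      calc n * (g 1 0 * a + g 1 1 * c) = g 1 0 * (n * a) + g 1 1 * (n * c) := by ring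
        _ = g 1 0 * g 0 1 + g 1 1 * (1 - g 0 0) := by rw [← hx, ← hy]
        _ = 1 - g 0 0 := by
            rw [h11] at hdet ⊢
            linarith
        _ = n * c := hy

theorem Q1_trace_two {g : SL(2, ℤ)} (ht : (g : M2).trace = 2) :
    ∃ (k : SL(2, ℤ)) (w : ℤ), g = k * T ^ w * k⁻¹ := by
  obtain ⟨a, c, ⟨u, v, huv⟩, h0, h1⟩ := Q1_exists_fixed ht
  have hdet : g 0 0 * g 1 1 - g 0 1 * g 1 0 = 1 := by
    have := g.det_coe
    rwa [Matrix.det_fin_two] at this
  have htr : g 0 0 + g 1 1 = 2 := by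
    rwa [Matrix.trace_fin_two] at ht
  have key : a * (-(g 1 0 * v) + g 1 1 * u) - c * (-(g 0 0 * v) + g 0 1 * u) = 1 := by
    calc a * (-(g 1 0 * v) + g 1 1 * u) - c * (-(g 0 0 * v) + g 0 1 * u)
        = (g 0 0 * a + g 0 1 * c) * (-(g 1 0 * v) + g 1 1 * u)
          - (g 1 0 * a + g 1 1 * c) * (-(g 0 0 * v) + g 0 1 * u) := by rw [h0, h1]
      _ = (g 0 0 * g 1 1 - g 0 1 * g 1 0) * (u * a + v * c) := by ring
      _ = 1 := by rw [hdet, huv, mul_one]
  let k : SL(2, ℤ) := ⟨!![a, -v; c, u], by rw [Matrix.det_fin_two_of]; linarith⟩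
  -- the upper right entry of `k⁻¹ g k`
  refine ⟨k, u * (g 0 0 * (-v) + g 0 1 * u) + v * (g 1 0 * (-v) + g 1 1 * u), ?_⟩
  rw [eq_mul_inv_iff_mul_eq]
  ext i j
  simp only [Matrix.SpecialLinearGroup.coe_mul, ModularGroup.coe_T_zpow]
  fin_cases i <;> fin_cases j
  · simp [k, Matrix.mul_apply, Fin.sum_univ_two]
    linarith
  · simp [k, Matrix.mul_apply, Fin.sum_univ_two]
    linear_combination (-(-(g 0 0 * v) + g 0 1 * u)) * huv + (-v) * key
  · simp [k, Matrix.mul_apply, Fin.sum_univ_two]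
    linarith
  · simp [k, Matrix.mul_apply, Fin.sum_univ_two]
    linear_combination (-(-(g 1 0 * v) + g 1 1 * u)) * huv + u * key

/-- parabolic elements are conjugate to `± T^w` -/
theorem exists_conj_T {g : SL(2, ℤ)} (ht : (g : M2).trace ^ 2 = 4) :
    ∃ (k : SL(2, ℤ)) (w : ℤ), g = k * T ^ w * k⁻¹ ∨ g = -(k * T ^ w * k⁻¹) := by
  have h : (g : M2).trace = 2 ∨ (g : M2).trace = -2 := by
    have h1 : ((g : M2).trace - 2) * ((g : M2).trace + 2) = 0 := by linarith
    rcases mul_eq_zero.1 h1 with h2 | h2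
    · left; omega
    · right; omega
  rcases h with h | h
  · obtain ⟨k, w, hk⟩ := Q1_trace_two h
    exact ⟨k, w, Or.inl hk⟩
  · have h' : ((-g : SL(2, ℤ)) : M2).trace = 2 := by
      rw [Matrix.SpecialLinearGroup.coe_neg, Matrix.trace_neg, h]
      norm_num
    obtain ⟨k, w, hk⟩ := Q1_trace_two h'
    exact ⟨k, w, Or.inr (by rw [← hk, neg_neg])⟩

end Fermat.Agent.S41Lib
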