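import Fermat.Agent.S41.PD.TriFin
import Fermat.Agent.S41.PD.CcS
import Fermat.Agent.S41.PD.CcS2

/-!
# S41, Poincare duality block, (P2c): the triangle relation for `ccS`
-/

set_option autoImplicit false
open scoped MatrixGroups
open Matrix

namespace Fermat.Agent.S41Lib

theorem P2c_degenerate (𝒟 : Set M2) (P P' : QF) {u v : V2} (w : V2) (hu : u ≠ 0) (hv : v ≠ 0)
    (h : dt u v = 0) :
    ccS 𝒟 u v P P' + ccS 𝒟 v w P P' + ccS 𝒟 w u P P' = 0 := by
  obtain ⟨a, b, ha, hb, hab⟩ := exists_smul_eq_of_dt_eq_zero hu hv h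
  rw [ccS_of_dt_eq_zero 𝒟 h, zero_add, ← ccS_smul_left 𝒟 hb v w, ← hab, ccS_smul_left 𝒟 ha,
    ccS_swap 𝒟 w u, neg_add_cancel]

/-- the function whose `γ`-coboundary is the sum of the three `dsd` -/
def P2c_f (P : QF) (u v w : V2) (D : M2) : ℤ :=
  t3 P (D *ᵥ u) (D *ᵥ v) (D *ᵥ w) + or3 (D *ᵥ u) (D *ᵥ v) (D *ᵥ w)

theorem P2c_det_adj {γ : M2} (hγ : γ.det = 1) : γ.adjugate.det = 1 := by
  rw [Matrix.det_adjugate, hγ, one_pow]

theorem P2c_inj {γ : M2} (hγ : γ.det = 1) : Function.Injective fun D : M2 => γ.adjugate * D := by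
  intro D E h
  have h' : γ * (γ.adjugate * D) = γ * (γ.adjugate * E) := congrArg (fun X => γ * X) h
  rwa [← Matrix.mul_assoc, ← Matrix.mul_assoc, Matrix.mul_adjugate, hγ, one_smul, Matrix.one_mul,
    Matrix.one_mul] at h'

theorem P2c_cob (P : QF) {γ : M2} (hγ : γ.det = 1) (u v w : V2) (D : M2) :
    dsd P (P.act γ) (D *ᵥ u) (D *ᵥ v) + dsd P (P.act γ) (D *ᵥ v) (D *ᵥ w)
      + dsd P (P.act γ) (D *ᵥ w) (D *ᵥ u)
      = P2c_f P u v w (γ.adjugate * D) - P2c_f P u v w D := by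
  have hpos : 0 < γ.det := by rw [hγ]; exact one_pos
  have hor : or3 ((γ.adjugate * D) *ᵥ u) ((γ.adjugate * D) *ᵥ v) ((γ.adjugate * D) *ᵥ w)
      = or3 (D *ᵥ u) (D *ᵥ v) (D *ᵥ w) := by
    simp only [or3, ← Matrix.mulVec_mulVec]
    rw [dt_mulVec γ.adjugate, dt_mulVec γ.adjugate, dt_mulVec γ.adjugate, P2c_det_adj hγ]
    simp only [one_mul]
  rw [P2c_f, P2c_f, hor]
  simp only [dsd, t3, sd_act P hpos, ← Matrix.mulVec_mulVec]
  ring

/-- the triangle relation (all cases, including proportional vectors) -/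
theorem ccS_triangle {𝒟 : Set M2} {n : ℤ} (hn : 0 < n) (h𝒟 : HasDet 𝒟 n) {γ : M2} (hγ : γ.det = 1)
    (hinv : (fun D => γ.adjugate * D) '' 𝒟 = 𝒟) {P : QF} (hP : P.Pos) {u v w : V2}
    (hu : u ≠ 0) (hv : v ≠ 0) (hw : w ≠ 0) :
    ccS 𝒟 u v P (P.act γ) + ccS 𝒟 v w P (P.act γ) + ccS 𝒟 w u P (P.act γ) = 0 := by
  by_cases h1 : dt u v = 0
  · exact P2c_degenerate 𝒟 P _ w hu hv h1
  by_cases h2 : dt v w = 0
  · have := P2c_degenerate 𝒟 P (P.act γ) u hv hw h2
    linarith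
  by_cases h3 : dt w u = 0
  · have := P2c_degenerate 𝒟 P (P.act γ) v hw hu h3
    linarith
  have hP' : (P.act γ).Pos := pos_act hP (by rw [hγ]; exact one_ne_zero)
  have fin : ∀ x y : V2, (𝒟 ∩ Function.support
      fun D : M2 => dsd P (P.act γ) (D *ᵥ x) (D *ᵥ y)).Finite := by
    intro x y
    refine (finite_dsd hP hP' x y n).subset ?_
    rintro D ⟨hD, hs⟩
    exact ⟨h𝒟 D hD, hs⟩
  have finf : (𝒟 ∩ Function.support (P2c_f P u v w)).Finite := by
    refine (finite_t3 hP h1 h2 h3 n).subset ?_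
    rintro D ⟨hD, hs⟩
    exact ⟨h𝒟 D hD, hs⟩
  have finf' : (𝒟 ∩ Function.support fun D : M2 => P2c_f P u v w (γ.adjugate * D)).Finite := by
    refine (finf.preimage ((P2c_inj hγ).injOn)).subset ?_
    rintro D ⟨hD, hs⟩
    refine ⟨?_, hs⟩
    rw [← hinv]
    exact ⟨D, hD, rfl⟩
  have hsum : ccS 𝒟 u v P (P.act γ) + ccS 𝒟 v w P (P.act γ) + ccS 𝒟 w u P (P.act γ)
      = ∑ᶠ D ∈ 𝒟, (P2c_f P u v w (γ.adjugate * D) - P2c_f P u v w D) := by
    simp only [ccS]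
    rw [← finsum_mem_add_distrib' (fin u v) (fin v w), ← finsum_mem_add_distrib' _ (fin w u)]
    · exact finsum_mem_congr rfl fun D _ => P2c_cob P hγ u v w D
    · refine ((fin u v).union (fin v w)).subset ?_
      rintro D ⟨hD, hs⟩
      by_contra hcon
      apply hs
      have a1 : dsd P (P.act γ) (D *ᵥ u) (D *ᵥ v) = 0 := by
        by_contra h0
        exact hcon (Or.inl ⟨hD, h0⟩)
      have a2 : dsd P (P.act γ) (D *ᵥ v) (D *ᵥ w) = 0 := by
        by_contra h0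
        exact hcon (Or.inr ⟨hD, h0⟩)
      show dsd P (P.act γ) (D *ᵥ u) (D *ᵥ v) + dsd P (P.act γ) (D *ᵥ v) (D *ᵥ w) = 0
      rw [a1, a2, add_zero]
  have fing : (𝒟 ∩ Function.support
      fun D : M2 => P2c_f P u v w (γ.adjugate * D) - P2c_f P u v w D).Finite := by
    refine (finf'.union finf).subset ?_
    rintro D ⟨hD, hs⟩
    by_contra hcon
    apply hs
    have a1 : P2c_f P u v w (γ.adjugate * D) = 0 := by
      by_contra h0
      exact hcon (Or.inl ⟨hD, h0⟩)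
    have a2 : P2c_f P u v w D = 0 := by
      by_contra h0
      exact hcon (Or.inr ⟨hD, h0⟩)
    show P2c_f P u v w (γ.adjugate * D) - P2c_f P u v w D = 0
    rw [a1, a2, sub_zero]
  have hadd := finsum_mem_add_distrib' fing finf
  simp only [sub_add_cancel] at hadd
  rw [← finsum_mem_image (f := P2c_f P u v w) (g := fun D : M2 => γ.adjugate * D)
      ((P2c_inj hγ).injOn), hinv] at hadd
  rw [hsum]
  linarith

end Fermat.Agent.S41Lib
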