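import Fermat.Agent.S41.PD.Defs2
import Fermat.Agent.S41.PD.CcS
import Fermat.Agent.S41.PD.CcS2
import Fermat.Agent.S41.PD.TriSum

/-!
# S41, Poincare duality block, (S1): the symbol of a loop
-/

set_option autoImplicit false
open scoped MatrixGroups
open Matrix ModularGroup CongruenceSubgroup

namespace Fermat.Agent.S41Lib

theorem mset_adj_mul {Γ : Subgroup SL(2, ℤ)} {g : SL(2, ℤ)} (hg : g ∈ Γ) :
    (fun D => (g : M2).adjugate * D) '' mset Γ = mset Γ := by
  have hadj : (g : M2).adjugate = ((g⁻¹ : SL(2, ℤ)) : M2) :=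
    (Matrix.SpecialLinearGroup.coe_inv g).symm
  ext D
  constructor
  · rintro ⟨_, ⟨h, hh, rfl⟩, rfl⟩
    refine ⟨g⁻¹ * h, Γ.mul_mem (Γ.inv_mem hg) hh, ?_⟩
    simp only [hadj, Matrix.SpecialLinearGroup.coe_mul]
  · rintro ⟨h, hh, rfl⟩
    refine ⟨_, ⟨g * h, Γ.mul_mem hg hh, rfl⟩, ?_⟩
    simp only [hadj]
    rw [← Matrix.SpecialLinearGroup.coe_mul, inv_mul_cancel_left]

theorem mset_mul {Γ : Subgroup SL(2, ℤ)} {g : SL(2, ℤ)} (hg : g ∈ Γ) :
    (fun D => D * (g : M2)) '' mset Γ = mset Γ := by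
  ext D
  constructor
  · rintro ⟨_, ⟨h, hh, rfl⟩, rfl⟩
    refine ⟨h * g, Γ.mul_mem hh hg, ?_⟩
    simp only [Matrix.SpecialLinearGroup.coe_mul]
  · rintro ⟨h, hh, rfl⟩
    refine ⟨_, ⟨h * g⁻¹, Γ.mul_mem hh (Γ.inv_mem hg), rfl⟩, ?_⟩
    simp only
    rw [← Matrix.SpecialLinearGroup.coe_mul, inv_mul_cancel_right]

theorem S1_det_pos (g : SL(2, ℤ)) : 0 < (g : M2).det := by
  rw [g.det_coe]
  exact one_pos

/-- the loop `P → g P` may be based at any point -/
theorem ccS_loop_base {Γ : Subgroup SL(2, ℤ)} {g : SL(2, ℤ)} (hg : g ∈ Γ) (u v : V2) {P P' : QF}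
    (hP : P.Pos) (hP' : P'.Pos) :
    ccS (mset Γ) u v P (P.act (g : M2)) = ccS (mset Γ) u v P' (P'.act (g : M2)) := by
  have hgP : (P.act (g : M2)).Pos := pos_act hP (S1_det_pos g).ne'
  have hgP' : (P'.act (g : M2)).Pos := pos_act hP' (S1_det_pos g).ne'
  rw [ccS_add (hasDet_mset Γ) u v hP hP' hgP, ccS_add (hasDet_mset Γ) u v hP' hgP' hgP,
    ccS_act (mset Γ) u v P' P (S1_det_pos g), mset_adj_mul hg, ccS_rev (mset Γ) u v P P']
  ring

theorem isSym_sym {Γ : Subgroup SL(2, ℤ)} {g : SL(2, ℤ)} (hg : g ∈ Γ) : IsSym Γ (sym Γ g) where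
  add u v w hu hv hw := by
    have h := ccS_triangle one_pos (hasDet_mset Γ) g.det_coe (mset_adj_mul hg) P0_pos hu hv hw
    rw [ccS_swap (mset Γ) u w] at h
    unfold sym
    linarith
  inv h hh u v := by
    unfold sym
    rw [ccS_mulVec (mset Γ) u v _ _ (S1_det_pos h).ne', mset_mul hh]
  smul_left n hn u v := ccS_smul_left _ hn u v _ _
  smul_right n hn u v := ccS_smul_right _ hn u v _ _

theorem sym_mul {Γ : Subgroup SL(2, ℤ)} {g g' : SL(2, ℤ)} (hg : g ∈ Γ) (hg' : g' ∈ Γ) (u v : V2) :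
    sym Γ (g * g') u v = sym Γ g u v + sym Γ g' u v := by
  unfold sym
  have h1 : (P0.act (g : M2)).Pos := pos_act P0_pos (S1_det_pos g).ne'
  have h2 : (P0.act ((g * g' : SL(2, ℤ)) : M2)).Pos := pos_act P0_pos (S1_det_pos _).ne'
  rw [ccS_add (hasDet_mset Γ) u v P0_pos h1 h2, Matrix.SpecialLinearGroup.coe_mul, act_mul,
    ccS_act (mset Γ) u v _ _ (S1_det_pos g), mset_adj_mul hg]

theorem sym_one (Γ : Subgroup SL(2, ℤ)) (u v : V2) : sym Γ 1 u v = 0 := by
  unfold sym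
  rw [Matrix.SpecialLinearGroup.coe_one, act_one, ccS_self]

theorem sym_neg (Γ : Subgroup SL(2, ℤ)) (g : SL(2, ℤ)) (u v : V2) : sym Γ (-g) u v = sym Γ g u v := by
  unfold sym
  rw [Matrix.SpecialLinearGroup.coe_neg, act_neg]

theorem IsSym.add' {Γ : Subgroup SL(2, ℤ)} {φ ψ : V2 → V2 → ℤ} (h : IsSym Γ φ) (h' : IsSym Γ ψ) :
    IsSym Γ (fun u v => φ u v + ψ u v) where
  add u v w hu hv hw := by
    have h1 := h.add u v w hu hv hw
    have h2 := h'.add u v w hu hv hw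
    linarith
  inv k hk u v := by
    rw [h.inv k hk, h'.inv k hk]
  smul_left n hn u v := by
    rw [h.smul_left n hn, h'.smul_left n hn]
  smul_right n hn u v := by
    rw [h.smul_right n hn, h'.smul_right n hn]

theorem IsSym.zsmul {Γ : Subgroup SL(2, ℤ)} {φ : V2 → V2 → ℤ} (h : IsSym Γ φ) (c : ℤ) :
    IsSym Γ (fun u v => c * φ u v) where
  add u v w hu hv hw := by
    rw [← h.add u v w hu hv hw, mul_add]
  inv k hk u v := by
    rw [h.inv k hk]
  smul_left n hn u v := by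
    rw [h.smul_left n hn]
  smul_right n hn u v := by
    rw [h.smul_right n hn]

theorem IsSym.sum {Γ : Subgroup SL(2, ℤ)} {I : Type} (s : Finset I) {φ : I → V2 → V2 → ℤ}
    (h : ∀ i ∈ s, IsSym Γ (φ i)) : IsSym Γ (fun u v => ∑ i ∈ s, φ i u v) where
  add u v w hu hv hw := by
    rw [← Finset.sum_add_distrib]
    exact Finset.sum_congr rfl fun i hi => (h i hi).add u v w hu hv hw
  inv k hk u v := Finset.sum_congr rfl fun i hi => (h i hi).inv k hk u v
  smul_left n hn u v := Finset.sum_congr rfl fun i hi => (h i hi).smul_left n hn u v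
  smul_right n hn u v := Finset.sum_congr rfl fun i hi => (h i hi).smul_right n hn u v

end Fermat.Agent.S41Lib
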