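import Fermat.Agent.S41.PD.Defs2
import Fermat.Agent.S41.PD.CcS
import Fermat.Agent.S41.PD.Sym
import Fermat.Agent.S41.PD.JJ
import Fermat.Agent.S41.PD.Adj
import Fermat.Agent.S41.PD.Edge
import Fermat.Agent.S41.PD.ManinTrick
import Fermat.Agent.S41.PD.ParConj

/-!
# S41, Poincare duality block, (P4g, Q2): loops around cusps and elliptic points are trivial
-/

set_option autoImplicit false
open scoped MatrixGroups
open Matrix ModularGroup CongruenceSubgroup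

namespace Fermat.Agent.S41Lib

open Fermat.Agent.ESLib

theorem Q2_mem_mset {Γ : Subgroup SL(2, ℤ)} (k : SL(2, ℤ)) : (k : M2) ∈ mset Γ ↔ k ∈ Γ := by
  constructor
  · rintro ⟨h, hh, he⟩
    have : h = k := Subtype.ext he
    exact this ▸ hh
  · intro h
    exact ⟨k, h, rfl⟩

theorem Q2_ind_congr {𝒟 𝒟' : Set M2} {D D' : M2} (h : D ∈ 𝒟 ↔ D' ∈ 𝒟') : ind 𝒟 D = ind 𝒟' D' := by
  classical
  unfold ind
  by_cases h1 : D ∈ 𝒟
  · rw [if_pos h1, if_pos (h.1 h1)]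
  · rw [if_neg h1, if_neg (fun h2 => h1 (h.2 h2))]

theorem Q2_ind_mset (Γ : Subgroup SL(2, ℤ)) {k k' : SL(2, ℤ)} (h : k ∈ Γ ↔ k' ∈ Γ) :
    ind (mset Γ) (k : M2) = ind (mset Γ) (k' : M2) := by
  exact Q2_ind_congr (by rw [Q2_mem_mset, Q2_mem_mset, h])

theorem Q2_ind_neg {Γ : Subgroup SL(2, ℤ)} (hneg : (-1 : SL(2, ℤ)) ∈ Γ) (k : SL(2, ℤ)) :
    ind (mset Γ) ((-k : SL(2, ℤ)) : M2) = ind (mset Γ) (k : M2) := by
  apply Q2_ind_mset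
  have : (-k : SL(2, ℤ)) = (-1) * k := by simp
  rw [this]
  exact Subgroup.mul_mem_cancel_left Γ hneg

theorem Q2_ind_image (Γ : Subgroup SL(2, ℤ)) (k K : SL(2, ℤ)) :
    ind ((fun D => D * (k : M2)) '' mset Γ) (K : M2) = ind (mset Γ) ((K * k⁻¹ : SL(2, ℤ)) : M2) := by
  have : (K : M2) ∈ (fun D => D * (k : M2)) '' mset Γ ↔ ((K * k⁻¹ : SL(2, ℤ)) : M2) ∈ mset Γ := by
    rw [Q2_mem_mset]
    constructor
    · rintro ⟨D, ⟨h, hh, rfl⟩, he⟩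
      have : h * k = K := Subtype.ext (by simpa using he)
      rw [← this, mul_inv_cancel_right]
      exact hh
    · intro h
      exact ⟨_, ⟨_, h, rfl⟩, by
        show ((K * k⁻¹ : SL(2, ℤ)) : M2) * (k : M2) = K
        rw [← Matrix.SpecialLinearGroup.coe_mul, inv_mul_cancel_right]⟩
  exact Q2_ind_congr this

theorem Q2_hasDet_image (Γ : Subgroup SL(2, ℤ)) (k : SL(2, ℤ)) :
    HasDet ((fun D => D * (k : M2)) '' mset Γ) 1 := by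
  rintro _ ⟨D, ⟨h, _, rfl⟩, rfl⟩
  show ((h : M2) * (k : M2)).det = 1
  rw [Matrix.det_mul, h.det_coe, k.det_coe, mul_one]

theorem Q2_pos (k : SL(2, ℤ)) : (P0.act (k : M2)).Pos :=
  pos_act P0_pos (by rw [k.det_coe]; exact one_ne_zero)

/-- one edge -/
theorem Q2_edge {Γ : Subgroup SL(2, ℤ)} (hneg : (-1 : SL(2, ℤ)) ∈ Γ) (K k : SL(2, ℤ)) :
    ccS (mset Γ) ((k : M2) *ᵥ e2) ((k : M2) *ᵥ e1) (P0.act (K : M2))
        (P0.act ((K * T : SL(2, ℤ)) : M2)) =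
      4 * ind (mset Γ) ((K * k⁻¹ : SL(2, ℤ)) : M2)
        - 4 * ind (mset Γ) ((K * (k * S)⁻¹ : SL(2, ℤ)) : M2) := by
  rw [act_mul_T, ccS_mulVec _ _ _ _ _ (by rw [k.det_coe]; exact one_ne_zero),
    ccS_edge (Q2_hasDet_image Γ k) K]
  rw [← Matrix.SpecialLinearGroup.coe_neg, ← Matrix.SpecialLinearGroup.coe_neg,
    Q2_ind_image, Q2_ind_image, Q2_ind_image, Q2_ind_image]
  have h1 : (-K * k⁻¹ : SL(2, ℤ)) = -(K * k⁻¹) := by simp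
  have h2 : (-(K * S) * k⁻¹ : SL(2, ℤ)) = -(K * S * k⁻¹) := by simp
  have hS : (S⁻¹ : SL(2, ℤ)) = -S := by
    rw [inv_eq_iff_mul_eq_one]
    ext i j
    rw [Matrix.SpecialLinearGroup.coe_mul, Matrix.SpecialLinearGroup.coe_neg, ModularGroup.coe_S]
    fin_cases i <;> fin_cases j <;> simp [Matrix.mul_apply, Fin.sum_univ_two]
  have h3 : (K * (k * S)⁻¹ : SL(2, ℤ)) = -(K * S * k⁻¹) := by
    rw [_root_.mul_inv_rev, hS]
    simp [mul_assoc]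
  rw [h1, h2, h3, Q2_ind_neg hneg, Q2_ind_neg hneg]
  ring

theorem Q2_telescope {Γ : Subgroup SL(2, ℤ)} (u v : V2) (k₀ : SL(2, ℤ)) (w : ℕ) :
    ccS (mset Γ) u v (P0.act (k₀ : M2)) (P0.act ((k₀ * T ^ w : SL(2, ℤ)) : M2)) =
      ∑ j ∈ Finset.range w, ccS (mset Γ) u v (P0.act ((k₀ * T ^ j : SL(2, ℤ)) : M2))
        (P0.act ((k₀ * T ^ j * T : SL(2, ℤ)) : M2)) := by
  induction w with
  | zero => simp [ccS_self]
  | succ n ih =>
    rw [Finset.sum_range_succ, ← ih, pow_succ, ← mul_assoc]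
    exact ccS_add (hasDet_mset Γ) u v (Q2_pos _) (Q2_pos _) (Q2_pos _)

theorem sym_par_edge {Γ : Subgroup SL(2, ℤ)} (hneg : (-1 : SL(2, ℤ)) ∈ Γ) (k₀ : SL(2, ℤ)) (w : ℕ)
    (hg : k₀ * T ^ w * k₀⁻¹ ∈ Γ) (k : SL(2, ℤ)) :
    sym Γ (k₀ * T ^ w * k₀⁻¹) ((k : M2) *ᵥ e2) ((k : M2) *ᵥ e1) =
      (∑ j ∈ Finset.range w, 4 * ind (mset Γ) ((k₀ * T ^ j * k⁻¹ : SL(2, ℤ)) : M2)) -
      (∑ j ∈ Finset.range w, 4 * ind (mset Γ) ((k₀ * T ^ j * (k * S)⁻¹ : SL(2, ℤ)) : M2)) := by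
  unfold sym
  rw [ccS_loop_base hg _ _ P0_pos (Q2_pos k₀), ← act_mul, ← Matrix.SpecialLinearGroup.coe_mul,
    inv_mul_cancel_right, Q2_telescope, ← Finset.sum_sub_distrib]
  exact Finset.sum_congr rfl fun j _ => Q2_edge hneg _ k

/-- the primitive of `sym_par_edge` -/
noncomputable def Q2_G (Γ : Subgroup SL(2, ℤ)) (k₀ : SL(2, ℤ)) (w : ℕ) (k : SL(2, ℤ)) : ℤ :=
  ∑ j ∈ Finset.range w, 4 * ind (mset Γ) ((k₀ * T ^ j * k⁻¹ : SL(2, ℤ)) : M2)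

theorem Q2_G_T {Γ : Subgroup SL(2, ℤ)} (k₀ : SL(2, ℤ)) (w : ℕ) (hg : k₀ * T ^ w * k₀⁻¹ ∈ Γ)
    (k : SL(2, ℤ)) : Q2_G Γ k₀ w (k * T) = Q2_G Γ k₀ w k := by
  unfold Q2_G
  set f : ℕ → ℤ := fun j => 4 * ind (mset Γ) ((k₀ * T ^ j * (k * T)⁻¹ : SL(2, ℤ)) : M2) with hf
  have h1 : ∀ j, f (j + 1) = 4 * ind (mset Γ) ((k₀ * T ^ j * k⁻¹ : SL(2, ℤ)) : M2) := by
    intro j
    have e : k₀ * T ^ (j + 1) * (k * T)⁻¹ = k₀ * T ^ j * k⁻¹ := by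
      rw [_root_.mul_inv_rev, pow_succ]
      simp [mul_assoc]
    simp only [hf]
    rw [e]
  have h2 : f w = f 0 := by
    simp only [hf]
    congr 1
    apply Q2_ind_mset
    have : k₀ * T ^ w * (k * T)⁻¹ = (k₀ * T ^ w * k₀⁻¹) * (k₀ * T ^ 0 * (k * T)⁻¹) := by group
    rw [this]
    exact Subgroup.mul_mem_cancel_left Γ hg
  have h3 := Finset.sum_range_succ f w
  rw [Finset.sum_range_succ' f w, h2] at h3
  have h4 := add_right_cancel h3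
  rw [← h4]
  exact Finset.sum_congr rfl fun j _ => h1 j

theorem Q2_G_neg {Γ : Subgroup SL(2, ℤ)} (hneg : (-1 : SL(2, ℤ)) ∈ Γ) (k₀ : SL(2, ℤ)) (w : ℕ)
    (k : SL(2, ℤ)) : Q2_G Γ k₀ w (-k) = Q2_G Γ k₀ w k := by
  unfold Q2_G
  refine Finset.sum_congr rfl fun j _ => ?_
  have : (k₀ * T ^ j * (-k)⁻¹ : SL(2, ℤ)) = -(k₀ * T ^ j * k⁻¹) := by
    have h1 : ((-k)⁻¹ : SL(2, ℤ)) = -k⁻¹ := by
      rw [inv_eq_iff_mul_eq_one]
      simp
    rw [h1]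
    simp
  rw [this, Q2_ind_neg hneg]

theorem Q2_G_mem {Γ : Subgroup SL(2, ℤ)} (k₀ : SL(2, ℤ)) (w : ℕ) {g' : SL(2, ℤ)} (h' : g' ∈ Γ) :
    Q2_G Γ k₀ w g' = Q2_G Γ k₀ w 1 := by
  unfold Q2_G
  refine Finset.sum_congr rfl fun j _ => ?_
  congr 1
  apply Q2_ind_mset
  rw [inv_one, mul_one]
  exact Subgroup.mul_mem_cancel_right Γ (Γ.inv_mem h')

theorem Q2_par_nat {Γ : Subgroup SL(2, ℤ)} (hneg : (-1 : SL(2, ℤ)) ∈ Γ) (k₀ : SL(2, ℤ)) (w : ℕ)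
    (hg : k₀ * T ^ w * k₀⁻¹ ∈ Γ) {g' : SL(2, ℤ)} (h' : g' ∈ Γ) :
    sym Γ (k₀ * T ^ w * k₀⁻¹) e1 ((g' : M2) *ᵥ e1) = 0 := by
  rw [(isSym_sym hg).pi_eq_of_edge (Q2_G Γ k₀ w) (Q2_G_T k₀ w hg) (Q2_G_neg hneg k₀ w)
    (fun k => sym_par_edge hneg k₀ w hg k) g', Q2_G_mem k₀ w h', sub_self]

theorem Q2_sym_inv {Γ : Subgroup SL(2, ℤ)} {g : SL(2, ℤ)} (hg : g ∈ Γ) (u v : V2) :
    sym Γ g⁻¹ u v = -sym Γ g u v := by
  have h := sym_mul hg (Γ.inv_mem hg) u v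
  rw [mul_inv_cancel, sym_one] at h
  omega

theorem Q2_par_int {Γ : Subgroup SL(2, ℤ)} (hneg : (-1 : SL(2, ℤ)) ∈ Γ) (k₀ : SL(2, ℤ)) (w : ℤ)
    (hg : k₀ * T ^ w * k₀⁻¹ ∈ Γ) {g' : SL(2, ℤ)} (h' : g' ∈ Γ) :
    sym Γ (k₀ * T ^ w * k₀⁻¹) e1 ((g' : M2) *ᵥ e1) = 0 := by
  obtain ⟨n, rfl | rfl⟩ := Int.eq_nat_or_neg w
  · rw [zpow_natCast] at hg ⊢
    exact Q2_par_nat hneg k₀ n hg h'
  · have e : k₀ * T ^ (-(n : ℤ)) * k₀⁻¹ = (k₀ * T ^ n * k₀⁻¹)⁻¹ := by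
      rw [_root_.zpow_neg, zpow_natCast]
      group
    rw [e] at hg ⊢
    have hg' : k₀ * T ^ n * k₀⁻¹ ∈ Γ := by
      have := Γ.inv_mem hg
      rwa [inv_inv] at this
    rw [Q2_sym_inv hg', Q2_par_nat hneg k₀ n hg' h', neg_zero]

/-- Cayley-Hamilton -/
theorem Q2_CH (g : SL(2, ℤ)) : (g : M2) * (g : M2) = (g : M2).trace • (g : M2) - 1 := by
  have hdet : g 0 0 * g 1 1 - g 0 1 * g 1 0 = 1 := by
    have := g.det_coe
    rwa [Matrix.det_fin_two] at this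
  ext i j
  fin_cases i <;> fin_cases j
  all_goals
    simp only [Fin.zero_eta, Fin.mk_one, Fin.isValue, Matrix.mul_apply, Fin.sum_univ_two,
      Matrix.trace_fin_two, Matrix.sub_apply, Matrix.smul_apply, smul_eq_mul, Matrix.one_apply_eq,
      ne_eq, zero_ne_one, one_ne_zero, not_false_eq_true, Matrix.one_apply_ne]
    first
      | linear_combination (-1) * hdet
      | ring1

theorem Q2_ell {Γ : Subgroup SL(2, ℤ)} {g : SL(2, ℤ)} (h : g ∈ Γ)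
    (ht : (g : M2).trace ^ 2 < 4) (u v : V2) : sym Γ g u v = 0 := by
  have hCH := Q2_CH g
  have hcases : (g : M2).trace = 0 ∨ (g : M2).trace = 1 ∨ (g : M2).trace = -1 := by
    have h1 : (g : M2).trace < 2 := by nlinarith
    have h2 : -2 < (g : M2).trace := by nlinarith
    omega
  rcases hcases with h0 | h0 | h0
  · have e : g * g = -1 := by
      apply Subtype.ext
      rw [Matrix.SpecialLinearGroup.coe_mul, hCH, h0]
      simp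
    have h1 := sym_mul h h u v
    rw [e, sym_neg, sym_one] at h1
    omega
  · have e : g * g * g = -1 := by
      apply Subtype.ext
      rw [Matrix.SpecialLinearGroup.coe_mul, Matrix.SpecialLinearGroup.coe_mul, hCH, h0, one_smul,
        sub_mul, hCH, h0]
      simp
    have h1 := sym_mul (Γ.mul_mem h h) h u v
    rw [e, sym_neg, sym_one, sym_mul h h] at h1
    omega
  · have e : g * g * g = 1 := by
      apply Subtype.ext
      rw [Matrix.SpecialLinearGroup.coe_mul, Matrix.SpecialLinearGroup.coe_mul, hCH, h0,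
        sub_mul, smul_mul_assoc, hCH, h0]
      simp
    have h1 := sym_mul (Γ.mul_mem h h) h u v
    rw [e, sym_one, sym_mul h h] at h1
    omega

theorem JJ_par_left {Γ : Subgroup SL(2, ℤ)} (hneg : (-1 : SL(2, ℤ)) ∈ Γ) {g g' : SL(2, ℤ)} (h : g ∈ Γ)
    (h' : g' ∈ Γ) (ht : (g : M2).trace ^ 2 ≤ 4) : JJ Γ g g' = 0 := by
  unfold JJ
  rcases lt_or_eq_of_le ht with ht | ht
  · exact Q2_ell h ht _ _
  · obtain ⟨k, w, hk | hk⟩ := exists_conj_T ht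
    · rw [hk] at h ⊢
      exact Q2_par_int hneg k w h h'
    · have h2 : k * T ^ w * k⁻¹ ∈ Γ := by
        have h3 : k * T ^ w * k⁻¹ = (-1) * g := by rw [hk]; simp
        rw [h3]
        exact Γ.mul_mem hneg h
      rw [hk, sym_neg]
      exact Q2_par_int hneg k w h2 h'

theorem JE_ellpar (M : ℕ) (g : Gamma0 M) (ht : ((g : SL(2, ℤ)) : M2).trace ^ 2 ≤ 4) :
    JE M (Additive.ofMul g) = 0 := by
  apply Subtype.ext
  apply AddMonoidHom.ext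
  intro x
  have hneg : (-1 : SL(2, ℤ)) ∈ Gamma0 M := by
    rw [CongruenceSubgroup.Gamma0_mem]
    simp
  have h1 := JE_apply M g (Additive.toMul x)
  rw [JJ_par_left hneg g.2 (Additive.toMul x).2 ht] at h1
  exact h1

end Fermat.Agent.S41Lib
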