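import Fermat.Agent.S41.PD.Defs2
import Fermat.Agent.S41.PD.Basic

/-!
# S41, Poincare duality block, (T1): conjugation invariance of `ccS`
-/

set_option autoImplicit false
open scoped MatrixGroups
open Matrix ModularGroup CongruenceSubgroup

namespace Fermat.Agent.S41Lib

theorem T1_ccS_mset (Γ : Subgroup SL(2, ℤ)) (u v : V2) (P P' : QF) :
    ccS (mset Γ) u v P P' =
      ∑ᶠ h : Γ, dsd P P' (((h : SL(2, ℤ)) : M2) *ᵥ u) (((h : SL(2, ℤ)) : M2) *ᵥ v) := by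
  unfold ccS mset
  have hinj : Set.InjOn (fun h : SL(2, ℤ) => (h : M2)) (Γ : Set SL(2, ℤ)) :=
    fun a _ b _ hab => Subtype.ext hab
  rw [finsum_mem_image hinj]
  exact (finsum_set_coe_eq_finsum_mem (Γ : Set SL(2, ℤ))).symm

theorem ccS_conj {Γ' Γ'' : Subgroup SL(2, ℤ)} {D : M2} (hD : 0 < D.det) (ι : Γ' ≃* Γ'')
    (hι : ∀ h : Γ', D * ((h : SL(2, ℤ)) : M2) = ((ι h : SL(2, ℤ)) : M2) * D) (u v : V2) (P P' : QF) :
    ccS (mset Γ') u v P P' = ccS (mset Γ'') (D *ᵥ u) (D *ᵥ v) (P.act D) (P'.act D) := by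
  rw [T1_ccS_mset, T1_ccS_mset, ← finsum_comp_equiv ι.toEquiv]
  refine finsum_congr fun h => ?_
  simp only [MulEquiv.toEquiv_eq_coe, EquivLike.coe_coe]
  rw [Matrix.mulVec_mulVec, Matrix.mulVec_mulVec, ← hι h, ← Matrix.mulVec_mulVec,
    ← Matrix.mulVec_mulVec]
  unfold dsd
  rw [sd_act_mulVec P' hD, sd_act_mulVec P hD]

end Fermat.Agent.S41Lib
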