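import Fermat.Agent.S41.PD.Sym
import Fermat.Agent.S41.PD.Pi

/-!
# S41, Poincare duality block, (S3): transfer for symbols and for loops
-/

set_option autoImplicit false
open scoped MatrixGroups
open Matrix ModularGroup CongruenceSubgroup

namespace Fermat.Agent.S41Lib

theorem S3_mulVec_ne_zero {D : M2} (hD : D.det ≠ 0) {u : V2} (hu : u ≠ 0) : D *ᵥ u ≠ 0 := by
  intro h
  have h1 : D.adjugate *ᵥ (D *ᵥ u) = D.det • u := by
    rw [Matrix.mulVec_mulVec, Matrix.adjugate_mul, Matrix.smul_mulVec, Matrix.one_mulVec]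
  rw [h, Matrix.mulVec_zero] at h1
  rcases smul_eq_zero.mp h1.symm with h2 | h2
  · exact hD h2
  · exact hu h2

theorem S3_e1_ne_zero : e1 ≠ 0 := by
  intro h
  have h1 := congrFun h 0
  simp [e1] at h1

/-- transfer for symbols (`t i` integral matrices of nonzero determinant) -/
theorem IsSym.sum_transfer {Γ : Subgroup SL(2, ℤ)} {φ : V2 → V2 → ℤ} (h : IsSym Γ φ) {I : Type}
    [Fintype I] (t : I → M2) (ht : ∀ i, (t i).det ≠ 0) (γ : M2) (hγ : γ.det ≠ 0) (s : Equiv.Perm I)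
    (η : I → SL(2, ℤ)) (hη : ∀ i, η i ∈ Γ) (hrel : ∀ i, t i * γ = (η i : M2) * t (s i)) :
    ∑ i, φ e1 ((η i : M2) *ᵥ e1) = ∑ i, φ (t i *ᵥ e1) (t i *ᵥ (γ *ᵥ e1)) := by
  have hne : ∀ i, t i *ᵥ e1 ≠ 0 := fun i => S3_mulVec_ne_zero (ht i) S3_e1_ne_zero
  have hne' : ∀ i, t i *ᵥ (γ *ᵥ e1) ≠ 0 := fun i =>
    S3_mulVec_ne_zero (ht i) (S3_mulVec_ne_zero hγ S3_e1_ne_zero)
  have key : ∀ i, φ e1 ((η i : M2) *ᵥ e1) =
      φ (t i *ᵥ e1) (t i *ᵥ (γ *ᵥ e1)) + (φ e1 (t i *ᵥ e1) - φ e1 (t (s i) *ᵥ e1)) := by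
    intro i
    rw [h.base (hη i) S3_e1_ne_zero (hne (s i)), Matrix.mulVec_mulVec, ← hrel i,
      ← Matrix.mulVec_mulVec]
    have h1 := h.add (t (s i) *ᵥ e1) (t i *ᵥ e1) (t i *ᵥ (γ *ᵥ e1)) (hne _) (hne _) (hne' _)
    have h2 := h.add e1 (t (s i) *ᵥ e1) (t i *ᵥ e1) S3_e1_ne_zero (hne _) (hne _)
    linarith
  rw [Finset.sum_congr rfl fun i _ => key i, Finset.sum_add_distrib, Finset.sum_sub_distrib,
    Equiv.sum_comp s fun i => φ e1 (t i *ᵥ e1), sub_self, add_zero]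

/-- transfer for loops -/
theorem ccS_sum_transfer {Γ : Subgroup SL(2, ℤ)} (u v : V2) {I : Type} [Fintype I] (t : I → M2)
    (ht : ∀ i, 0 < (t i).det) (γ : SL(2, ℤ)) (s : Equiv.Perm I) (η : I → SL(2, ℤ))
    (hη : ∀ i, η i ∈ Γ) (hrel : ∀ i, t i * (γ : M2) = (η i : M2) * t (s i)) {P : QF} (hP : P.Pos) :
    ∑ i, ccS (mset Γ) u v P (P.act (η i : M2)) =
      ∑ i, ccS (mset Γ) u v (P.act (t i)) ((P.act (γ : M2)).act (t i)) := by
  have hpos : ∀ i, (P.act (t i)).Pos := fun i => pos_act hP (ht i).ne'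
  have hpos' : ∀ i, ((P.act (γ : M2)).act (t i)).Pos := fun i =>
    pos_act (pos_act hP (S1_det_pos γ).ne') (ht i).ne'
  have key : ∀ i, ccS (mset Γ) u v P (P.act (η i : M2)) =
      ccS (mset Γ) u v (P.act (t i)) ((P.act (γ : M2)).act (t i)) +
        (ccS (mset Γ) u v P (P.act (t i)) - ccS (mset Γ) u v P (P.act (t (s i)))) := by
    intro i
    rw [ccS_loop_base (hη i) u v hP (hpos (s i)), ← act_mul, ← hrel i, act_mul]
    have h1 := ccS_add (hasDet_mset Γ) u v (hpos (s i)) (hpos i) (hpos' i)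
    have h2 := ccS_add (hasDet_mset Γ) u v hP (hpos (s i)) (hpos i)
    linarith
  rw [Finset.sum_congr rfl fun i _ => key i, Finset.sum_add_distrib, Finset.sum_sub_distrib,
    Equiv.sum_comp s fun i => ccS (mset Γ) u v P (P.act (t i)), sub_self, add_zero]

end Fermat.Agent.S41Lib
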