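import Fermat.Agent.S41.PD.Defs2
import Fermat.Agent.S41.PD.Sym
import Fermat.Agent.S41.PD.Conj
import Fermat.Agent.S41.PD.Pi
import Fermat.Agent.S41.PD.PiTransfer

/-!
# S41 PD (T2): compatibility of `JJ` with the transfer
-/

set_option autoImplicit false
open scoped MatrixGroups
open Matrix ModularGroup CongruenceSubgroup

namespace Fermat.Agent.S41Lib

open Fermat.Agent.ESLib

theorem T2_mulVec_ne_zero {D : M2} (hD : D.det ≠ 0) {u : V2} (hu : u ≠ 0) : D *ᵥ u ≠ 0 := by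
  intro h
  apply hu
  have h2 := congrArg (fun w => D.adjugate *ᵥ w) h
  simp only [Matrix.mulVec_mulVec, Matrix.adjugate_mul, Matrix.mulVec_zero, Matrix.smul_mulVec,
    Matrix.one_mulVec] at h2
  exact (smul_eq_zero.1 h2).resolve_left hD

theorem T2_e1_ne_zero : e1 ≠ 0 := by
  intro h
  have := congrFun h 0
  simp [e1] at this

theorem T2_mul_left_cancel {D A B : M2} (hD : D.det ≠ 0) (h : D * A = D * B) : A = B := by
  have h2 := congrArg (fun w => D.adjugate * w) h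
  simp only [← Matrix.mul_assoc, Matrix.adjugate_mul, Matrix.smul_mul, Matrix.one_mul] at h2
  exact smul_right_injective _ hD h2

theorem JJ_transfer {Γ' Γ : Subgroup SL(2, ℤ)} {D : M2} (hD : 0 < D.det) (ι : Γ' →* Γ)
    (hι : ∀ h : Γ', D * ((h : SL(2, ℤ)) : M2) = ((ι h : SL(2, ℤ)) : M2) * D)
    {I : Type} [Fintype I] (t : I → Γ) (ht : Function.Bijective fun x : Γ' × I => ι x.1 * t x.2)
    (g : Γ) (s : Equiv.Perm I) (η : I → Γ') (h : ∀ i, t i * g = ι (η i) * t (s i)) (g0 : Γ') :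
    ∑ i, JJ Γ' (g0 : SL(2, ℤ)) (η i : SL(2, ℤ)) = JJ Γ (ι g0 : SL(2, ℤ)) (g : SL(2, ℤ)) := by
  set f : Γ' →* SL(2, ℤ) := Γ.subtype.comp ι with hf
  have hfa : ∀ x : Γ', f x = (ι x : SL(2, ℤ)) := fun x => rfl
  have hinj : Function.Injective f := by
    intro a b hab
    apply Subtype.ext
    apply Subtype.ext
    apply T2_mul_left_cancel hD.ne'
    rw [hι a, hι b, ← hfa a, ← hfa b, hab]
  set Γ'' : Subgroup SL(2, ℤ) := f.range with hΓ''
  have hmem : ∀ x : Γ', (ι x : SL(2, ℤ)) ∈ Γ'' := fun x => ⟨x, rfl⟩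
  let e : Γ' ≃* Γ'' := MonoidHom.ofInjective hinj
  have he : ∀ x : Γ', D * ((x : SL(2, ℤ)) : M2) = ((e x : SL(2, ℤ)) : M2) * D := fun x => hι x
  have hP1 : (P0.act D).Pos := pos_act P0_pos hD.ne'
  have hu1 : D *ᵥ e1 ≠ 0 := T2_mulVec_ne_zero hD.ne' T2_e1_ne_zero
  have hsym : IsSym Γ'' (sym Γ'' (ι g0 : SL(2, ℤ))) := isSym_sym (hmem g0)
  -- step 1 : each term
  have hterm : ∀ i, JJ Γ' (g0 : SL(2, ℤ)) (η i : SL(2, ℤ)) =
      sym Γ'' (ι g0 : SL(2, ℤ)) e1 (((ι (η i) : SL(2, ℤ)) : M2) *ᵥ e1) := by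
    intro i
    have h1 : JJ Γ' (g0 : SL(2, ℤ)) (η i : SL(2, ℤ)) =
        ccS (mset Γ') e1 (((η i : SL(2, ℤ)) : M2) *ᵥ e1) P0 (P0.act ((g0 : SL(2, ℤ)) : M2)) := rfl
    rw [h1, ccS_conj hD e he, Matrix.mulVec_mulVec, hι (η i), ← Matrix.mulVec_mulVec,
      ← act_mul, hι g0, act_mul, ccS_loop_base (hmem g0) _ _ hP1 P0_pos]
    exact hsym.base (hmem (η i)) hu1 T2_e1_ne_zero
  have hdet : ∀ x : Γ, ((x : SL(2, ℤ)) : M2).det ≠ 0 := fun x => by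
    rw [(x : SL(2, ℤ)).2]; exact one_ne_zero
  have h2 := hsym.sum_transfer (fun i => ((t i : SL(2, ℤ)) : M2)) (fun i => hdet (t i))
    ((g : SL(2, ℤ)) : M2) (hdet g) s (fun i => (ι (η i) : SL(2, ℤ))) (fun i => hmem (η i))
    (fun i => by
      have := congrArg (fun x : Γ => ((x : SL(2, ℤ)) : M2)) (h i)
      simpa using this)
  rw [Finset.sum_congr rfl fun i _ => hterm i, h2]
  -- step 2 : the union of the cosets
  have hU : mset Γ = ⋃ i, (fun E => E * ((t i : SL(2, ℤ)) : M2)) '' mset Γ'' := by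
    ext E
    simp only [Set.mem_iUnion, Set.mem_image]
    constructor
    · rintro ⟨x, hx, rfl⟩
      obtain ⟨⟨y, i⟩, hyi⟩ := ht.2 ⟨x, hx⟩
      refine ⟨i, ((ι y : SL(2, ℤ)) : M2), ⟨_, hmem y, rfl⟩, ?_⟩
      have := congrArg (fun x : Γ => ((x : SL(2, ℤ)) : M2)) hyi
      simpa using this
    · rintro ⟨i, _, ⟨_, ⟨y, rfl⟩, rfl⟩, rfl⟩
      exact ⟨(ι y * t i : Γ), (ι y * t i : Γ).2, by simp [hfa]⟩
  have hdisj : Pairwise fun i j : I => Disjoint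
      ((fun E => E * ((t i : SL(2, ℤ)) : M2)) '' mset Γ'')
      ((fun E => E * ((t j : SL(2, ℤ)) : M2)) '' mset Γ'') := by
    intro i j hij
    rw [Set.disjoint_left]
    rintro _ ⟨_, ⟨_, ⟨y, rfl⟩, rfl⟩, rfl⟩ ⟨_, ⟨_, ⟨z, rfl⟩, rfl⟩, hE⟩
    apply hij
    have h3 : (fun x : Γ' × I => ι x.1 * t x.2) (z, j) = (fun x : Γ' × I => ι x.1 * t x.2) (y, i) := by
      apply Subtype.ext
      apply Subtype.ext
      simpa [hfa] using hE
    exact (congrArg Prod.snd (ht.1 h3)).symm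
  have hHD : ∀ i, HasDet ((fun E => E * ((t i : SL(2, ℤ)) : M2)) '' mset Γ'') 1 := by
    rintro i _ ⟨E, hE, rfl⟩
    rw [Matrix.det_mul, hasDet_mset Γ'' E hE, (t i : SL(2, ℤ)).2, one_mul]
  have hPg : (P0.act ((ι g0 : SL(2, ℤ)) : M2)).Pos := pos_act P0_pos (hdet _)
  have h4 : JJ Γ (ι g0 : SL(2, ℤ)) (g : SL(2, ℤ)) =
      ccS (mset Γ) e1 (((g : SL(2, ℤ)) : M2) *ᵥ e1) P0 (P0.act ((ι g0 : SL(2, ℤ)) : M2)) := rfl
  rw [h4, hU, ccS_iUnion _ hHD hdisj _ _ P0_pos hPg]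
  refine Finset.sum_congr rfl fun i _ => ?_
  exact ccS_mulVec _ _ _ _ _ (hdet (t i))

end Fermat.Agent.S41Lib
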