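import Fermat.Agent.S41.PD.Flip
import Fermat.Agent.S41.PD.Par
import Fermat.Agent.S41.PD.Nondeg
import Fermat.Agent.S41.PD.Transfer
import Fermat.Agent.S41.F1.Adapt
import Fermat.Agent.S41.F.TopDefs
import Fermat.Agent.S41.Ihara.Sign

/-!
# S41, (PD+): the plus part of `L²` is contained in `b L' + p L²`
-/

set_option autoImplicit false
open scoped MatrixGroups
open Matrix ModularGroup CongruenceSubgroup ModularCurve.Period

namespace Fermat.Agent.S41Lib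

open Fermat.Agent.ESLib

theorem PP_exists_dual {p : ℕ} [Fact p.Prime] {V : Type*} [AddCommGroup V] [Module (ZMod p) V]
    {v : V} (hv : v ≠ 0) : ∃ f : V →+ ZMod p, f v ≠ 0 := by
  by_contra hcon
  push Not at hcon
  exact hv ((Module.forall_dual_apply_eq_zero_iff (ZMod p) v).mp
    fun f => hcon (LinearMap.toAddMonoidHom f))

/-- (a) a separating functional -/
theorem PP_exists_functional {G : Type*} [AddCommGroup G] (p : ℕ) [Fact p.Prime]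
    (W : AddSubgroup G) (hp : ∀ x : G, p • x ∈ W) {v : G} (hv : v ∉ W) :
    ∃ u : G →+ ZMod p, (∀ x ∈ W, u x = 0) ∧ u v ≠ 0 := by
  let inst : Module (ZMod p) (G ⧸ W) := AddCommGroup.zmodModule (by
    intro x
    induction x using QuotientAddGroup.induction_on with
    | H x => exact (QuotientAddGroup.eq_zero_iff _).mpr (hp x))
  have hne : (QuotientAddGroup.mk v : G ⧸ W) ≠ 0 :=
    fun h => hv ((QuotientAddGroup.eq_zero_iff v).mp h)
  obtain ⟨f, hf⟩ := PP_exists_dual (p := p) hne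
  refine ⟨f.comp (QuotientAddGroup.mk' W), fun x hx => ?_, hf⟩
  show f (QuotientAddGroup.mk x) = 0
  rw [(QuotientAddGroup.eq_zero_iff x).mpr hx, map_zero]

/-- (b) `b_ι (JE (N q) g₀) = JE N (ι g₀)` -/
theorem PP_bOf_JE {N q : ℕ} [NeZero q] {ι : Gamma0 (N * q) →* Gamma0 N} (hι : IsDeg ι) {D : M2}
    (hD : 0 < D.det)
    (hDι : ∀ h : Gamma0 (N * q), D * ((h : SL(2, ℤ)) : M2) = ((ι h : SL(2, ℤ)) : M2) * D)
    (g₀ : Gamma0 (N * q)) :
    bOf ℤ hι (JE (N * q) (Additive.ofMul g₀)) = JE N (Additive.ofMul (ι g₀)) := by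
  apply Subtype.ext
  refine AddMonoidHom.ext fun g' => ?_
  obtain ⟨g, rfl⟩ : ∃ g, Additive.ofMul g = g' := ⟨Additive.toMul g', rfl⟩
  obtain ⟨t, ht⟩ := hι.reps
  obtain ⟨s, η, hη⟩ := exists_b_data t ht g
  rw [b_spec hι t ht g s η hη, JE_apply, ← JJ_transfer hD ι hDι t ht g s η hη g₀]
  exact Finset.sum_congr rfl fun i _ => JE_apply _ _ _

theorem PP_bOf_JE_incl {N q : ℕ} [NeZero q] (h1 : IsDeg (incl N q)) (g₀ : Gamma0 (N * q)) :
    bOf ℤ h1 (JE (N * q) (Additive.ofMul g₀)) = JE N (Additive.ofMul (incl N q g₀)) := by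
  refine PP_bOf_JE h1 (D := 1) (by rw [Matrix.det_one]; exact one_pos) (fun h => ?_) g₀
  rw [Matrix.one_mul, Matrix.mul_one]
  rfl

theorem PP_bOf_JE_adD {N q : ℕ} [NeZero q] (h2 : IsDeg (adD N q)) (g₀ : Gamma0 (N * q)) :
    bOf ℤ h2 (JE (N * q) (Additive.ofMul g₀)) = JE N (Additive.ofMul (adD N q g₀)) := by
  have hq : 0 < (q : ℤ) := by exact_mod_cast Nat.pos_of_ne_zero (NeZero.ne q)
  refine PP_bOf_JE h2 (D := !![(q : ℤ), 0; 0, 1]) (by rw [Matrix.det_fin_two_of]; simpa using hq)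
    (fun h => ?_) g₀
  have h1 := q_mul_div h
  have e : ((adD N q h : SL(2, ℤ)) : M2) = _ := adD_val N q h
  rw [e]
  ext i j
  fin_cases i <;> fin_cases j <;> simp [Matrix.mul_apply, Fin.sum_univ_two]
  · ring
  · linear_combination (-1 : ℤ) * h1

/-- (c) `ι_* (JE g) = - JE (ι g)` -/
theorem PP_ioEP_JE (N : ℕ) (g : Gamma0 N) :
    ioEP N ℤ (JE N (Additive.ofMul g)) = -JE N (Additive.ofMul (jConjGamma0 N g)) := by
  apply Subtype.ext
  refine AddMonoidHom.ext fun g' => ?_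
  obtain ⟨g', rfl⟩ : ∃ g₁, Additive.ofMul g₁ = g' := ⟨Additive.toMul g', rfl⟩
  rw [ioEP_apply, JE_apply]
  show _ = -((JE N (Additive.ofMul (jConjGamma0 N g)) : EP N ℤ) : Additive (Gamma0 N) →+ ℤ)
    (Additive.ofMul g')
  rw [JE_apply, jConjGamma0_coe, jConjGamma0_coe]
  have h := JJ_flip (Γ := Gamma0 N) (fun h hh => jConjSL_mem_Gamma0 hh)
    (jConjSL_mem_Gamma0 g.2) (g' : SL(2, ℤ))
  rw [jConjSL_jConjSL] at h
  rw [h]

/-- the abstract end of the argument -/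
theorem PP_end {N q p : ℕ} [NeZero N] [NeZero q] [Fact p.Prime] (hp2 : p ≠ 2) (hq : q.Prime)
    (hqN : ¬ q ∣ N) (h1 : IsDeg (incl N q)) (h2 : IsDeg (adD N q)) (u₁ u₂ : EP N ℤ →+ ZMod p)
    (hu : ∀ y : EP (N * q) ℤ, u₁ (bOf ℤ h1 y) + u₂ (bOf ℤ h2 y) = 0) (x : EP N ℤ) :
    u₁ (x + ioEP N ℤ x) = 0 ∧ u₂ (x + ioEP N ℤ x) = 0 := by
  have hφ₁E : u₁.comp (JE N) ∈ EP N (ZMod p) := by
    intro γ hγ
    show u₁ (JE N (Additive.ofMul γ)) = 0
    rw [JE_ellpar N γ hγ, map_zero]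
  have hφ₂E : u₂.comp (JE N) ∈ EP N (ZMod p) := by
    intro γ hγ
    show u₂ (JE N (Additive.ofMul γ)) = 0
    rw [JE_ellpar N γ hγ, map_zero]
  have hker : ∀ g g' : Gamma0 N, IsDel q g g' →
      (u₁.comp (JE N)) (Additive.ofMul g) + (u₂.comp (JE N)) (Additive.ofMul g') = 0 := by
    rintro g g' ⟨h00, h11, h01, h10⟩
    obtain ⟨γ, rfl, rfl⟩ := exists_of_isAd g g' ⟨h00, h01, h10.symm, h11⟩
    show u₁ (JE N (Additive.ofMul (incl N q γ))) + u₂ (JE N (Additive.ofMul (adD N q γ))) = 0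
    rw [← PP_bOf_JE_incl h1, ← PP_bOf_JE_adD h2]
    exact hu _
  have hsign := sign_of_ker hq hqN hφ₁E hφ₂E hker
  have hz₁ : u₁.comp (AddMonoidHom.id _ + ioEP N ℤ) = 0 := by
    refine JE_nondeg N hp2 _ fun g' => ?_
    obtain ⟨g, rfl⟩ : ∃ g, Additive.ofMul g = g' := ⟨Additive.toMul g', rfl⟩
    show u₁ (JE N (Additive.ofMul g) + ioEP N ℤ (JE N (Additive.ofMul g))) = 0
    rw [PP_ioEP_JE, map_add, map_neg]
    have h3 : u₁ (JE N (Additive.ofMul (jConjGamma0 N g))) = u₁ (JE N (Additive.ofMul g)) :=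
      (hsign g).1
    rw [h3, add_neg_cancel]
  have hz₂ : u₂.comp (AddMonoidHom.id _ + ioEP N ℤ) = 0 := by
    refine JE_nondeg N hp2 _ fun g' => ?_
    obtain ⟨g, rfl⟩ : ∃ g, Additive.ofMul g = g' := ⟨Additive.toMul g', rfl⟩
    show u₂ (JE N (Additive.ofMul g) + ioEP N ℤ (JE N (Additive.ofMul g))) = 0
    rw [PP_ioEP_JE, map_add, map_neg]
    have h3 : u₂ (JE N (Additive.ofMul (jConjGamma0 N g))) = u₂ (JE N (Additive.ofMul g)) :=
      (hsign g).2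
    rw [h3, add_neg_cancel]
  exact ⟨DFunLike.congr_fun hz₁ x, DFunLike.congr_fun hz₂ x⟩

/-- abstract: functionals detect `b Y + p X` -/
theorem PP_abs {L Y : Type*} [AddCommGroup L] [AddCommGroup Y] (p : ℕ) [Fact p.Prime]
    (b₁ b₂ : Y →+ L) (v₁ v₂ : L)
    (h : ∀ u₁ u₂ : L →+ ZMod p, (∀ y, u₁ (b₁ y) + u₂ (b₂ y) = 0) → u₁ v₁ + u₂ v₂ = 0) :
    ∃ (y : Y) (z₁ z₂ : L), v₁ = b₁ y + p • z₁ ∧ v₂ = b₂ y + p • z₂ := by
  obtain ⟨F, hFa⟩ : ∃ F : Y × (L × L) →+ L × L,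
      ∀ y z₁ z₂, F (y, (z₁, z₂)) = (b₁ y + p • z₁, b₂ y + p • z₂) :=
    ⟨(b₁.prod b₂).coprod (p • AddMonoidHom.id _), fun y z₁ z₂ => rfl⟩
  by_contra hcon
  have hv : (v₁, v₂) ∉ F.range := by
    rintro ⟨⟨y, z₁, z₂⟩, hy⟩
    rw [hFa] at hy
    exact hcon ⟨y, z₁, z₂, (congrArg Prod.fst hy).symm, (congrArg Prod.snd hy).symm⟩
  obtain ⟨u, huW, huv⟩ := PP_exists_functional p F.range
    (fun x => ⟨(0, (x.1, x.2)), by rw [hFa, map_zero, map_zero, zero_add, zero_add]; rfl⟩) hv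
  apply huv
  have hsplit : ∀ a b, u (a, b) = u.comp (AddMonoidHom.inl _ _) a + u.comp (AddMonoidHom.inr _ _) b := by
    intro a b
    show u (a, b) = u (a, 0) + u (0, b)
    rw [← map_add, Prod.mk_add_mk, add_zero, zero_add]
  rw [hsplit]
  refine h _ _ fun y => ?_
  rw [← hsplit]
  refine huW _ ⟨(y, (0, 0)), ?_⟩
  rw [hFa, smul_zero, add_zero, add_zero]

theorem pd_plus {N q p : ℕ} [NeZero N] [NeZero q] [Fact p.Prime] (hp2 : p ≠ 2) (hq : q.Prime)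
    (hqN : ¬ q ∣ N) (h1 : IsDeg (incl N q)) (h2 : IsDeg (adD N q)) (x₁ x₂ : EP N ℤ) :
    ∃ (y : EP (N * q) ℤ) (z₁ z₂ : EP N ℤ),
      x₁ + ioEP N ℤ x₁ = bOf ℤ h1 y + p • z₁ ∧ x₂ + ioEP N ℤ x₂ = bOf ℤ h2 y + p • z₂ := by
  refine PP_abs p (bOf ℤ h1) (bOf ℤ h2) _ _ fun u₁ u₂ hu => ?_
  rw [(PP_end hp2 hq hqN h1 h2 u₁ u₂ hu x₁).1, (PP_end hp2 hq hqN h1 h2 u₁ u₂ hu x₂).2, add_zero]

end Fermat.Agent.S41Lib
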