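import Fermat.Agent.S41.PD.Defs2

/-!
# S41 PD (H1): integral form of the transfer relation
-/

set_option autoImplicit false
open scoped MatrixGroups
open Matrix ModularGroup CongruenceSubgroup

namespace Fermat.Agent.S41Lib

open Fermat.Agent.ESLib
open P2MW.S_ModularForm_heckeT_slash_eq_self_of_mem_Gamma0.ModularForm.HeckeSlashInvariance

theorem hM_det (ℓ : ℕ) (x : OnePoint (ZMod ℓ)) : (hM ℓ x).det = ℓ := by
  induction x using OnePoint.rec with
  | infty =>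
    show (!![(ℓ : ℤ), 0; 0, 1] : M2).det = ℓ
    rw [Matrix.det_fin_two_of]; ring
  | coe j =>
    show (!![1, (j.val : ℤ); 0, (ℓ : ℤ)] : M2).det = ℓ
    rw [Matrix.det_fin_two_of]; ring

theorem H1_val {ℓ : ℕ} (hℓ : ℓ ≠ 0) (x : OnePoint (ZMod ℓ)) :
    ((heckeRep ℓ x : GL (Fin 2) ℝ) : Matrix (Fin 2) (Fin 2) ℝ) =
      (hM ℓ x).map (Int.castRingHom ℝ) := by
  induction x using OnePoint.rec with
  | infty =>
    rw [heckeRep_infty, ModularForm.val_heckeDiagMatrix hℓ]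
    show _ = (!![(ℓ : ℤ), 0; 0, 1] : M2).map (Int.castRingHom ℝ)
    ext i j
    fin_cases i <;> fin_cases j <;> simp
  | coe j =>
    rw [heckeRep_coe, ModularForm.val_heckeMatrix hℓ]
    show _ = (!![1, (j.val : ℤ); 0, (ℓ : ℤ)] : M2).map (Int.castRingHom ℝ)
    ext i j
    fin_cases i <;> fin_cases j <;> simp

theorem H1_val_mapGL (g : SL(2, ℤ)) :
    ((Matrix.SpecialLinearGroup.mapGL ℝ g : GL (Fin 2) ℝ) : Matrix (Fin 2) (Fin 2) ℝ) =
      (g : M2).map (Int.castRingHom ℝ) := by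
  ext i j
  simp

theorem H1_rel_iff {ℓ : ℕ} (hℓ : ℓ ≠ 0) (x y : OnePoint (ZMod ℓ)) (g g' : SL(2, ℤ)) :
    heckeRep ℓ x * Matrix.SpecialLinearGroup.mapGL ℝ g =
      Matrix.SpecialLinearGroup.mapGL ℝ g' * heckeRep ℓ y ↔
    hM ℓ x * (g : M2) = (g' : M2) * hM ℓ y := by
  rw [Units.ext_iff, Units.val_mul, Units.val_mul, H1_val hℓ, H1_val hℓ, H1_val_mapGL,
    H1_val_mapGL, ← Matrix.map_mul, ← Matrix.map_mul]
  exact (Matrix.map_injective (Int.cast_injective (α := ℝ))).eq_iff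

/-- NB: false for `ℓ = 0` (junk values of `heckeRep`), hence the `NeZero` -/
theorem transfer_iff (M ℓ : ℕ) [NeZero ℓ] (γ : Gamma0 M) (γ' : OnePoint (ZMod ℓ) → Gamma0 M) :
    Transfer M ℓ γ γ' ↔ ∃ π : Equiv.Perm (OnePoint (ZMod ℓ)), ∀ x,
      hM ℓ x * ((γ : SL(2, ℤ)) : M2) = ((γ' x : SL(2, ℤ)) : M2) * hM ℓ (π x) := by
  unfold Transfer
  refine exists_congr fun π => forall_congr' fun x => ?_
  exact H1_rel_iff (NeZero.ne ℓ) x (π x) _ _

end Fermat.Agent.S41Lib
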