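import Fermat.Agent.S41.PD.Defs2

/-!
# S41 PD (H2): the set `DeltaL M ℓ` as a union of cosets
-/

set_option autoImplicit false
open scoped MatrixGroups
open Matrix ModularGroup CongruenceSubgroup

namespace Fermat.Agent.S41Lib

open Fermat.Agent.ESLib

theorem H2_mem_mset_Gamma0 (M : ℕ) (D : M2) :
    D ∈ mset (Gamma0 M) ↔ D.det = 1 ∧ (M : ℤ) ∣ D 1 0 := by
  constructor
  · rintro ⟨h, hh, rfl⟩
    refine ⟨h.2, ?_⟩
    have := (Gamma0_mem).1 hh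
    exact (ZMod.intCast_zmod_eq_zero_iff_dvd _ _).1 this
  · rintro ⟨h1, h2⟩
    let g : SL(2, ℤ) := ⟨D, h1⟩
    refine ⟨g, ?_, rfl⟩
    exact (Gamma0_mem (A := g)).2 ((ZMod.intCast_zmod_eq_zero_iff_dvd _ _).2 h2)

theorem H2_hM_infty (ℓ : ℕ) : hM ℓ OnePoint.infty = !![(ℓ : ℤ), 0; 0, 1] := rfl
theorem H2_hM_some (ℓ : ℕ) (j : ZMod ℓ) :
    hM ℓ (OnePoint.some j) = !![1, (j.val : ℤ); 0, (ℓ : ℤ)] := rfl

theorem H2_ext {A B : M2} (h00 : A 0 0 = B 0 0) (h01 : A 0 1 = B 0 1) (h10 : A 1 0 = B 1 0)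
    (h11 : A 1 1 = B 1 1) : A = B := by
  ext i j
  fin_cases i <;> fin_cases j <;> assumption

/-- the proportionality factor -/
theorem H2_exists_j {ℓ : ℕ} (hℓ : ℓ.Prime) {a b c d : ℤ} (hdet : a * d - b * c = ℓ)
    (h : ¬ ((ℓ : ℤ) ∣ a ∧ (ℓ : ℤ) ∣ c)) :
    ∃ j : ZMod ℓ, (ℓ : ℤ) ∣ b - (j.val : ℤ) * a ∧ (ℓ : ℤ) ∣ d - (j.val : ℤ) * c := by
  have : Fact ℓ.Prime := ⟨hℓ⟩
  have hp : Prime (ℓ : ℤ) := Nat.prime_iff_prime_int.1 hℓ
  have hval : ∀ j : ZMod ℓ, (((j.val : ℕ) : ℤ) : ZMod ℓ) = j := fun j => by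
    rw [Int.cast_natCast, ZMod.natCast_val, ZMod.cast_id', id]
  have hdet' : (a : ZMod ℓ) * d - b * c = 0 := by
    have := congrArg (Int.cast : ℤ → ZMod ℓ) hdet
    push_cast at this
    rw [this, ZMod.natCast_self]
  by_cases ha : (ℓ : ℤ) ∣ a
  · have hc : ¬ (ℓ : ℤ) ∣ c := fun hc => h ⟨ha, hc⟩
    have hc' : (c : ZMod ℓ) ≠ 0 := fun h0 => hc ((ZMod.intCast_zmod_eq_zero_iff_dvd _ _).1 h0)
    have ha' : (a : ZMod ℓ) = 0 := (ZMod.intCast_zmod_eq_zero_iff_dvd _ _).2 ha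
    refine ⟨(d : ZMod ℓ) * (c : ZMod ℓ)⁻¹, ?_, ?_⟩
    · rw [← ZMod.intCast_zmod_eq_zero_iff_dvd]
      push_cast
      rw [ha', mul_zero, sub_zero]
      rw [ha', zero_mul, zero_sub, neg_eq_zero] at hdet'
      exact (mul_eq_zero.1 hdet').resolve_right hc'
    · rw [← ZMod.intCast_zmod_eq_zero_iff_dvd, Int.cast_sub, Int.cast_mul, hval]
      field_simp
      ring
  · have ha' : (a : ZMod ℓ) ≠ 0 := fun h0 => ha ((ZMod.intCast_zmod_eq_zero_iff_dvd _ _).1 h0)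
    refine ⟨(b : ZMod ℓ) * (a : ZMod ℓ)⁻¹, ?_, ?_⟩
    · rw [← ZMod.intCast_zmod_eq_zero_iff_dvd, Int.cast_sub, Int.cast_mul, hval]
      field_simp
      ring
    · rw [← ZMod.intCast_zmod_eq_zero_iff_dvd, Int.cast_sub, Int.cast_mul, hval]
      field_simp
      linear_combination hdet'

theorem H2_dvd_of_mul {M ℓ : ℕ} (hℓ : ℓ.Prime) (hℓM : ¬ ℓ ∣ M) {c : ℤ}
    (h : (M : ℤ) ∣ (ℓ : ℤ) * c) : (M : ℤ) ∣ c := by
  have hcop : IsCoprime (M : ℤ) (ℓ : ℤ) := by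
    rw [Nat.isCoprime_iff_coprime]
    exact ((Nat.Prime.coprime_iff_not_dvd hℓ).2 hℓM).symm
  exact hcop.dvd_of_dvd_mul_left h

theorem DeltaL_eq_iUnion (M ℓ : ℕ) (hℓ : ℓ.Prime) (hℓM : ¬ ℓ ∣ M) :
    DeltaL M ℓ = ⋃ x, (fun D => D * hM ℓ x) '' mset (Gamma0 M) := by
  have hℓ0 : (ℓ : ℤ) ≠ 0 := by exact_mod_cast hℓ.ne_zero
  ext D
  simp only [Set.mem_iUnion, Set.mem_image]
  constructor
  · rintro ⟨hdet, hM⟩
    rw [Matrix.det_fin_two] at hdet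
    by_cases h : (ℓ : ℤ) ∣ D 0 0 ∧ (ℓ : ℤ) ∣ D 1 0
    · obtain ⟨⟨a, ha⟩, ⟨c, hc⟩⟩ := h
      refine ⟨OnePoint.infty, !![a, D 0 1; c, D 1 1], ?_, ?_⟩
      · rw [H2_mem_mset_Gamma0]
        constructor
        · rw [Matrix.det_fin_two_of]
          apply mul_left_cancel₀ hℓ0
          rw [ha, hc] at hdet
          linear_combination hdet
        · show (M : ℤ) ∣ c
          rw [hc] at hM
          exact H2_dvd_of_mul hℓ hℓM hM
      · rw [H2_hM_infty]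
        apply H2_ext <;> simp [Matrix.mul_apply, Fin.sum_univ_two, ha, hc, mul_comm]
    · obtain ⟨j, ⟨b, hb⟩, ⟨d, hd⟩⟩ := H2_exists_j hℓ hdet h
      refine ⟨OnePoint.some j, !![D 0 0, b; D 1 0, d], ?_, ?_⟩
      · rw [H2_mem_mset_Gamma0]
        constructor
        · rw [Matrix.det_fin_two_of]
          apply mul_left_cancel₀ hℓ0
          linear_combination hdet - (D 0 0) * hd + (D 1 0) * hb
        · exact hM
      · rw [H2_hM_some]
        apply H2_ext <;> simp [Matrix.mul_apply, Fin.sum_univ_two]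
        · linear_combination -hb
        · linear_combination -hd
  · rintro ⟨x, γ, hγ, rfl⟩
    rw [H2_mem_mset_Gamma0] at hγ
    obtain ⟨h1, h2⟩ := hγ
    induction x using OnePoint.rec with
    | infty =>
      refine ⟨?_, ?_⟩
      · rw [Matrix.det_mul, h1, H2_hM_infty, Matrix.det_fin_two_of]; ring
      · rw [H2_hM_infty]
        simp [Matrix.mul_apply, Fin.sum_univ_two]
        exact Dvd.dvd.mul_right h2 _
    | coe j =>
      refine ⟨?_, ?_⟩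
      · rw [Matrix.det_mul, h1, H2_hM_some, Matrix.det_fin_two_of]; ring
      · rw [H2_hM_some]
        simp [Matrix.mul_apply, Fin.sum_univ_two]
        exact h2

theorem H2_inj {ℓ : ℕ} (hℓ : ℓ.Prime) {γ γ' : M2} (h1 : γ.det = 1) (h1' : γ'.det = 1)
    {x y : OnePoint (ZMod ℓ)} (h : γ * hM ℓ x = γ' * hM ℓ y) : x = y := by
  have hnd : ¬ (ℓ : ℤ) ∣ 1 := fun hd => by
    have := Int.natCast_dvd_natCast.1 (by simpa using hd : ((ℓ : ℕ) : ℤ) ∣ ((1 : ℕ) : ℤ))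
    exact hℓ.one_lt.ne' (Nat.dvd_one.1 this)
  rw [Matrix.det_fin_two] at h1 h1'
  have h00 := congrFun (congrFun h 0) 0
  have h01 := congrFun (congrFun h 0) 1
  have h10 := congrFun (congrFun h 1) 0
  have h11 := congrFun (congrFun h 1) 1
  induction x using OnePoint.rec with
  | infty =>
    induction y using OnePoint.rec with
    | infty => rfl
    | coe j =>
      exfalso
      rw [H2_hM_infty, H2_hM_some] at h00 h10
      simp [Matrix.mul_apply, Fin.sum_univ_two] at h00 h10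
      apply hnd
      refine ⟨γ 0 0 * γ' 1 1 - γ' 0 1 * γ 1 0, ?_⟩
      rw [← h1', ← h00, ← h10]
      ring
  | coe i =>
    induction y using OnePoint.rec with
    | infty =>
      exfalso
      rw [H2_hM_infty, H2_hM_some] at h00 h10
      simp [Matrix.mul_apply, Fin.sum_univ_two] at h00 h10
      apply hnd
      refine ⟨γ' 0 0 * γ 1 1 - γ 0 1 * γ' 1 0, ?_⟩
      rw [← h1, h00, h10]
      ring
    | coe j =>
      rw [H2_hM_some, H2_hM_some] at h00 h10 h01 h11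
      simp [Matrix.mul_apply, Fin.sum_univ_two] at h00 h10 h01 h11
      have hd : (ℓ : ℤ) ∣ (i.val : ℤ) - (j.val : ℤ) := by
        refine ⟨(γ' 0 1 - γ 0 1) * γ 1 1 - (γ' 1 1 - γ 1 1) * γ 0 1, ?_⟩
        rw [← h00] at h01
        rw [← h10] at h11
        linear_combination ((i.val : ℤ) - (j.val : ℤ)) * (-h1) + γ 1 1 * h01 - γ 0 1 * h11
      have : NeZero ℓ := ⟨hℓ.ne_zero⟩
      have h2 : (((i.val : ℕ) : ℤ) : ZMod ℓ) = (((j.val : ℕ) : ℤ) : ZMod ℓ) := by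
        rw [← sub_eq_zero, ← Int.cast_sub]
        exact (ZMod.intCast_zmod_eq_zero_iff_dvd _ _).2 hd
      rw [Int.cast_natCast, Int.cast_natCast, ZMod.natCast_val, ZMod.natCast_val, ZMod.cast_id',
        id, id] at h2
      rw [h2]

theorem H2_det_of_mem {Γ : Subgroup SL(2, ℤ)} {D : M2} (h : D ∈ mset Γ) : D.det = 1 := by
  obtain ⟨g, -, rfl⟩ := h
  exact g.2

theorem DeltaL_disjoint (M ℓ : ℕ) (hℓ : ℓ.Prime) :
    Pairwise fun x y : OnePoint (ZMod ℓ) => Disjoint ((fun D => D * hM ℓ x) '' mset (Gamma0 M))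
      ((fun D => D * hM ℓ y) '' mset (Gamma0 M)) := by
  intro x y hxy
  rw [Set.disjoint_left]
  rintro _ ⟨γ, hγ, rfl⟩ ⟨γ', hγ', h⟩
  exact hxy (H2_inj hℓ (H2_det_of_mem hγ) (H2_det_of_mem hγ') h.symm)

theorem H2_adj_adj (D : M2) : D.adjugate.adjugate = D := by
  rw [Matrix.adjugate_fin_two, Matrix.adjugate_fin_two]
  apply H2_ext <;> simp

theorem H2_adj_mem_mset {M : ℕ} {D : M2} (h : D ∈ mset (Gamma0 M)) :
    D.adjugate ∈ mset (Gamma0 M) := by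
  rw [H2_mem_mset_Gamma0] at h ⊢
  refine ⟨?_, ?_⟩
  · rw [Matrix.det_adjugate, h.1, one_pow]
  · rw [Matrix.adjugate_fin_two]
    simpa using h.2

theorem H2_adj_mem_DeltaL {M ℓ : ℕ} {D : M2} (h : D ∈ DeltaL M ℓ) : D.adjugate ∈ DeltaL M ℓ := by
  refine ⟨?_, ?_⟩
  · rw [Matrix.det_adjugate, h.1]; simp
  · rw [Matrix.adjugate_fin_two]
    simpa using h.2

theorem DeltaL_eq_iUnion' (M ℓ : ℕ) (hℓ : ℓ.Prime) (hℓM : ¬ ℓ ∣ M) :
    DeltaL M ℓ = ⋃ x, (fun D => (hM ℓ x).adjugate * D) '' mset (Gamma0 M) := by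
  ext D
  simp only [Set.mem_iUnion, Set.mem_image]
  constructor
  · intro hD
    have h := H2_adj_mem_DeltaL hD
    rw [DeltaL_eq_iUnion M ℓ hℓ hℓM] at h
    simp only [Set.mem_iUnion, Set.mem_image] at h
    obtain ⟨x, γ, hγ, h⟩ := h
    refine ⟨x, γ.adjugate, H2_adj_mem_mset hγ, ?_⟩
    rw [← Matrix.adjugate_mul_distrib, h, H2_adj_adj]
  · rintro ⟨x, γ, hγ, rfl⟩
    have h : γ.adjugate * hM ℓ x ∈ DeltaL M ℓ := by
      rw [DeltaL_eq_iUnion M ℓ hℓ hℓM]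
      simp only [Set.mem_iUnion, Set.mem_image]
      exact ⟨x, _, H2_adj_mem_mset hγ, rfl⟩
    have h2 := H2_adj_mem_DeltaL h
    rwa [Matrix.adjugate_mul_distrib, H2_adj_adj] at h2

theorem DeltaL_disjoint' (M ℓ : ℕ) (hℓ : ℓ.Prime) :
    Pairwise fun x y : OnePoint (ZMod ℓ) => Disjoint ((fun D => (hM ℓ x).adjugate * D) '' mset (Gamma0 M))
      ((fun D => (hM ℓ y).adjugate * D) '' mset (Gamma0 M)) := by
  intro x y hxy
  rw [Set.disjoint_left]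
  rintro _ ⟨γ, hγ, rfl⟩ ⟨γ', hγ', h⟩
  apply hxy
  have h2 := congrArg Matrix.adjugate h
  simp only [Matrix.adjugate_mul_distrib, H2_adj_adj] at h2
  exact H2_inj hℓ (H2_det_of_mem (H2_adj_mem_mset hγ)) (H2_det_of_mem (H2_adj_mem_mset hγ')) h2.symm

end Fermat.Agent.S41Lib
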