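import Fermat.Agent.S41.PD.Defs2
import Fermat.Agent.S41.PD.Sym
import Fermat.Agent.S41.PD.HeckeSet
import Fermat.Agent.S41.PD.HeckeRep
import Fermat.Agent.S41.PD.PiTransfer

/-!
# S41 PD (H3): Hecke self-adjointness of `JJ`
-/

set_option autoImplicit false
open scoped MatrixGroups
open Matrix ModularGroup CongruenceSubgroup

namespace Fermat.Agent.S41Lib

open Fermat.Agent.ESLib

theorem H3_hasDet_right (Γ : Subgroup SL(2, ℤ)) (ℓ : ℕ) (x : OnePoint (ZMod ℓ)) :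
    HasDet ((fun D => D * hM ℓ x) '' mset Γ) ℓ := by
  rintro _ ⟨D, hD, rfl⟩
  rw [Matrix.det_mul, H2_det_of_mem hD, hM_det, one_mul]

theorem H3_hasDet_left (Γ : Subgroup SL(2, ℤ)) (ℓ : ℕ) (x : OnePoint (ZMod ℓ)) :
    HasDet ((fun D => (hM ℓ x).adjugate * D) '' mset Γ) ℓ := by
  rintro _ ⟨D, hD, rfl⟩
  rw [Matrix.det_mul, H2_det_of_mem hD, Matrix.det_adjugate, hM_det, mul_one]
  simp

theorem JJ_hecke (M ℓ : ℕ) [NeZero ℓ] (hℓ : ℓ.Prime) (hℓM : ¬ ℓ ∣ M) (g g₂ : Gamma0 M)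
    (g' g₂' : OnePoint (ZMod ℓ) → Gamma0 M) (h : Transfer M ℓ g g') (h₂ : Transfer M ℓ g₂ g₂') :
    ∑ y, JJ (Gamma0 M) (g : SL(2, ℤ)) (g₂' y : SL(2, ℤ)) =
      ∑ x, JJ (Gamma0 M) (g' x : SL(2, ℤ)) (g₂ : SL(2, ℤ)) := by
  obtain ⟨π, hπ⟩ := (transfer_iff M ℓ g g').1 h
  obtain ⟨π₂, hπ₂⟩ := (transfer_iff M ℓ g₂ g₂').1 h₂
  have hℓ0 : (0 : ℤ) < (ℓ : ℤ) := by exact_mod_cast hℓ.pos
  have hdet : ∀ x, 0 < (hM ℓ x).det := fun x => by rw [hM_det]; exact hℓ0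
  have hPg : (P0.act ((g : SL(2, ℤ)) : M2)).Pos :=
    pos_act P0_pos (by rw [(g : SL(2, ℤ)).2]; exact one_ne_zero)
  -- both sides are `ccS (DeltaL M ℓ) e1 (g₂ e1) P0 (g P0)`
  have hL : ∑ y, JJ (Gamma0 M) (g : SL(2, ℤ)) (g₂' y : SL(2, ℤ)) =
      ccS (DeltaL M ℓ) e1 (((g₂ : SL(2, ℤ)) : M2) *ᵥ e1) P0 (P0.act ((g : SL(2, ℤ)) : M2)) := by
    have h1 := (isSym_sym (Γ := Gamma0 M) g.2).sum_transfer (hM ℓ) (fun x => (hdet x).ne')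
      ((g₂ : SL(2, ℤ)) : M2) (by rw [(g₂ : SL(2, ℤ)).2]; exact one_ne_zero) π₂
      (fun y => (g₂' y : SL(2, ℤ))) (fun y => (g₂' y).2) hπ₂
    rw [DeltaL_eq_iUnion M ℓ hℓ hℓM, ccS_iUnion _ (H3_hasDet_right _ ℓ) (DeltaL_disjoint M ℓ hℓ) _ _
      P0_pos hPg]
    refine h1.trans (Finset.sum_congr rfl fun y _ => ?_)
    exact ccS_mulVec _ _ _ _ _ (hdet y).ne'
  have hR : ∑ x, JJ (Gamma0 M) (g' x : SL(2, ℤ)) (g₂ : SL(2, ℤ)) =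
      ccS (DeltaL M ℓ) e1 (((g₂ : SL(2, ℤ)) : M2) *ᵥ e1) P0 (P0.act ((g : SL(2, ℤ)) : M2)) := by
    have h1 := ccS_sum_transfer (Γ := Gamma0 M) e1 (((g₂ : SL(2, ℤ)) : M2) *ᵥ e1) (hM ℓ) hdet
      (g : SL(2, ℤ)) π (fun x => (g' x : SL(2, ℤ))) (fun x => (g' x).2) hπ P0_pos
    rw [DeltaL_eq_iUnion' M ℓ hℓ hℓM, ccS_iUnion _ (H3_hasDet_left _ ℓ) (DeltaL_disjoint' M ℓ hℓ) _ _
      P0_pos hPg]
    refine h1.trans (Finset.sum_congr rfl fun x _ => ?_)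
    exact ccS_act _ _ _ _ _ (hdet x)
  rw [hL, hR]

end Fermat.Agent.S41Lib
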