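import Fermat.Agent.S41.PD.Par
import Fermat.Agent.S41.PD.Nondeg
import Fermat.Agent.S41.PD.Transfer
import Fermat.Agent.S41.PD.Hecke
import Fermat.Agent.S41.F1.Adapt

/-!
# S41 PD: adapters between the intersection pairing `JE` and the maps `a`, `b`, `T_ℓ` on `EP`
-/

set_option autoImplicit false
open scoped MatrixGroups
open Matrix ModularGroup CongruenceSubgroup

namespace Fermat.Agent.S41Lib

open Fermat.Agent.ESLib

/-- (A1) `g ↦ u (JE N g)` -/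
noncomputable def uJ (N : ℕ) {B : Type*} [AddCommGroup B] (u : EP N ℤ →+ B) : EP N B :=
  ⟨u.comp (JE N), fun γ hγ => by
    show u (JE N (Additive.ofMul γ)) = 0
    rw [JE_ellpar N γ hγ, map_zero]⟩

theorem uJ_apply (N : ℕ) {B : Type*} [AddCommGroup B] (u : EP N ℤ →+ B) (g : Gamma0 N) :
    (uJ N u : Additive (Gamma0 N) →+ B) (Additive.ofMul g) = u (JE N (Additive.ofMul g)) := rfl

/-- (A2) abstract form of (PD-5) -/
theorem A6_bOf_JE {N q : ℕ} [NeZero q] {ι : Gamma0 (N * q) →* Gamma0 N} (hι : IsDeg ι) {D : M2}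
    (hD : 0 < D.det)
    (hDι : ∀ h : Gamma0 (N * q), D * ((h : SL(2, ℤ)) : M2) = ((ι h : SL(2, ℤ)) : M2) * D)
    (g0 : Gamma0 (N * q)) :
    bOf ℤ hι (JE (N * q) (Additive.ofMul g0)) = JE N (Additive.ofMul (ι g0)) := by
  obtain ⟨t, ht⟩ := hι.reps
  apply Subtype.ext
  apply AddMonoidHom.ext
  intro g'
  obtain ⟨g, rfl⟩ : ∃ g : Gamma0 N, Additive.ofMul g = g' := ⟨Additive.toMul g', rfl⟩
  obtain ⟨s, η, hη⟩ := exists_b_data (ι := ι) t ht g
  rw [b_spec hι t ht g s η hη, JE_apply]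
  simp only [JE_apply]
  exact JJ_transfer hD ι hDι t ht g s η hη g0

theorem bOf_incl_JE {N q : ℕ} [NeZero q] (h1 : IsDeg (incl N q)) (g0 : Gamma0 (N * q)) :
    bOf ℤ h1 (JE (N * q) (Additive.ofMul g0)) = JE N (Additive.ofMul (incl N q g0)) := by
  refine A6_bOf_JE h1 (D := 1) (by rw [Matrix.det_one]; exact one_pos) (fun h => ?_) g0
  rw [Matrix.one_mul, Matrix.mul_one]
  rfl

theorem bOf_adD_JE {N q : ℕ} [NeZero q] (h2 : IsDeg (adD N q)) (g0 : Gamma0 (N * q)) :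
    bOf ℤ h2 (JE (N * q) (Additive.ofMul g0)) = JE N (Additive.ofMul (adD N q g0)) := by
  have hq : (0 : ℤ) < q := by exact_mod_cast Nat.pos_of_ne_zero (NeZero.ne q)
  refine A6_bOf_JE h2 (D := !![(q : ℤ), 0; 0, 1]) (by rw [Matrix.det_fin_two_of]; simpa using hq)
    (fun h => ?_) g0
  have h3 := q_mul_div h
  have h4 : ((adD N q h : SL(2, ℤ)) : M2) = _ := adD_val N q h
  rw [h4]
  apply H2_ext <;> simp [Matrix.mul_apply, Fin.sum_univ_two]
  · ring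
  · linear_combination -h3

/-- (A4) a functional killing `b L'` modulo `p` gives an element of the kernel of `a` modulo `p` -/
theorem inKer_uJ {N q p : ℕ} [NeZero q] (h1 : IsDeg (incl N q)) (h2 : IsDeg (adD N q))
    (u₁ u₂ : EP N ℤ →+ ℤ)
    (h : ∀ y : EP (N * q) ℤ, (p : ℤ) ∣ u₁ (bOf ℤ h1 y) + u₂ (bOf ℤ h2 y)) :
    InKer N q p (uJ N u₁ : Additive (Gamma0 N) →+ ℤ) (uJ N u₂ : Additive (Gamma0 N) →+ ℤ) := by
  intro g g' hgg
  obtain ⟨γ, rfl, rfl⟩ := exists_of_isAd g g' hgg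
  have := h (JE (N * q) (Additive.ofMul γ))
  rw [bOf_incl_JE, bOf_adD_JE] at this
  exact this

/-- (A3) (PD-6) -/
theorem isTr_JE {N ℓ : ℕ} [NeZero ℓ] (hℓ : ℓ.Prime) (hℓN : ¬ ℓ ∣ N) (g : Gamma0 N)
    (g' : OnePoint (ZMod ℓ) → Gamma0 N) (h : Transfer N ℓ g g') :
    IsTr N ℓ (JE N (Additive.ofMul g) : Additive (Gamma0 N) →+ ℤ)
      ((∑ x, JE N (Additive.ofMul (g' x)) : EP N ℤ) : Additive (Gamma0 N) →+ ℤ) := by
  intro g₂ g₂' h₂
  have h3 := JJ_hecke N ℓ hℓ hℓN g g₂ g' g₂' h h₂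
  simp only [JE_apply]
  rw [h3]
  rw [AddSubgroup.val_finsetSum, AddMonoidHom.finsetSum_apply]
  simp only [JE_apply]

end Fermat.Agent.S41Lib
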