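import Mathlib
import Fermat.Agent.ES.KDefs

/-!
# S41, Poincare duality block: definitions

`points` = positive definite integral binary quadratic forms `P : QF`, `cusps` = nonzero vectors of
`ℤ²`.  `sd P u v = sign (P(u,v) det(u,v))` tells on which side of the geodesic `(u,v)` the point `P`
lies.  `ccS 𝒟 u v P P'` = (twice) the number of geodesics `D (u,v)`, `D ∈ 𝒟`, separating `P` and `P'`,
counted with signs.
-/

set_option autoImplicit false

open scoped MatrixGroups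
open Matrix

namespace Fermat.Agent.S41Lib

abbrev V2 : Type := Fin 2 → ℤ
abbrev M2 : Type := Matrix (Fin 2) (Fin 2) ℤ

/-- the determinant of two vectors -/
def dt (u v : V2) : ℤ := u 0 * v 1 - u 1 * v 0

/-- binary quadratic forms `A x² + B x y + C y²` -/
@[ext] structure QF where
  A : ℤ
  B : ℤ
  C : ℤ

/-- positive definite -/
def QF.Pos (P : QF) : Prop := 0 < P.A ∧ 0 < 4 * P.A * P.C - P.B ^ 2

/-- (twice) the bilinear form -/
def QF.bl (P : QF) (u v : V2) : ℤ :=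
  2 * P.A * (u 0 * v 0) + P.B * (u 0 * v 1 + u 1 * v 0) + 2 * P.C * (u 1 * v 1)

/-- `(g • P)(u) = P(adj(g) u)` -/
def QF.act (P : QF) (g : M2) : QF where
  A := P.A * g 1 1 ^ 2 - P.B * (g 1 0 * g 1 1) + P.C * g 1 0 ^ 2
  B := -2 * P.A * (g 0 1 * g 1 1) + P.B * (g 0 0 * g 1 1 + g 0 1 * g 1 0) - 2 * P.C * (g 0 0 * g 1 0)
  C := P.A * g 0 1 ^ 2 - P.B * (g 0 0 * g 0 1) + P.C * g 0 0 ^ 2

/-- the side of the geodesic `(u,v)` on which `P` lies -/
def sd (P : QF) (u v : V2) : ℤ := Int.sign (P.bl u v * dt u v)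

def dsd (P P' : QF) (u v : V2) : ℤ := sd P' u v - sd P u v

/-- signed count of the geodesics `D(u,v)`, `D ∈ 𝒟`, separating `P` from `P'` -/
noncomputable def ccS (𝒟 : Set M2) (u v : V2) (P P' : QF) : ℤ :=
  ∑ᶠ D ∈ 𝒟, dsd P P' (D *ᵥ u) (D *ᵥ v)

/-- a subgroup of `SL(2,ℤ)` as a set of matrices -/
def mset (Γ : Subgroup SL(2, ℤ)) : Set M2 := (fun h : SL(2, ℤ) => (h : M2)) '' (Γ : Set SL(2, ℤ))

/-- the form `x² + x y + y²` (the point `ρ`) -/
def P0 : QF := ⟨1, 1, 1⟩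

def e1 : V2 := ![1, 0]
def e2 : V2 := ![0, 1]

/-- the modular symbol attached to the loop `g` -/
noncomputable def sym (Γ : Subgroup SL(2, ℤ)) (g : SL(2, ℤ)) (u v : V2) : ℤ :=
  ccS (mset Γ) u v P0 (P0.act (g : M2))

/-- (four times) the intersection number of the loops `g`, `g'` -/
noncomputable def JJ (Γ : Subgroup SL(2, ℤ)) (g g' : SL(2, ℤ)) : ℤ :=
  sym Γ g e1 ((g' : M2) *ᵥ e1)

end Fermat.Agent.S41Lib
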