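import Fermat.Agent.S41.PD.Defs

/-!
# S41, Poincare duality block: further shared definitions
-/

set_option autoImplicit false
open scoped MatrixGroups
open Matrix ModularGroup CongruenceSubgroup

namespace Fermat.Agent.S41Lib

/-- `Γ`-invariant modular symbols on nonzero vectors -/
structure IsSym (Γ : Subgroup SL(2, ℤ)) (φ : V2 → V2 → ℤ) : Prop where
  add : ∀ u v w : V2, u ≠ 0 → v ≠ 0 → w ≠ 0 → φ u v + φ v w = φ u w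
  inv : ∀ h ∈ Γ, ∀ u v : V2, φ ((h : M2) *ᵥ u) ((h : M2) *ᵥ v) = φ u v
  smul_left : ∀ n : ℤ, n ≠ 0 → ∀ u v : V2, φ (n • u) v = φ u v
  smul_right : ∀ n : ℤ, n ≠ 0 → ∀ u v : V2, φ u (n • v) = φ u v

open Classical in
/-- indicator -/
noncomputable def ind (𝒟 : Set M2) (D : M2) : ℤ := if D ∈ 𝒟 then 1 else 0

/-- the coset `Γ k`, as a set of matrices, indexed by `x = k⁻¹ Γ` -/
def cst (Γ : Subgroup SL(2, ℤ)) (x : SL(2, ℤ) ⧸ Γ) : Set M2 :=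
  {D | ∃ k : SL(2, ℤ), (k : M2) = D ∧ ((k⁻¹ : SL(2, ℤ)) : SL(2, ℤ) ⧸ Γ) = x}

/-- weighted count of Farey edges separating `P` and `P'` -/
noncomputable def cm {A : Type} [AddCommGroup A] (Γ : Subgroup SL(2, ℤ)) [Fintype (SL(2, ℤ) ⧸ Γ)]
    (m : SL(2, ℤ) ⧸ Γ → A) (P P' : QF) : A := ∑ x, ccS (cst Γ x) e2 e1 P P' • m x

/-- Manin relations for an integral function on `Γ \ SL(2,ℤ)` -/
structure IsManin {Γ : Subgroup SL(2, ℤ)} (F : SL(2, ℤ) ⧸ Γ → ℤ) : Prop where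
  two : ∀ x, F (S⁻¹ • x) = -F x
  three : ∀ x, F x + F ((S * T : SL(2, ℤ))⁻¹ • x) +
    F ((S * T : SL(2, ℤ))⁻¹ • ((S * T : SL(2, ℤ))⁻¹ • x)) = 0

/-- `F_φ(k⁻¹Γ) = φ(k e₂, k e₁)` -/
noncomputable def FF (Γ : Subgroup SL(2, ℤ)) (φ : V2 → V2 → ℤ) (x : SL(2, ℤ) ⧸ Γ) : ℤ :=
  φ (((x.out)⁻¹ : SL(2, ℤ) ) *ᵥ e2) (((x.out)⁻¹ : SL(2, ℤ)) *ᵥ e1)

/-- integral versions of `heckeRep` -/
def hM (ℓ : ℕ) (x : OnePoint (ZMod ℓ)) : M2 :=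
  x.elim !![(ℓ : ℤ), 0; 0, 1] (fun j => !![1, (j.val : ℤ); 0, (ℓ : ℤ)])

/-- integral matrices of determinant `ℓ` and lower left entry divisible by `M` -/
def DeltaL (M ℓ : ℕ) : Set M2 := {D | D.det = ℓ ∧ (M : ℤ) ∣ D 1 0}

end Fermat.Agent.S41Lib
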