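import Fermat.Agent.S41.PD.Defs

/-!
# S41, Poincare duality block: (P1b2) the bound for separating geodesics
-/

set_option autoImplicit false
open scoped MatrixGroups
open Matrix

namespace Fermat.Agent.S41Lib

theorem P1b2_sign (b b' : ℤ) (h : Int.sign b' ≠ Int.sign b) :
    |b'| * b + |b| * b' = 0 ∧ 0 < |b'| + |b| := by
  rcases lt_trichotomy b 0 with hb | hb | hb <;> rcases lt_trichotomy b' 0 with hb' | hb' | hb'
  · exact absurd (by rw [Int.sign_eq_neg_one_of_neg hb, Int.sign_eq_neg_one_of_neg hb']) h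
  · subst hb'
    rw [abs_of_neg hb]
    constructor
    · simp
    · simp only [abs_zero, zero_add]; omega
  · rw [abs_of_neg hb, abs_of_pos hb']
    constructor
    · ring
    · omega
  · subst hb
    rw [abs_of_neg hb']
    constructor
    · simp
    · simp only [abs_zero, add_zero]; omega
  · subst hb; subst hb'
    exact absurd rfl h
  · subst hb
    rw [abs_of_pos hb']
    constructor
    · simp
    · simp only [abs_zero, add_zero]; omega
  · rw [abs_of_pos hb, abs_of_neg hb']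
    constructor
    · ring
    · omega
  · subst hb'
    rw [abs_of_pos hb]
    constructor
    · simp
    · simp only [abs_zero, zero_add]; omega
  · exact absurd (by rw [Int.sign_eq_one_of_pos hb, Int.sign_eq_one_of_pos hb']) h

theorem P1b2_bl_self_pos {P : QF} (hP : P.Pos) {u : V2} (hu : u ≠ 0) : 0 < P.bl u u := by
  obtain ⟨hA, hD⟩ := hP
  have h1 : 2 * P.A * P.bl u u =
      (2 * P.A * u 0 + P.B * u 1) ^ 2 + (4 * P.A * P.C - P.B ^ 2) * u 1 ^ 2 := by
    unfold QF.bl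
    ring
  have h2 : 0 < (2 * P.A * u 0 + P.B * u 1) ^ 2 + (4 * P.A * P.C - P.B ^ 2) * u 1 ^ 2 := by
    by_cases h : u 1 = 0
    · have h0 : u 0 ≠ 0 := by
        intro h0
        apply hu
        funext i
        fin_cases i
        · exact h0
        · exact h
      rw [h]
      have : 2 * P.A * u 0 ≠ 0 := mul_ne_zero (by omega) h0
      have := pow_pos (abs_pos.2 this) 2
      rw [sq_abs] at this
      simpa using this
    · have h3 : 0 < u 1 ^ 2 := by positivity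
      have h4 := mul_pos hD h3
      have h5 := sq_nonneg (2 * P.A * u 0 + P.B * u 1)
      omega
  rw [← h1] at h2
  exact (mul_pos_iff_of_pos_left (by omega : 0 < 2 * P.A)).1 h2

theorem P1b2_identity (P P' : QF) (s t : ℤ) (x y : V2) :
    (s * P.bl x x + t * P'.bl x x) * (s * P.bl y y + t * P'.bl y y) =
      (s * P.bl x y + t * P'.bl x y) ^ 2 +
        (s ^ 2 * (4 * P.A * P.C - P.B ^ 2) + t ^ 2 * (4 * P'.A * P'.C - P'.B ^ 2) +
          s * t * (4 * P.A * P'.C + 4 * P'.A * P.C - 2 * P.B * P'.B)) * dt x y ^ 2 := by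
  unfold QF.bl dt
  ring

/-- the arithmetic core -/
theorem P1b2_core (s t a a' c c' Δ Δ' M d : ℤ) (hs : 0 ≤ s) (ht : 0 ≤ t) (hst : 0 < s + t)
    (hΔ : 0 ≤ Δ) (hΔ' : 0 ≤ Δ') (hc : 1 ≤ c) (hc' : 1 ≤ c')
    (h : (s * a + t * a') * (s * c + t * c') = (s ^ 2 * Δ + t ^ 2 * Δ' + s * t * M) * d ^ 2) :
    a ≤ (Δ + Δ' + |M|) * d ^ 2 ∨ a' ≤ (Δ + Δ' + |M|) * d ^ 2 := by
  by_contra hcon
  push Not at hcon
  obtain ⟨h1, h2⟩ := hcon
  set K := (Δ + Δ' + |M|) * d ^ 2 with hK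
  have hK0 : 0 ≤ K := mul_nonneg (by positivity) (sq_nonneg d)
  have e1 : (s + t) * (K + 1) ≤ s * a + t * a' := by
    have := mul_le_mul_of_nonneg_left (show K + 1 ≤ a by omega) hs
    have := mul_le_mul_of_nonneg_left (show K + 1 ≤ a' by omega) ht
    linarith
  have e2 : s + t ≤ s * c + t * c' := by
    have := mul_le_mul_of_nonneg_left hc hs
    have := mul_le_mul_of_nonneg_left hc' ht
    linarith
  have e3 : (s + t) * (K + 1) * (s + t) ≤ (s * a + t * a') * (s * c + t * c') :=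
    mul_le_mul e1 e2 hst.le (le_trans (mul_nonneg hst.le (by omega)) e1)
  have e4 : s ^ 2 * Δ + t ^ 2 * Δ' + s * t * M ≤ (s + t) ^ 2 * (Δ + Δ' + |M|) := by
    have hM : M ≤ |M| := le_abs_self M
    have hM0 : 0 ≤ |M| := abs_nonneg M
    have hst0 : 0 ≤ s * t := mul_nonneg hs ht
    have i1 : s * t * M ≤ s * t * |M| := mul_le_mul_of_nonneg_left hM hst0
    have i2 : 0 ≤ s ^ 2 * (Δ' + |M|) := mul_nonneg (sq_nonneg s) (by omega)
    have i3 : 0 ≤ t ^ 2 * (Δ + |M|) := mul_nonneg (sq_nonneg t) (by omega)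
    have i4 : 0 ≤ s * t * (2 * Δ + 2 * Δ' + |M|) := mul_nonneg hst0 (by omega)
    nlinarith
  have e5 : (s ^ 2 * Δ + t ^ 2 * Δ' + s * t * M) * d ^ 2 ≤ (s + t) ^ 2 * K := by
    have := mul_le_mul_of_nonneg_right e4 (sq_nonneg d)
    rw [hK]
    linarith
  rw [h] at e3
  have e6 : 0 < (s + t) ^ 2 := by positivity
  nlinarith

/-- KEY: if `x y` are nonzero, `dt x y = d` and `sd P x y ≠ sd P' x y` then with `s = |P'.bl x y|`,
`t = |P.bl x y|` the form `R = s P + t P'` has `R.bl x y = 0`, so `R(x) R(y) = disc(R) d²`; as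
`R(w) ≥ (s+t) min(P(w),P'(w))` and `disc R ≤ (s+t)² K`: `min(..x) * min(..y) ≤ K d²`. -/
theorem bl_bound {P P' : QF} (hP : P.Pos) (hP' : P'.Pos) (d : ℤ) :
    ∃ K : ℤ, ∀ x y : V2, dt x y = d → sd P' x y ≠ sd P x y →
      (P.bl x x ≤ K ∨ P'.bl x x ≤ K) ∧ (P.bl y y ≤ K ∨ P'.bl y y ≤ K) := by
  refine ⟨((4 * P.A * P.C - P.B ^ 2) + (4 * P'.A * P'.C - P'.B ^ 2) +
    |4 * P.A * P'.C + 4 * P'.A * P.C - 2 * P.B * P'.B|) * d ^ 2, ?_⟩
  intro x y hd hsd
  have hd0 : d ≠ 0 := by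
    rintro rfl
    apply hsd
    unfold sd
    rw [hd, mul_zero, mul_zero]
  have hx : x ≠ 0 := by
    rintro rfl
    apply hd0
    rw [← hd]
    simp [dt]
  have hy : y ≠ 0 := by
    rintro rfl
    apply hd0
    rw [← hd]
    simp [dt]
  have hsign : Int.sign (P'.bl x y) ≠ Int.sign (P.bl x y) := by
    intro h
    apply hsd
    unfold sd
    rw [Int.sign_mul, Int.sign_mul, h]
  obtain ⟨h0, hpos⟩ := P1b2_sign _ _ hsign
  have hid := P1b2_identity P P' |P'.bl x y| |P.bl x y| x y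
  rw [h0, hd] at hid
  have hid' : (|P'.bl x y| * P.bl x x + |P.bl x y| * P'.bl x x) *
      (|P'.bl x y| * P.bl y y + |P.bl x y| * P'.bl y y) =
      (|P'.bl x y| ^ 2 * (4 * P.A * P.C - P.B ^ 2) + |P.bl x y| ^ 2 * (4 * P'.A * P'.C - P'.B ^ 2) +
          |P'.bl x y| * |P.bl x y| * (4 * P.A * P'.C + 4 * P'.A * P.C - 2 * P.B * P'.B)) * d ^ 2 := by
    rw [hid]
    ring
  have hxx := P1b2_bl_self_pos hP hx
  have hxx' := P1b2_bl_self_pos hP' hx
  have hyy := P1b2_bl_self_pos hP hy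
  have hyy' := P1b2_bl_self_pos hP' hy
  constructor
  · exact P1b2_core _ _ _ _ _ _ _ _ _ d (abs_nonneg _) (abs_nonneg _) hpos hP.2.le hP'.2.le
      hyy hyy' hid'
  · refine P1b2_core _ _ _ _ _ _ _ _ _ d (abs_nonneg _) (abs_nonneg _) hpos hP.2.le hP'.2.le
      hxx hxx' ?_
    rw [mul_comm]
    exact hid'

end Fermat.Agent.S41Lib
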