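import Fermat.Agent.S41.PD.Basic
import Fermat.Agent.S41.PD.FinBound

/-!
# S41, Poincare duality block: (P1b1) finiteness
-/

set_option autoImplicit false
open scoped MatrixGroups
open Matrix

namespace Fermat.Agent.S41Lib

theorem P1b1_abs_le_sq (n : ℤ) : -(n ^ 2) ≤ n ∧ n ≤ n ^ 2 := by
  have h1 := Int.le_self_sq n
  have h2 := Int.le_self_sq (-n)
  rw [neg_sq] at h2
  constructor <;> omega

theorem finite_bl_le {P : QF} (hP : P.Pos) (K : ℤ) : {w : V2 | P.bl w w ≤ K}.Finite := by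
  obtain ⟨hA, hD⟩ := hP
  have hC : 0 < P.C := by
    have h1 : 0 < 4 * P.A * P.C := by
      have := sq_nonneg P.B
      omega
    have h2 : 0 < P.A * P.C := by linarith
    exact (mul_pos_iff_of_pos_left hA).1 h2
  refine (Set.finite_Icc (fun _ : Fin 2 => -(2 * P.A * K + 2 * P.C * K))
    (fun _ : Fin 2 => 2 * P.A * K + 2 * P.C * K)).subset ?_
  intro w hw
  have hw' : P.bl w w ≤ K := hw
  have h1 : 2 * P.A * P.bl w w =
      (2 * P.A * w 0 + P.B * w 1) ^ 2 + (4 * P.A * P.C - P.B ^ 2) * w 1 ^ 2 := by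
    unfold QF.bl
    ring
  have h2 : 2 * P.C * P.bl w w =
      (2 * P.C * w 1 + P.B * w 0) ^ 2 + (4 * P.A * P.C - P.B ^ 2) * w 0 ^ 2 := by
    unfold QF.bl
    ring
  have b1 : w 1 ^ 2 ≤ 2 * P.A * K := by
    have i1 : 2 * P.A * P.bl w w ≤ 2 * P.A * K := mul_le_mul_of_nonneg_left hw' (by omega)
    have i2 := sq_nonneg (2 * P.A * w 0 + P.B * w 1)
    have i3 : 1 * w 1 ^ 2 ≤ (4 * P.A * P.C - P.B ^ 2) * w 1 ^ 2 :=
      mul_le_mul_of_nonneg_right (by omega) (sq_nonneg _)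
    linarith
  have b0 : w 0 ^ 2 ≤ 2 * P.C * K := by
    have i1 : 2 * P.C * P.bl w w ≤ 2 * P.C * K := mul_le_mul_of_nonneg_left hw' (by omega)
    have i2 := sq_nonneg (2 * P.C * w 1 + P.B * w 0)
    have i3 : 1 * w 0 ^ 2 ≤ (4 * P.A * P.C - P.B ^ 2) * w 0 ^ 2 :=
      mul_le_mul_of_nonneg_right (by omega) (sq_nonneg _)
    linarith
  have s0 := sq_nonneg (w 0)
  have s1 := sq_nonneg (w 1)
  obtain ⟨l0, u0⟩ := P1b1_abs_le_sq (w 0)
  obtain ⟨l1, u1⟩ := P1b1_abs_le_sq (w 1)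
  rw [Set.mem_Icc, Pi.le_def, Pi.le_def]
  constructor
  · intro i
    fin_cases i
    · show -(2 * P.A * K + 2 * P.C * K) ≤ w 0
      linarith
    · show -(2 * P.A * K + 2 * P.C * K) ≤ w 1
      linarith
  · intro i
    fin_cases i
    · show w 0 ≤ 2 * P.A * K + 2 * P.C * K
      linarith
    · show w 1 ≤ 2 * P.A * K + 2 * P.C * K
      linarith

/-- a matrix is determined by its values on two independent vectors -/
theorem mulVec_injOn {u v : V2} (h : dt u v ≠ 0) :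
    Function.Injective fun D : M2 => (D *ᵥ u, D *ᵥ v) := by
  intro D D' hDD
  have hu : D *ᵥ u = D' *ᵥ u := congrArg Prod.fst hDD
  have hv : D *ᵥ v = D' *ᵥ v := congrArg Prod.snd hDD
  have key : ∀ a b a' b' : ℤ, a * u 0 + b * u 1 = a' * u 0 + b' * u 1 →
      a * v 0 + b * v 1 = a' * v 0 + b' * v 1 → a = a' ∧ b = b' := by
    intro a b a' b' e1 e2
    have f1 : (a - a') * dt u v = 0 := by
      unfold dt
      linear_combination v 1 * e1 - u 1 * e2
    have f2 : (b - b') * dt u v = 0 := by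
      unfold dt
      linear_combination u 0 * e2 - v 0 * e1
    constructor
    · have := (mul_eq_zero.1 f1).resolve_right h
      omega
    · have := (mul_eq_zero.1 f2).resolve_right h
      omega
  have r0 := key (D 0 0) (D 0 1) (D' 0 0) (D' 0 1)
    (by rw [← PB_mulVec0, ← PB_mulVec0, hu]) (by rw [← PB_mulVec0, ← PB_mulVec0, hv])
  have r1 := key (D 1 0) (D 1 1) (D' 1 0) (D' 1 1)
    (by rw [← PB_mulVec1, ← PB_mulVec1, hu]) (by rw [← PB_mulVec1, ← PB_mulVec1, hv])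
  ext i j
  fin_cases i <;> fin_cases j
  · exact r0.1
  · exact r0.2
  · exact r1.1
  · exact r1.2

theorem finite_dsd {P P' : QF} (hP : P.Pos) (hP' : P'.Pos) (u v : V2) (n : ℤ) :
    {D : M2 | D.det = n ∧ dsd P P' (D *ᵥ u) (D *ᵥ v) ≠ 0}.Finite := by
  by_cases h : dt u v = 0
  · have : {D : M2 | D.det = n ∧ dsd P P' (D *ᵥ u) (D *ᵥ v) ≠ 0} = ∅ := by
      rw [Set.eq_empty_iff_forall_notMem]
      rintro D ⟨-, hD⟩
      apply hD
      have h0 : dt (D *ᵥ u) (D *ᵥ v) = 0 := by rw [dt_mulVec, h, mul_zero]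
      unfold dsd
      rw [sd_of_dt_eq_zero P h0, sd_of_dt_eq_zero P' h0, sub_self]
    rw [this]
    exact Set.finite_empty
  · obtain ⟨K, hK⟩ := bl_bound hP hP' (n * dt u v)
    have hS : ({w : V2 | P.bl w w ≤ K} ∪ {w : V2 | P'.bl w w ≤ K}).Finite :=
      (finite_bl_le hP K).union (finite_bl_le hP' K)
    refine ((hS.prod hS).preimage ((mulVec_injOn h).injOn)).subset ?_
    rintro D ⟨hn, hD⟩
    have h1 := hK (D *ᵥ u) (D *ᵥ v) (by rw [dt_mulVec, hn]) (fun e => hD (by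
      unfold dsd
      rw [e, sub_self]))
    exact ⟨h1.1, h1.2⟩

end Fermat.Agent.S41Lib
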