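import Fermat.Agent.S41.PD.JJ
import Fermat.Prelude.Def_ModularCurve_PeriodHomPair

/-!
# S41, Poincare duality block: the orientation reversing involution `ι = diag(-1, 1)`

`JJ (ι g ι) (ι g' ι) = - JJ g g'`.
-/

set_option autoImplicit false
open scoped MatrixGroups
open Matrix ModularGroup CongruenceSubgroup ModularCurve.Period

namespace Fermat.Agent.S41Lib

/-- `P ↦ P ∘ ι` -/
def PF_fl (P : QF) : QF := ⟨P.A, -P.B, P.C⟩

/-- `u ↦ ι u` -/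
def PF_jv (u : V2) : V2 := ![-u 0, u 1]

theorem PF_fl_pos {P : QF} (hP : P.Pos) : (PF_fl P).Pos := by
  obtain ⟨h1, h2⟩ := hP
  refine ⟨h1, ?_⟩
  simp only [PF_fl]
  linarith [neg_sq P.B]

theorem PF_sd (P : QF) (u v : V2) : sd P (PF_jv u) (PF_jv v) = -sd (PF_fl P) u v := by
  unfold sd
  rw [← Int.sign_neg]
  congr 1
  simp only [QF.bl, dt, PF_fl, PF_jv, Matrix.cons_val_zero, Matrix.cons_val_one]
  ring

theorem PF_dsd (P P' : QF) (u v : V2) :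
    dsd P P' (PF_jv u) (PF_jv v) = -dsd (PF_fl P) (PF_fl P') u v := by
  unfold dsd
  rw [PF_sd, PF_sd]
  ring

theorem PF_mulVec (A : M2) (u : V2) : jConjMat A *ᵥ PF_jv u = PF_jv (A *ᵥ u) := by
  ext i
  fin_cases i
  · show (jConjMat A *ᵥ PF_jv u) 0 = (PF_jv (A *ᵥ u)) 0
    rw [PB_mulVec0]
    simp only [PF_jv, Matrix.cons_val_zero, Matrix.cons_val_one, jConjMat_apply_zero_zero,
      jConjMat_apply_zero_one, PB_mulVec0]
    ring
  · show (jConjMat A *ᵥ PF_jv u) 1 = (PF_jv (A *ᵥ u)) 1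
    rw [PB_mulVec1]
    simp only [PF_jv, Matrix.cons_val_zero, Matrix.cons_val_one, jConjMat_apply_one_zero,
      jConjMat_apply_one_one, PB_mulVec1]
    ring

theorem PF_fl_act (P : QF) (A : M2) : PF_fl (P.act (jConjMat A)) = (PF_fl P).act A := by
  ext <;> simp only [PF_fl, QF.act, jConjMat_apply_zero_zero, jConjMat_apply_zero_one,
    jConjMat_apply_one_zero, jConjMat_apply_one_one] <;> ring

theorem PF_image_mset {Γ : Subgroup SL(2, ℤ)} (hΓ : ∀ h ∈ Γ, jConjSL h ∈ Γ) :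
    jConjMat '' mset Γ = mset Γ := by
  ext D
  constructor
  · rintro ⟨_, ⟨h, hh, rfl⟩, rfl⟩
    exact ⟨jConjSL h, hΓ h hh, rfl⟩
  · rintro ⟨h, hh, rfl⟩
    refine ⟨_, ⟨jConjSL h, hΓ h hh, rfl⟩, ?_⟩
    simp only [jConjSL_coe, jConjMat_jConjMat]

theorem PF_ccS {Γ : Subgroup SL(2, ℤ)} (hΓ : ∀ h ∈ Γ, jConjSL h ∈ Γ) (u v : V2) (P P' : QF) :
    ccS (mset Γ) (PF_jv u) (PF_jv v) P P' = -ccS (mset Γ) u v (PF_fl P) (PF_fl P') := by
  have hinj : Set.InjOn jConjMat (mset Γ) := by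
    intro a _ b _ hab
    rw [← jConjMat_jConjMat a, hab, jConjMat_jConjMat]
  unfold ccS
  rw [← PC_finsum_mem_neg]
  conv_lhs => rw [← PF_image_mset hΓ]
  rw [finsum_mem_image hinj]
  refine finsum_mem_congr rfl fun D _ => ?_
  rw [PF_mulVec, PF_mulVec, PF_dsd]

theorem PF_jv_e1 : PF_jv e1 = (-1 : ℤ) • e1 := by
  ext i
  fin_cases i <;> simp [PF_jv, e1]

theorem PF_jv_smul (n : ℤ) (u : V2) : PF_jv (n • u) = n • PF_jv u := by
  ext i
  fin_cases i <;> simp [PF_jv]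

theorem PF_jv_jv (u : V2) : PF_jv (PF_jv u) = u := by
  ext i
  fin_cases i <;> simp [PF_jv]

/-- (i1) -/
theorem JJ_flip {Γ : Subgroup SL(2, ℤ)} (hΓ : ∀ h ∈ Γ, jConjSL h ∈ Γ) {g : SL(2, ℤ)} (hg : g ∈ Γ)
    (g' : SL(2, ℤ)) : JJ Γ (jConjSL g) (jConjSL g') = -JJ Γ g g' := by
  have hm1 : (-1 : ℤ) ≠ 0 := by norm_num
  have h1 : e1 = (-1 : ℤ) • PF_jv e1 := by
    rw [PF_jv_e1, smul_smul]
    norm_num
  have h2 : ((jConjSL g' : SL(2, ℤ)) : M2) *ᵥ e1 = (-1 : ℤ) • PF_jv ((g' : M2) *ᵥ e1) := by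
    conv_lhs => rw [h1]
    rw [Matrix.mulVec_smul, jConjSL_coe, PF_mulVec]
  unfold JJ sym
  rw [h2]
  conv_lhs => rw [h1]
  rw [ccS_smul_left _ hm1, ccS_smul_right _ hm1, PF_ccS hΓ, jConjSL_coe, PF_fl_act,
    ccS_loop_base hg _ _ (PF_fl_pos P0_pos) P0_pos, ← h1]

end Fermat.Agent.S41Lib
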