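import Fermat.Agent.S41.PD.Sym
import Fermat.Agent.S41.PD.JJ
import Fermat.Prelude.Def_ModularCurve_PeriodHomPair

/-!
# S41, Poincare duality block, (i1): the intersection pairing is odd under `diag(-1,1)`
-/

set_option autoImplicit false
open scoped MatrixGroups
open Matrix ModularGroup CongruenceSubgroup ModularCurve.Period

namespace Fermat.Agent.S41Lib

/-- the reflection on vectors -/
def Io_cj (v : V2) : V2 := ![v 0, -v 1]

/-- the reflection on forms -/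
def Io_cjQ (P : QF) : QF := ⟨P.A, -P.B, P.C⟩

theorem Io_mulVec (D : M2) (v : V2) : jConjMat D *ᵥ Io_cj v = Io_cj (D *ᵥ v) := by
  ext i
  fin_cases i
  · show (jConjMat D *ᵥ Io_cj v) 0 = (Io_cj (D *ᵥ v)) 0
    rw [PB_mulVec0]
    simp only [Io_cj, Matrix.cons_val_zero, Matrix.cons_val_one, jConjMat_apply_zero_zero,
      jConjMat_apply_zero_one, PB_mulVec0]
    ring
  · show (jConjMat D *ᵥ Io_cj v) 1 = (Io_cj (D *ᵥ v)) 1
    rw [PB_mulVec1]
    simp only [Io_cj, Matrix.cons_val_zero, Matrix.cons_val_one, jConjMat_apply_one_zero,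
      jConjMat_apply_one_one, PB_mulVec1]
    ring

theorem Io_sd (P : QF) (u v : V2) : sd (Io_cjQ P) (Io_cj u) (Io_cj v) = -sd P u v := by
  unfold sd
  have h1 : (Io_cjQ P).bl (Io_cj u) (Io_cj v) = P.bl u v := by
    simp only [QF.bl, Io_cjQ, Io_cj, Matrix.cons_val_zero, Matrix.cons_val_one]
    ring
  have h2 : dt (Io_cj u) (Io_cj v) = -dt u v := by
    simp only [dt, Io_cj, Matrix.cons_val_zero, Matrix.cons_val_one]
    ring
  rw [h1, h2, mul_neg, Int.sign_neg]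

theorem Io_act (P : QF) (g : M2) : Io_cjQ (P.act g) = (Io_cjQ P).act (jConjMat g) := by
  ext <;> simp only [QF.act, Io_cjQ, jConjMat_apply_zero_zero, jConjMat_apply_zero_one,
    jConjMat_apply_one_zero, jConjMat_apply_one_one] <;> ring

theorem Io_cjQ_cjQ (P : QF) : Io_cjQ (Io_cjQ P) = P := by
  ext <;> simp [Io_cjQ]

theorem Io_e1 : Io_cj e1 = e1 := by
  ext i
  fin_cases i <;> simp [Io_cj, e1]

theorem Io_injective : Function.Injective jConjMat := fun A B h => by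
  rw [← jConjMat_jConjMat A, h, jConjMat_jConjMat]

theorem Io_ccS (𝒟 : Set M2) (u v : V2) (P P' : QF) :
    ccS (jConjMat '' 𝒟) (Io_cj u) (Io_cj v) (Io_cjQ P) (Io_cjQ P') = -ccS 𝒟 u v P P' := by
  unfold ccS
  rw [finsum_mem_image Io_injective.injOn, ← PC_finsum_mem_neg]
  refine finsum_mem_congr rfl fun D _ => ?_
  unfold dsd
  rw [Io_mulVec, Io_mulVec, Io_sd, Io_sd]
  ring

theorem Io_mset (M : ℕ) : jConjMat '' mset (Gamma0 M) = mset (Gamma0 M) := by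
  ext D
  constructor
  · rintro ⟨_, ⟨h, hh, rfl⟩, rfl⟩
    exact ⟨jConjSL h, jConjSL_mem_Gamma0 hh, rfl⟩
  · rintro ⟨h, hh, rfl⟩
    refine ⟨_, ⟨jConjSL h, jConjSL_mem_Gamma0 hh, rfl⟩, ?_⟩
    simp only [jConjSL_coe, jConjMat_jConjMat]

theorem Io_pos : (Io_cjQ P0).Pos := by
  constructor <;> norm_num [Io_cjQ, P0]

/-- (i1) -/
theorem JJ_io (M : ℕ) (g g' : Gamma0 M) :
    JJ (Gamma0 M) (jConjGamma0 M g : SL(2, ℤ)) (jConjGamma0 M g' : SL(2, ℤ))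
      = -JJ (Gamma0 M) (g : SL(2, ℤ)) (g' : SL(2, ℤ)) := by
  unfold JJ sym
  rw [jConjGamma0_coe, jConjGamma0_coe, jConjSL_coe, jConjSL_coe]
  have h1 : jConjMat ((g' : SL(2, ℤ)) : M2) *ᵥ e1 = Io_cj (((g' : SL(2, ℤ)) : M2) *ᵥ e1) := by
    rw [← Io_mulVec, Io_e1]
  have h2 : P0.act (jConjMat ((g : SL(2, ℤ)) : M2))
      = Io_cjQ ((Io_cjQ P0).act ((g : SL(2, ℤ)) : M2)) := by
    rw [Io_act, Io_cjQ_cjQ]
  have h3 : ccS (mset (Gamma0 M)) e1 (jConjMat ((g' : SL(2, ℤ)) : M2) *ᵥ e1) P0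
      (P0.act (jConjMat ((g : SL(2, ℤ)) : M2)))
      = ccS (jConjMat '' mset (Gamma0 M)) (Io_cj e1) (Io_cj (((g' : SL(2, ℤ)) : M2) *ᵥ e1))
        (Io_cjQ (Io_cjQ P0)) (Io_cjQ ((Io_cjQ P0).act ((g : SL(2, ℤ)) : M2))) := by
    rw [Io_mset, Io_e1, Io_cjQ_cjQ, h1, h2]
  rw [h3, Io_ccS, ccS_loop_base g.2 _ _ Io_pos P0_pos]

end Fermat.Agent.S41Lib
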