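import Fermat.Agent.S41.PD.Basic

/-!
# S41, Poincare duality block, (P2a): the triangle function `t3`
-/

set_option autoImplicit false
open scoped MatrixGroups
open Matrix

namespace Fermat.Agent.S41Lib

def t3 (P : QF) (u v w : V2) : ℤ := sd P u v + sd P v w + sd P w u
def or3 (u v w : V2) : ℤ := Int.sign (dt u v * dt v w * dt w u)

/-- Pluecker -/
theorem pluecker (u v w : V2) : dt u v • w + dt v w • u + dt w u • v = 0 := by
  funext i
  fin_cases i
  · simp only [dt, Pi.add_apply, Pi.smul_apply, smul_eq_mul, Pi.zero_apply, Fin.zero_eta]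
    ring
  · simp only [dt, Pi.add_apply, Pi.smul_apply, smul_eq_mul, Pi.zero_apply, Fin.mk_one]
    ring

/-- `p bl(w,v) + q bl(u,v) + r bl(v,v) = 0` -/
theorem bl_pluecker (P : QF) (u v w : V2) :
    dt u v * P.bl w v + dt v w * P.bl u v + dt w u * P.bl v v = 0 := by
  simp only [dt, QF.bl]
  ring

/-- the cotangent identity `X₁X₂ + X₂X₃ + X₃X₁ = 1` -/
theorem cot_identity (P : QF) (u v w : V2) :
    P.bl u v * P.bl v w * dt w u + P.bl v w * P.bl w u * dt u v + P.bl w u * P.bl u v * dt v w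
      = (4 * P.A * P.C - P.B ^ 2) * (dt u v * dt v w * dt w u) := by
  simp only [dt, QF.bl]
  ring

theorem P2a_min {x y z Δ : ℚ} (hx : 0 < x) (hy : 0 < y) (hz : 0 < z)
    (h : x * y + y * z + z * x = Δ) :
    3 * x ^ 2 ≤ Δ ∨ 3 * y ^ 2 ≤ Δ ∨ 3 * z ^ 2 ≤ Δ := by
  rcases le_total x y with h1 | h1
  · rcases le_total x z with h2 | h2
    · left
      nlinarith [mul_le_mul h1 h2 hx.le hy.le, mul_le_mul_of_nonneg_left h1 hx.le,
        mul_le_mul_of_nonneg_left h2 hx.le]
    · right; right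
      have h3 : z ≤ y := h2.trans h1
      nlinarith [mul_le_mul h2 h3 hz.le hx.le, mul_le_mul_of_nonneg_left h2 hz.le,
        mul_le_mul_of_nonneg_left h3 hz.le]
  · rcases le_total y z with h2 | h2
    · right; left
      nlinarith [mul_le_mul h1 h2 hy.le hx.le, mul_le_mul_of_nonneg_left h1 hy.le,
        mul_le_mul_of_nonneg_left h2 hy.le]
    · right; right
      have h3 : z ≤ x := h2.trans h1
      nlinarith [mul_le_mul h2 h3 hz.le hy.le, mul_le_mul_of_nonneg_left h2 hz.le,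
        mul_le_mul_of_nonneg_left h3 hz.le]

theorem P2a_le_of_div {a p Δ : ℤ} (hp : p ≠ 0) (h : 3 * ((a : ℚ) / p) ^ 2 ≤ Δ) :
    3 * a ^ 2 ≤ Δ * p ^ 2 := by
  have hp' : (0 : ℚ) < (p : ℚ) ^ 2 := by positivity
  have h1 : (3 * (a : ℚ) ^ 2) ≤ Δ * (p : ℚ) ^ 2 := by
    rw [div_pow, ← mul_div_assoc, div_le_iff₀ hp'] at h
    exact h
  exact_mod_cast h1

theorem P2a_le_of_neg_div {a p Δ : ℤ} (hp : p ≠ 0) (h : 3 * (-((a : ℚ) / p)) ^ 2 ≤ Δ) :
    3 * a ^ 2 ≤ Δ * p ^ 2 := by
  rw [neg_sq] at h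
  exact P2a_le_of_div hp h

theorem P2a_div_pos {a p : ℤ} (h : 0 < a * p) : (0 : ℚ) < (a : ℚ) / p := by
  have h' : (0 : ℚ) < (a : ℚ) * p := by exact_mod_cast h
  rcases (mul_pos_iff.1 h') with ⟨h1, h2⟩ | ⟨h1, h2⟩
  · exact div_pos h1 h2
  · exact div_pos_of_neg_of_neg h1 h2

theorem P2a_div_neg {a p : ℤ} (h : a * p < 0) : (0 : ℚ) < -((a : ℚ) / p) := by
  have h' : 0 < (-a) * p := by linarith
  have := P2a_div_pos h'
  rw [Int.cast_neg, neg_div] at this
  exact this

theorem P2a_contra {s t x y π V : ℤ} (hs : 0 < s) (ht : 0 < t) (hV : 0 < V)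
    (F : s * x + t * y = -(π * V)) :
    (π < 0 → x < 0 → y < 0 → False) ∧ (0 < π → 0 < x → 0 < y → False) := by
  constructor
  · intro h1 h2 h3
    have a1 := mul_neg_of_pos_of_neg hs h2
    have a2 := mul_neg_of_pos_of_neg ht h3
    have a3 := mul_neg_of_neg_of_pos h1 hV
    linarith
  · intro h1 h2 h3
    have a1 := mul_pos hs h2
    have a2 := mul_pos ht h3
    have a3 := mul_pos h1 hV
    linarith

theorem P2a_abs {a b c p q r Δ U V W : ℤ} (hp : p ≠ 0) (hq : q ≠ 0) (hr : r ≠ 0) (hΔ : 0 < Δ)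
    (hU : 0 < U) (hV : 0 < V) (hW : 0 < W)
    (e1 : p * b + q * a + r * V = 0) (e2 : q * c + r * b + p * W = 0)
    (e3 : r * a + p * c + q * U = 0)
    (cot : a * b * r + b * c * p + c * a * q = Δ * (p * q * r))
    (h : Int.sign (a * p) + Int.sign (b * q) + Int.sign (c * r) + Int.sign (p * q * r) ≠ 0) :
    3 * a ^ 2 ≤ Δ * p ^ 2 ∨ 3 * b ^ 2 ≤ Δ * q ^ 2 ∨ 3 * c ^ 2 ≤ Δ * r ^ 2 := by
  by_cases ha : a = 0
  · left
    rw [ha]
    positivity
  by_cases hb : b = 0
  · right; left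
    rw [hb]
    positivity
  by_cases hc : c = 0
  · right; right
    rw [hc]
    positivity
  have F1 : p ^ 2 * (b * q) + q ^ 2 * (a * p) = -((p * q * r) * V) := by
    linear_combination (p * q) * e1
  have F2 : q ^ 2 * (c * r) + r ^ 2 * (b * q) = -((p * q * r) * W) := by
    linear_combination (q * r) * e2
  have F3 : r ^ 2 * (a * p) + p ^ 2 * (c * r) = -((p * q * r) * U) := by
    linear_combination (r * p) * e3
  have hp2 : 0 < p ^ 2 := by positivity
  have hq2 : 0 < q ^ 2 := by positivity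
  have hr2 : 0 < r ^ 2 := by positivity
  have hα : a * p ≠ 0 := mul_ne_zero ha hp
  have hβ : b * q ≠ 0 := mul_ne_zero hb hq
  have hγ : c * r ≠ 0 := mul_ne_zero hc hr
  have hπ : p * q * r ≠ 0 := mul_ne_zero (mul_ne_zero hp hq) hr
  have cotQ : ((a : ℚ) / p) * ((b : ℚ) / q) + ((b : ℚ) / q) * ((c : ℚ) / r)
      + ((c : ℚ) / r) * ((a : ℚ) / p) = Δ := by
    have hp' : (p : ℚ) ≠ 0 := by exact_mod_cast hp
    have hq' : (q : ℚ) ≠ 0 := by exact_mod_cast hq
    have hr' : (r : ℚ) ≠ 0 := by exact_mod_cast hr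
    have cot' : (a : ℚ) * b * r + b * c * p + c * a * q = Δ * (p * q * r) := by exact_mod_cast cot
    field_simp
    linear_combination cot'
  have C1 := P2a_contra hp2 hq2 hV F1
  have C2 := P2a_contra hq2 hr2 hW F2
  have C3 := P2a_contra hr2 hp2 hU F3
  rcases lt_or_gt_of_ne hπ with hπ' | hπ'
  · rw [Int.sign_eq_neg_one_of_neg hπ'] at h
    rcases lt_or_gt_of_ne hα with hα' | hα'
    · rcases lt_or_gt_of_ne hβ with hβ' | hβ'
      · exact (C1.1 hπ' hβ' hα').elim
      · rcases lt_or_gt_of_ne hγ with hγ' | hγ'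
        · exact (C3.1 hπ' hα' hγ').elim
        · rw [Int.sign_eq_neg_one_of_neg hα', Int.sign_eq_one_of_pos hβ',
            Int.sign_eq_one_of_pos hγ'] at h
          exact (h (by norm_num)).elim
    · rcases lt_or_gt_of_ne hβ with hβ' | hβ'
      · rcases lt_or_gt_of_ne hγ with hγ' | hγ'
        · exact (C2.1 hπ' hγ' hβ').elim
        · rw [Int.sign_eq_one_of_pos hα', Int.sign_eq_neg_one_of_neg hβ',
            Int.sign_eq_one_of_pos hγ'] at h
          exact (h (by norm_num)).elim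
      · rcases lt_or_gt_of_ne hγ with hγ' | hγ'
        · rw [Int.sign_eq_one_of_pos hα', Int.sign_eq_one_of_pos hβ',
            Int.sign_eq_neg_one_of_neg hγ'] at h
          exact (h (by norm_num)).elim
        · rcases P2a_min (P2a_div_pos hα') (P2a_div_pos hβ') (P2a_div_pos hγ') cotQ with
            h1 | h1 | h1
          · exact Or.inl (P2a_le_of_div hp h1)
          · exact Or.inr (Or.inl (P2a_le_of_div hq h1))
          · exact Or.inr (Or.inr (P2a_le_of_div hr h1))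
  · rw [Int.sign_eq_one_of_pos hπ'] at h
    rcases lt_or_gt_of_ne hα with hα' | hα'
    · rcases lt_or_gt_of_ne hβ with hβ' | hβ'
      · rcases lt_or_gt_of_ne hγ with hγ' | hγ'
        · have cotQ' : (-((a : ℚ) / p)) * (-((b : ℚ) / q)) + (-((b : ℚ) / q)) * (-((c : ℚ) / r))
              + (-((c : ℚ) / r)) * (-((a : ℚ) / p)) = Δ := by
            rw [← cotQ]
            ring
          rcases P2a_min (P2a_div_neg hα') (P2a_div_neg hβ') (P2a_div_neg hγ') cotQ' with
            h1 | h1 | h1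
          · exact Or.inl (P2a_le_of_neg_div hp h1)
          · exact Or.inr (Or.inl (P2a_le_of_neg_div hq h1))
          · exact Or.inr (Or.inr (P2a_le_of_neg_div hr h1))
        · rw [Int.sign_eq_neg_one_of_neg hα', Int.sign_eq_neg_one_of_neg hβ',
            Int.sign_eq_one_of_pos hγ'] at h
          exact (h (by norm_num)).elim
      · rcases lt_or_gt_of_ne hγ with hγ' | hγ'
        · rw [Int.sign_eq_neg_one_of_neg hα', Int.sign_eq_one_of_pos hβ',
            Int.sign_eq_neg_one_of_neg hγ'] at h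
          exact (h (by norm_num)).elim
        · exact (C2.2 hπ' hγ' hβ').elim
    · rcases lt_or_gt_of_ne hβ with hβ' | hβ'
      · rcases lt_or_gt_of_ne hγ with hγ' | hγ'
        · rw [Int.sign_eq_one_of_pos hα', Int.sign_eq_neg_one_of_neg hβ',
            Int.sign_eq_neg_one_of_neg hγ'] at h
          exact (h (by norm_num)).elim
        · exact (C3.2 hπ' hα' hγ').elim
      · exact (C1.2 hπ' hβ' hα').elim

theorem P2a_ne_zero_left {u v : V2} (h : dt u v ≠ 0) : u ≠ 0 := by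
  rintro rfl
  exact h (by simp [dt])

/-- outside of the closed triangle `t3 = - or3`; inside, one side is `close`:
`3 bl² ≤ disc dt²` -/
theorem t3_cases {P : QF} (hP : P.Pos) {u v w : V2} (h1 : dt u v ≠ 0) (h2 : dt v w ≠ 0)
    (h3 : dt w u ≠ 0) (h : t3 P u v w + or3 u v w ≠ 0) :
    3 * P.bl u v ^ 2 ≤ (4 * P.A * P.C - P.B ^ 2) * dt u v ^ 2 ∨
    3 * P.bl v w ^ 2 ≤ (4 * P.A * P.C - P.B ^ 2) * dt v w ^ 2 ∨
    3 * P.bl w u ^ 2 ≤ (4 * P.A * P.C - P.B ^ 2) * dt w u ^ 2 := by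
  have e1 := bl_pluecker P u v w
  have e2 := bl_pluecker P v w u
  have e3 := bl_pluecker P w u v
  rw [bl_symm P w v] at e1
  rw [bl_symm P u w] at e2
  rw [bl_symm P v u] at e3
  exact P2a_abs h1 h2 h3 hP.2 (bl_self_pos hP (P2a_ne_zero_left h1))
    (bl_self_pos hP (P2a_ne_zero_left h2)) (bl_self_pos hP (P2a_ne_zero_left h3)) e1 e2 e3
    (cot_identity P u v w) h

end Fermat.Agent.S41Lib
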