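import Fermat.Agent.S41.PD.Tri
import Fermat.Agent.S41.PD.Fin

/-!
# S41, Poincare duality block, (P2b): `t3 + or3` has finite support on matrices of given determinant
-/

set_option autoImplicit false
open scoped MatrixGroups
open Matrix

namespace Fermat.Agent.S41Lib

theorem P2b_ne_zero_right {u v : V2} (h : dt u v ≠ 0) : v ≠ 0 := by
  rintro rfl
  exact h (by simp [dt])

theorem P2b_finite {P : QF} (hP : P.Pos) {u v : V2} (h : dt u v ≠ 0) {n : ℤ} (hn : n ≠ 0) :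
    {D : M2 | D.det = n ∧ 3 * P.bl (D *ᵥ u) (D *ᵥ v) ^ 2 ≤
      (4 * P.A * P.C - P.B ^ 2) * dt (D *ᵥ u) (D *ᵥ v) ^ 2}.Finite := by
  set K : ℤ := 2 * ((4 * P.A * P.C - P.B ^ 2) * (n * dt u v) ^ 2) with hK
  have hfin := (finite_bl_le hP K).prod (finite_bl_le hP K)
  refine (hfin.preimage ((mulVec_injOn h).injOn)).subset ?_
  rintro D ⟨hD, hle⟩
  have hd : dt (D *ᵥ u) (D *ᵥ v) = n * dt u v := by rw [dt_mulVec, hD]
  have hd0 : dt (D *ᵥ u) (D *ᵥ v) ≠ 0 := by rw [hd]; exact mul_ne_zero hn h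
  have hx : 0 < P.bl (D *ᵥ u) (D *ᵥ u) := bl_self_pos hP (P2a_ne_zero_left hd0)
  have hy : 0 < P.bl (D *ᵥ v) (D *ᵥ v) := bl_self_pos hP (P2b_ne_zero_right hd0)
  have hsq := bl_sq P (D *ᵥ u) (D *ᵥ v)
  rw [hd] at hsq hle
  have hprod : P.bl (D *ᵥ u) (D *ᵥ u) * P.bl (D *ᵥ v) (D *ᵥ v) ≤ K := by
    rw [hsq, hK]
    linarith [sq_nonneg (P.bl (D *ᵥ u) (D *ᵥ v))]
  simp only [Set.mem_preimage, Set.mem_prod, Set.mem_setOf_eq]
  constructor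
  · exact (le_mul_of_one_le_right hx.le (Int.add_one_le_iff.2 hy)).trans hprod
  · exact (le_mul_of_one_le_left hy.le (Int.add_one_le_iff.2 hx)).trans hprod

theorem finite_t3 {P : QF} (hP : P.Pos) {u v w : V2} (h1 : dt u v ≠ 0) (h2 : dt v w ≠ 0)
    (h3 : dt w u ≠ 0) (n : ℤ) :
    {D : M2 | D.det = n ∧ t3 P (D *ᵥ u) (D *ᵥ v) (D *ᵥ w) + or3 (D *ᵥ u) (D *ᵥ v) (D *ᵥ w) ≠ 0}.Finite := by
  by_cases hn : n = 0
  · refine Set.finite_empty.subset ?_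
    rintro D ⟨hD, hne⟩
    apply hne
    have z1 : dt (D *ᵥ u) (D *ᵥ v) = 0 := by rw [dt_mulVec, hD, hn, zero_mul]
    have z2 : dt (D *ᵥ v) (D *ᵥ w) = 0 := by rw [dt_mulVec, hD, hn, zero_mul]
    have z3 : dt (D *ᵥ w) (D *ᵥ u) = 0 := by rw [dt_mulVec, hD, hn, zero_mul]
    rw [t3, or3, sd_of_dt_eq_zero P z1, sd_of_dt_eq_zero P z2, sd_of_dt_eq_zero P z3, z1]
    simp
  · refine ((P2b_finite hP h1 hn).union ((P2b_finite hP h2 hn).union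
      (P2b_finite hP h3 hn))).subset ?_
    rintro D ⟨hD, hne⟩
    have z1 : dt (D *ᵥ u) (D *ᵥ v) ≠ 0 := by rw [dt_mulVec, hD]; exact mul_ne_zero hn h1
    have z2 : dt (D *ᵥ v) (D *ᵥ w) ≠ 0 := by rw [dt_mulVec, hD]; exact mul_ne_zero hn h2
    have z3 : dt (D *ᵥ w) (D *ᵥ u) ≠ 0 := by rw [dt_mulVec, hD]; exact mul_ne_zero hn h3
    rcases t3_cases hP z1 z2 z3 hne with h | h | h
    · exact Or.inl ⟨hD, h⟩
    · exact Or.inr (Or.inl ⟨hD, h⟩)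
    · exact Or.inr (Or.inr ⟨hD, h⟩)

end Fermat.Agent.S41Lib
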